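import Mathlib

/-!
# S27/AJ : torsion of a complex torus      (key `S27/AJ-CNT`, Mathlib only, ~350 lines)

`V = Fin g → ℂ`, `Φ : V →+ J` onto, `Λ = ker Φ`.
(1) `Λ` as a `Submodule ℤ V` (`AddSubgroup.toIntSubmodule Φ.ker`) has the discrete topology (`hdisc`: the ball of radius `ρ` around a point of `Λ` contains no other point).
(2) `span ℝ Λ = ⊤`: otherwise there is `ℓ ≠ 0` vanishing on the span (`Submodule.exists_le_ker_of_lt_top` / `Submodule.exists_dual_map_eq_bot_of_lt_top`).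
(3) `IsZLattice ℝ Λ`; `ZLattice.module_free`, `ZLattice.module_finite`, `ZLattice.rank ℝ Λ : finrank ℤ Λ = finrank ℝ V = 2 g`
    (`Complex.finrank_real_complex`, `Module.finrank_pi_fintype` or `finrank_real_of_complex`).
(4) `{x : J | N • x = 0} ≃ Λ ⧸ N Λ`: `x = Φ z`, `N z ∈ Λ`, `x ↦ [N z]`; well defined, injective (`N z = N λ ⇒ z = λ`), onto (`λ ↦ Φ (λ / N)`).
(5) `Λ ≃ ℤ^(2g)`, `#(Λ / N Λ) = N^(2g)`  (`Module.finBasis`, `Basis.equivFun`; `(Fin n → ℤ) ⧸ N = Fin n → ZMod N`; or `Submodule.natAbs_det_equiv`/`Nat.card_quotient…`).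
-/

set_option autoImplicit false

namespace Fermat.Agent.S27

namespace LatticeAux

/-- `#(M / N M) = N ^ rank M` for a free `ℤ`-module of finite rank -/
theorem card_quot_smul {M : Type*} [AddCommGroup M] [Module.Free ℤ M] [Module.Finite ℤ M]
    (N : ℕ) (hN : 0 < N) :
    Nat.card (M ⧸ LinearMap.range ((N : ℤ) • (LinearMap.id : M →ₗ[ℤ] M))) =
      N ^ Module.finrank ℤ M := by
  have hinj : Function.Injective ((N : ℤ) • (LinearMap.id : M →ₗ[ℤ] M)) := by
    intro x y h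
    simp only [LinearMap.smul_apply, LinearMap.id_coe, id_eq] at h
    have hN' : (N : ℤ) ≠ 0 := by exact_mod_cast hN.ne'
    exact smul_right_injective M hN' h
  let e := LinearEquiv.ofInjective _ hinj
  have h := Submodule.natAbs_det_equiv (LinearMap.range ((N : ℤ) • (LinearMap.id : M →ₗ[ℤ] M))) e
  rw [← h]
  have h2 : (LinearMap.range ((N : ℤ) • (LinearMap.id : M →ₗ[ℤ] M))).subtype ∘ₗ
      AddMonoidHom.toIntLinearMap (e : M →+ _) = (N : ℤ) • (LinearMap.id : M →ₗ[ℤ] M) := by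
    ext x
    rfl
  rw [h2, LinearMap.det_smul, LinearMap.det_id, mul_one, Int.natAbs_pow, Int.natAbs_natCast]

end LatticeAux

open LatticeAux

theorem card_torsion_of_lattice {g : ℕ} {J : Type*} [AddCommGroup J] (Φ : (Fin g → ℂ) →+ J)
    (hsurj : Function.Surjective Φ)
    (hdisc : ∃ ρ : ℝ, 0 < ρ ∧ ∀ z, ‖z‖ < ρ → Φ z = 0 → z = 0)
    (hspan : ∀ ℓ : (Fin g → ℂ) →ₗ[ℝ] ℝ, (∀ z, Φ z = 0 → ℓ z = 0) → ℓ = 0)
    (N : ℕ) (hN : 0 < N) :
    Nat.card ((Submodule.torsionBy ℤ J (N : ℤ)).toAddSubgroup) = N ^ (2 * g) := by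
  obtain ⟨Λ, hΛ⟩ : ∃ Λ : Submodule ℤ (Fin g → ℂ), Λ = AddSubgroup.toIntSubmodule Φ.ker := ⟨_, rfl⟩
  have hmem : ∀ z, z ∈ Λ ↔ Φ z = 0 := by
    intro z
    rw [hΛ]
    exact AddMonoidHom.mem_ker
  have hd : DiscreteTopology Λ := by
    obtain ⟨ρ, hρ, h⟩ := hdisc
    refine discreteTopology_of_isOpen_singleton_zero ?_
    have : ({0} : Set Λ) = (Subtype.val : Λ → (Fin g → ℂ)) ⁻¹' Metric.ball 0 ρ := by
      ext x
      simp only [Set.mem_singleton_iff, Set.mem_preimage, Metric.mem_ball, dist_zero_right]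
      constructor
      · rintro rfl
        simpa using hρ
      · intro hx
        exact Subtype.ext (h x.1 hx ((hmem _).1 x.2))
    rw [this]
    exact Metric.isOpen_ball.preimage continuous_subtype_val
  have hz : IsZLattice ℝ Λ := by
    refine ⟨?_⟩
    by_contra hne
    obtain ⟨ℓ, hℓ, hle⟩ := Submodule.exists_le_ker_of_lt_top _ (lt_top_iff_ne_top.2 hne)
    refine hℓ (hspan ℓ fun z hz => ?_)
    exact hle (Submodule.subset_span ((hmem z).2 hz))
  have := ZLattice.module_free ℝ Λ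
  have := ZLattice.module_finite ℝ Λ
  have hrank : Module.finrank ℤ Λ = 2 * g := by
    rw [ZLattice.rank ℝ Λ, Module.finrank_pi_fintype]
    simp [Complex.finrank_real_complex, mul_comm]
  have hNR : (N : ℝ) ≠ 0 := by exact_mod_cast hN.ne'
  -- the map `λ ↦ Φ (λ / N)`
  let ψ : Λ →+ (Submodule.torsionBy ℤ J (N : ℤ)).toAddSubgroup :=
    { toFun := fun x => ⟨Φ (((N : ℝ)⁻¹) • (x : Fin g → ℂ)), by
        show Φ (((N : ℝ)⁻¹) • (x : Fin g → ℂ)) ∈ Submodule.torsionBy ℤ J (N : ℤ)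
        rw [Submodule.mem_torsionBy_iff, ← map_zsmul, natCast_zsmul, ← Nat.cast_smul_eq_nsmul ℝ,
          smul_smul, mul_inv_cancel₀ hNR, one_smul]
        exact (hmem _).1 x.2⟩
      map_zero' := by
        apply Subtype.ext
        simp
      map_add' := fun x y => by
        apply Subtype.ext
        simp [smul_add] }
  have hψs : Function.Surjective ψ := by
    rintro ⟨x, hx⟩
    obtain ⟨z, rfl⟩ := hsurj x
    have hx' : Φ z ∈ Submodule.torsionBy ℤ J (N : ℤ) := hx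
    rw [Submodule.mem_torsionBy_iff, ← map_zsmul, natCast_zsmul] at hx'
    refine ⟨⟨N • z, (hmem _).2 hx'⟩, Subtype.ext ?_⟩
    show Φ (((N : ℝ)⁻¹) • (N • z)) = Φ z
    rw [← Nat.cast_smul_eq_nsmul ℝ, smul_smul, inv_mul_cancel₀ hNR, one_smul]
  have hker : ψ.ker = (LinearMap.range ((N : ℤ) • (LinearMap.id : Λ →ₗ[ℤ] Λ))).toAddSubgroup := by
    ext x
    rw [AddMonoidHom.mem_ker, Submodule.mem_toAddSubgroup, LinearMap.mem_range]
    constructor
    · intro h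
      have h1 : Φ (((N : ℝ)⁻¹) • (x : Fin g → ℂ)) = 0 := congrArg Subtype.val h
      refine ⟨⟨_, (hmem _).2 h1⟩, Subtype.ext ?_⟩
      show (N : ℤ) • (((N : ℝ)⁻¹) • (x : Fin g → ℂ)) = x
      rw [natCast_zsmul, ← Nat.cast_smul_eq_nsmul ℝ, smul_smul, mul_inv_cancel₀ hNR, one_smul]
    · rintro ⟨y, rfl⟩
      apply Subtype.ext
      show Φ (((N : ℝ)⁻¹) • ((N : ℤ) • (y : Fin g → ℂ))) = 0
      rw [natCast_zsmul, ← Nat.cast_smul_eq_nsmul ℝ, smul_smul, inv_mul_cancel₀ hNR, one_smul]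
      exact (hmem _).1 y.2
  have h1 : Nat.card ((Submodule.torsionBy ℤ J (N : ℤ)).toAddSubgroup) = Nat.card (Λ ⧸ ψ.ker) :=
    (Nat.card_congr (QuotientAddGroup.quotientKerEquivOfSurjective ψ hψs).toEquiv).symm
  rw [h1, hker, ← hrank, ← card_quot_smul (M := Λ) N hN]
  rfl

end Fermat.Agent.S27
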