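import Fermat.Agent.S27.AJ.Span
import Fermat.Agent.S27.AJ.Lattice

/-!
# S27, block AJ : the complex case (path-free Abel-Jacobi)
-/

set_option autoImplicit false

noncomputable section

namespace Fermat.Agent.S27

open AlgebraicCurve Fermat.Agent.S37

/-- **the complex case** -/
theorem complex_case (F : Type*) [Field F] [Algebra ℂ F] (h : IsFF ℂ F) (N : ℕ) (hN : 0 < N) :
    Nat.card (Pic0.torsion ℂ F N) = N ^ (2 * genusFF ℂ F) := by
  have hfin := finite_H1 h (0 : Divisor ℂ F)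
  have hrank : Module.finrank ℂ (WD (0 : Divisor ℂ F)) = genusFF ℂ F :=
    Subspace.dual_finrank_eq
  let b : Module.Basis (Fin (genusFF ℂ F)) ℂ (WD (0 : Divisor ℂ F)) :=
    Module.finBasisOfFinrankEq ℂ _ hrank
  obtain ⟨Φ, hP1, hP2⟩ := exists_Phi h rfl b
  have hsurj := surj_Phi h Φ hP1
  exact card_torsion_of_lattice Φ hsurj hP2 (fun ℓ hℓ => span_Phi h Φ hP1 hsurj ℓ hℓ) N hN

end Fermat.Agent.S27
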