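import Fermat.Agent.S27.Val

/-!
# S27/AJ-CLS : divisors `sumPl`, `dPl` and their classes
-/

set_option autoImplicit false

noncomputable section

namespace Fermat.Agent.S27

open AlgebraicCurve Fermat.Agent.S37 Topology

variable {F : Type*} [Field F] [Algebra ℂ F]

section SumPl

open Classical

theorem sumPl_apply {n : ℕ} (P : Fin n → Place ℂ F) (v : Place ℂ F) :
    sumPl P v = ∑ i, if P i = v then (1 : ℤ) else 0 := by
  simp only [sumPl, Finsupp.coe_finsetSum, Finset.sum_apply, Finsupp.single_apply]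

theorem sumPl_nonneg {n : ℕ} (P : Fin n → Place ℂ F) (v : Place ℂ F) : 0 ≤ sumPl P v := by
  rw [sumPl_apply]
  exact Finset.sum_nonneg fun i _ => by split_ifs <;> simp

theorem sumPl_apply_self {n : ℕ} {P : Fin n → Place ℂ F} (hP : Function.Injective P) (k : Fin n) :
    sumPl P (P k) = 1 := by
  rw [sumPl_apply, Finset.sum_eq_single k]
  · simp
  · intro i _ hi
    rw [if_neg fun he => hi (hP he)]
  · intro hk; exact absurd (Finset.mem_univ k) hk

theorem sumPl_apply_of_ne {n : ℕ} {P : Fin n → Place ℂ F} {v : Place ℂ F} (hv : ∀ k, P k ≠ v) :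
    sumPl P v = 0 := by
  rw [sumPl_apply]
  exact Finset.sum_eq_zero fun i _ => if_neg (hv i)

theorem one_le_sumPl_apply {n : ℕ} (P : Fin n → Place ℂ F) (k : Fin n) : 1 ≤ sumPl P (P k) := by
  rw [sumPl_apply]
  calc (1 : ℤ) = if P k = P k then (1 : ℤ) else 0 := by simp
    _ ≤ _ := Finset.single_le_sum (f := fun i => if P i = P k then (1 : ℤ) else 0)
        (fun i _ => by split_ifs <;> simp) (Finset.mem_univ k)

theorem sumPl_le_one {n : ℕ} {P : Fin n → Place ℂ F} (hP : Function.Injective P) (v : Place ℂ F) :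
    sumPl P v ≤ 1 := by
  by_cases hv : ∃ k, P k = v
  · obtain ⟨k, rfl⟩ := hv
    exact (sumPl_apply_self hP k).le
  · push Not at hv
    rw [sumPl_apply_of_ne hv]; exact zero_le_one

theorem degree_sumPl (h : IsFF ℂ F) {n : ℕ} (P : Fin n → Place ℂ F) :
    Divisor.degree (sumPl P) = n := by
  simp [sumPl, map_sum, Divisor.degree_single, h.deg_eq_one]

theorem sumPl_cons {n : ℕ} (Q : Place ℂ F) (P : Fin n → Place ℂ F) :
    sumPl (Fin.cons Q P : Fin (n + 1) → Place ℂ F) = Finsupp.single Q 1 + sumPl P := by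
  simp [sumPl, Fin.sum_univ_succ]

theorem sumPl_sub_mem_degZero (h : IsFF ℂ F) {n : ℕ} (P Q : Fin n → Place ℂ F) :
    sumPl P - sumPl Q ∈ Divisor.degZero (K := ℂ) (F := F) := by
  rw [Divisor.mem_degZero, map_sub, degree_sumPl h, degree_sumPl h, sub_self]

end SumPl

section Cls

/-- the divisor `P - Q` -/
def dPl (P Q : Place ℂ F) : Divisor ℂ F := Finsupp.single P 1 - Finsupp.single Q 1

theorem dPl_mem_degZero (h : IsFF ℂ F) (P Q : Place ℂ F) :
    dPl P Q ∈ Divisor.degZero (K := ℂ) (F := F) := by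
  rw [Divisor.mem_degZero, dPl, map_sub, Divisor.degree_single, Divisor.degree_single,
    h.deg_eq_one, h.deg_eq_one, sub_self]

theorem cls_of_mem {D : Divisor ℂ F} (hD : D ∈ Divisor.degZero (K := ℂ) (F := F)) :
    cls D = Pic0.mk ⟨D, hD⟩ := by
  rw [cls, dif_pos hD]

theorem cls_add {D E : Divisor ℂ F} (hD : D ∈ Divisor.degZero (K := ℂ) (F := F))
    (hE : E ∈ Divisor.degZero (K := ℂ) (F := F)) : cls (D + E) = cls D + cls E := by
  rw [cls_of_mem hD, cls_of_mem hE, cls_of_mem (add_mem hD hE), ← Pic0.mk_add]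
  rfl

theorem cls_zero : cls (0 : Divisor ℂ F) = 0 := by
  rw [cls_of_mem (zero_mem _)]
  rfl

theorem cls_neg {D : Divisor ℂ F} (hD : D ∈ Divisor.degZero (K := ℂ) (F := F)) :
    cls (-D) = - cls D := by
  have h1 := cls_add hD (neg_mem hD)
  rw [add_neg_cancel, cls_zero] at h1
  exact (neg_eq_of_add_eq_zero_right h1.symm).symm

theorem cls_sub {D E : Divisor ℂ F} (hD : D ∈ Divisor.degZero (K := ℂ) (F := F))
    (hE : E ∈ Divisor.degZero (K := ℂ) (F := F)) : cls (D - E) = cls D - cls E := by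
  rw [sub_eq_add_neg, cls_add hD (neg_mem hE), cls_neg hE, sub_eq_add_neg]

theorem cls_eq_zero_iff {D : Divisor ℂ F} (hD : D ∈ Divisor.degZero (K := ℂ) (F := F)) :
    cls D = 0 ↔ D ∈ Divisor.principal (K := ℂ) (F := F) := by
  rw [cls_of_mem hD, Pic0.mk, QuotientAddGroup.eq_zero_iff, AddSubgroup.mem_addSubgroupOf]

theorem cls_sum {ι : Type*} (s : Finset ι) (D : ι → Divisor ℂ F)
    (hD : ∀ i ∈ s, D i ∈ Divisor.degZero (K := ℂ) (F := F)) :
    cls (∑ i ∈ s, D i) = ∑ i ∈ s, cls (D i) := by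
  classical
  induction s using Finset.induction_on with
  | empty => simpa using cls_zero
  | insert a s ha ih =>
    rw [Finset.sum_insert ha, Finset.sum_insert ha,
      cls_add (hD a (Finset.mem_insert_self a s))
        (sum_mem fun i hi => hD i (Finset.mem_insert_of_mem hi)),
      ih fun i hi => hD i (Finset.mem_insert_of_mem hi)]

theorem cls_zsmul {D : Divisor ℂ F} (hD : D ∈ Divisor.degZero (K := ℂ) (F := F)) (m : ℤ) :
    cls (m • D) = m • cls D := by
  rw [cls_of_mem hD, cls_of_mem (zsmul_mem hD m)]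
  rfl

/-- `Pic0` is generated by the classes `P - Q` -/
theorem closure_cls_dPl (h : IsFF ℂ F) (Q : Place ℂ F) :
    AddSubgroup.closure (Set.range fun P : Place ℂ F => cls (dPl P Q)) = ⊤ := by
  rw [eq_top_iff]
  intro x _
  obtain ⟨⟨D, hD⟩, rfl⟩ := Pic0.mk_surjective x
  rw [← cls_of_mem hD]
  have h1 : D = ∑ v ∈ D.support, D v • dPl v Q := by
    have h2 : ∑ v ∈ D.support, D v • dPl v Q
        = ∑ v ∈ D.support, Finsupp.single v (D v) - (∑ v ∈ D.support, D v) • Finsupp.single Q 1 := by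
      rw [Finset.sum_smul, ← Finset.sum_sub_distrib]
      refine Finset.sum_congr rfl fun v _ => ?_
      rw [dPl, smul_sub, Finsupp.smul_single, smul_eq_mul, mul_one]
    have h3 : ∑ v ∈ D.support, D v = 0 := by
      have := h.degree_eq_sum D
      rw [Divisor.mem_degZero.1 hD, Finsupp.sum] at this
      exact this.symm
    rw [h2, h3, zero_smul, sub_zero]
    exact (Finsupp.sum_single D).symm
  rw [h1, cls_sum _ _ fun v _ => zsmul_mem (dPl_mem_degZero h v Q) _]
  refine sum_mem fun v _ => ?_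
  rw [cls_zsmul (dPl_mem_degZero h v Q)]
  exact zsmul_mem (AddSubgroup.subset_closure (Set.mem_range_self v)) _

end Cls

end Fermat.Agent.S27
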