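import Fermat.Agent.S27.AJ.Chart
import Fermat.Agent.S27.AJ.Cls

/-!
# S27/AL : Abel's theorem, local form
keys `S27/AJ-AL-a` = `div_one_sub` (degree count, ~300 lines);  `S27/AJ-AL-b` = `sum_den_eq_zero` (~200 lines);  `S27/AJ-AL-c` = `abel_local` (assembly, ~350 lines)

`χ k`, `k : Fin n`, charts, `s k ∈ (χ k).B`, `R k = (χ k).pl (s k)` pairwise distinct, `y ∈ L(∑ R k)`: at most simple poles at the `R k`, no other poles.
`I = {k | y has a pole at R k}`, `z = y⁻¹` (if `I = ∅`, `y` is constant or at least regular everywhere: take `a k = fun _ => s k`; the divisor difference is `0`).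
For `k ∈ I`: `ord_{R k} z = 1`, `ζ k = (χ k).fn z` is analytic at `s k`, `ζ k (s k) = 0`, `deriv ≠ 0` (`deriv_fn_ne_zero`); `a k` := local inverse (`exists_local_inverse`).
For `k ∉ I`: `a k = fun _ => s k`.

* `div_one_sub` (pure algebra + `HasPrincipalDivisors`): `y` as above, `μ ≠ 0`, `P k` (`k ∈ I`) pairwise distinct places with `Reg (P k) y`, `val (P k) y = μ⁻¹`.
  Then `div (1 - μ y) = ∑_{k ∈ I} (P k - R k)`.  [poles of `1 - μ y` = poles of `y`, simple: `ord = -1` at `R k`, `k ∈ I`; zeros `⊇ {P k}`; `deg div = 0`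
  (`IsFF.hasPrincipalDivisors`, `IsFF.degree_eq_sum`): `∑_{zeros} ord = #I`, so the zeros are exactly the `P k`, all simple.]
* `sum_den_eq_zero`: `μ ≠ 0`, `σ k ∈ (χ k).B`, `σ k ∉ exc`, the places `(χ k).pl (σ k)`, `k ∈ I`, are exactly the zeros of `z - μ`, all simple.  Then
  `∑_{k ∈ I} (deriv ((χ k).fn z) (σ k))⁻¹ * (χ k).den ω (σ k) = 0`.
  [`φ = (z - μ)⁻¹` is regular outside the `P k`; `sum_loc ω φ`; `Chart.loc_inv` for `z - μ` (`fn (z - μ) = fn z - μ` near `σ k`, same derivative); `loc_eq_den`.]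
* `abel_local`: shrink `ε` so that (1) `a k μ ∈ (χ k).B`; (2) the places `(χ k).pl (a k μ)` are pairwise distinct (`Chart.sep` + continuity of `a k`).
  `H μ = ∑_k prim (a k μ)` has derivative `∑_{k∈I} den (a k μ) * (deriv (ζ k) (a k μ))⁻¹`, continuous, `= 0` for `μ ≠ 0` with `a k μ ∉ exc` for all `k`
  (the exceptional `μ` form a finite set since `μ = ζ k (a k μ)`); `eq_const_of_deriv_eq_zero_off_finite`.
-/

set_option autoImplicit false

noncomputable section

namespace Fermat.Agent.S27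

open AlgebraicCurve Fermat.Agent.S37 Topology

variable {F : Type*} [Field F] [Algebra ℂ F]

/-- [S27/AJ-AL-a] -/
theorem div_one_sub (h : IsFF ℂ F) {n : ℕ} (R P : Fin n → Place ℂ F) (hR : Function.Injective R)
    (hP : Function.Injective P) (y : F) (hy : y ∈ riemannRochSpace (sumPl R)) (μ : ℂ) (hμ : μ ≠ 0)
    (h1 : ∀ k, ¬ Reg (R k) y → Reg (P k) y ∧ val (P k) y = μ⁻¹) (h2 : ∀ k, Reg (R k) y → P k = R k) :
    ∀ v : Place ℂ F, (sumPl P - sumPl R) v = v.ord (1 - algebraMap ℂ F μ * y) := by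
  set f : F := 1 - algebraMap ℂ F μ * y with hf
  by_cases hf0 : f = 0
  · -- `y` is constant
    have hy' : y = algebraMap ℂ F μ⁻¹ := by
      have h3 : algebraMap ℂ F μ * y = 1 := (sub_eq_zero.1 hf0).symm
      have h4 : algebraMap ℂ F μ ≠ 0 := by
        rw [Ne, map_eq_zero_iff _ (algebraMap ℂ F).injective]; exact hμ
      rw [map_inv₀]
      exact eq_inv_of_mul_eq_one_right h3
    have hPR : P = R := funext fun k => h2 k (hy' ▸ reg_algebraMap _ _)
    intro v
    rw [hf0, hPR, sub_self, Place.ord_zero]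
    rfl
  · obtain ⟨D, hD, hdeg⟩ := h.hasPrincipalDivisors.exists_divisor f hf0
    have hfL : f ∈ riemannRochSpace (sumPl R) := by
      refine sub_mem ?_ ?_
      · rw [mem_riemannRochSpace_iff]
        intro v
        right
        rw [Place.ord_one]
        have := sumPl_nonneg R v
        omega
      · rw [← Algebra.smul_def]
        exact Submodule.smul_mem _ _ hy
    rw [mem_riemannRochSpace_iff] at hfL
    have hE : D - (sumPl P - sumPl R) = 0 := by
      refine RiemannAux.eq_zero_of_degree_eq_zero h _ (fun v => ?_) ?_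
      · have h3 : - sumPl R v ≤ v.ord f := (hfL v).resolve_left hf0
        simp only [Finsupp.coe_sub, Pi.sub_apply, hD v]
        by_cases hv : ∃ k, P k = v
        · obtain ⟨k, rfl⟩ := hv
          rw [sumPl_apply_self hP k]
          by_cases hk : Reg (R k) y
          · have h4 := h2 k hk
            rw [h4, sumPl_apply_self hR k]
            have h5 : Reg (R k) f :=
              (by simpa using reg_algebraMap (R k) (1 : ℂ) : Reg (R k) (1 : F)).sub
                ((reg_algebraMap _ _).mul hk)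
            have := reg_iff.1 h5
            omega
          · obtain ⟨h4, h5⟩ := h1 k hk
            have h6 : Reg (P k) (1 : F) := by simpa using reg_algebraMap (P k) (1 : ℂ)
            have h7 : val (P k) f = 0 := by
              rw [hf, val_sub h h6 ((reg_algebraMap _ _).mul h4), val_mul h (reg_algebraMap _ _) h4,
                val_algebraMap h, h5, mul_inv_cancel₀ hμ]
              have : val (P k) (1 : F) = 1 := by simpa using val_algebraMap h (P k) (1 : ℂ)
              rw [this, sub_self]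
            have h8 : 0 < (P k).ord f :=
              ((val_eq_zero_iff h (h6.sub ((reg_algebraMap _ _).mul h4))).1 h7).resolve_left hf0
            have := sumPl_nonneg R (P k)
            omega
        · push Not at hv
          rw [sumPl_apply_of_ne hv]
          omega
      · rw [map_sub, map_sub, hdeg, degree_sumPl h, degree_sumPl h]; ring
    intro v
    rw [← hD v, ← sub_eq_zero.1 hE]

/-- [S27/AJ-AL-b] -/
theorem sum_den_eq_zero (h : IsFF ℂ F) (ω : WD (0 : Divisor ℂ F)) {n : ℕ} (χ : Fin n → Chart F)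
    (σ : Fin n → ℂ) (hσ : ∀ k, σ k ∈ (χ k).B) (I : Finset (Fin n))
    (hinj : Set.InjOn (fun k => (χ k).pl (σ k)) I) (hexc : ∀ k ∈ I, σ k ∉ (χ k).exc)
    (x : F) (hx : ∀ k ∈ I, ((χ k).pl (σ k)).ord x = 1)
    (hx' : ∀ P : Place ℂ F, (∀ k ∈ I, P ≠ (χ k).pl (σ k)) → P.ord x ≤ 0) :
    ∑ k ∈ I, (deriv ((χ k).fn x) (σ k))⁻¹ * (χ k).den ω (σ k) = 0 := by
  classical
  have h1 := sum_loc ω x⁻¹ (I.image fun k => (χ k).pl (σ k)) (by
    intro P hP
    right
    rw [Place.ord_inv]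
    have := hx' P (fun k hk he => hP (Finset.mem_image.2 ⟨k, hk, he.symm⟩))
    simpa using this)
  rw [Finset.sum_image hinj] at h1
  rw [← h1]
  refine Finset.sum_congr rfl fun k hk => ?_
  rw [(χ k).loc_inv h ω (hσ k) (hx k hk), (χ k).loc_eq_den ω (hσ k) (hexc k hk)]

theorem ord_eq_zero_of_val_ne_zero (h : IsFF ℂ F) {P : Place ℂ F} {z : F} (hz : Reg P z)
    (hv : val P z ≠ 0) : z ≠ 0 ∧ P.ord z = 0 := by
  have h1 : ¬ Van P z := fun h1 => hv ((val_eq_zero_iff h hz).2 h1)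
  refine ⟨fun h0 => h1 (Or.inl h0), ?_⟩
  have h2 := reg_iff.1 hz
  have h3 : ¬ 0 < P.ord z := fun h3 => h1 (Or.inr h3)
  omega

theorem abel_aux (h : IsFF ℂ F) (χ : Chart F) {s : ℂ} (hs : s ∈ χ.B) (y : F)
    (hy : ¬ Reg (χ.pl s) y → (χ.pl s).ord y = -1) :
    ∃ (ε : ℝ) (a d : ℂ → ℂ), 0 < ε ∧ a 0 = s ∧ ContinuousOn a (Metric.ball 0 ε) ∧
      ContinuousOn d (Metric.ball 0 ε) ∧
      (∀ μ ∈ Metric.ball (0 : ℂ) ε, a μ ∈ χ.B ∧ HasDerivAt a (d μ) μ) ∧
      (Reg (χ.pl s) y → ∀ μ, a μ = s ∧ d μ = 0) ∧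
      (¬ Reg (χ.pl s) y →
         (∀ μ ∈ Metric.ball (0 : ℂ) ε, Reg (χ.pl (a μ)) y⁻¹ ∧ χ.fn y⁻¹ (a μ) = μ ∧
            d μ = (deriv (χ.fn y⁻¹) (a μ))⁻¹) ∧
         (∀ ε' : ℝ, 0 < ε' → ∀ᶠ σ in 𝓝 s, ∃ μ ∈ Metric.ball (0 : ℂ) ε', a μ = σ)) := by
  by_cases hr : Reg (χ.pl s) y
  · exact ⟨1, fun _ => s, fun _ => 0, one_pos, rfl, continuousOn_const, continuousOn_const,
      fun μ _ => ⟨hs, hasDerivAt_const μ s⟩, fun _ μ => ⟨rfl, rfl⟩, fun h' => absurd hr h'⟩
  · have hord : (χ.pl s).ord y⁻¹ = 1 := by rw [Place.ord_inv, hy hr]; rfl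
    have hreg : Reg (χ.pl s) y⁻¹ := reg_iff.2 (by rw [hord]; exact zero_le_one)
    have hana := χ.analyticAt_fn hs hreg
    have hz0 : χ.fn y⁻¹ s = 0 := (val_eq_zero_iff h hreg).2 (Or.inr (by rw [hord]; exact one_pos))
    obtain ⟨ε₀, a, hε₀, ha0, hac, hall, hev⟩ :=
      exists_local_inverse hana (χ.deriv_fn_ne_zero h hs hord)
    rw [hz0] at ha0 hac hall hev
    have hca : ContinuousAt a 0 := hac.continuousAt (Metric.ball_mem_nhds 0 hε₀)
    have hev2 : ∀ᶠ μ in 𝓝 (0 : ℂ), a μ ∈ χ.B ∧ Reg (χ.pl (a μ)) y⁻¹ := by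
      have h1 : ∀ᶠ σ in 𝓝 (a 0), σ ∈ χ.B ∧ Reg (χ.pl σ) y⁻¹ := by
        rw [ha0]
        exact (χ.eventually_mem_B hs).and (χ.eventually_reg hs hreg)
      exact hca.eventually h1
    obtain ⟨ε₁, hε₁, H1⟩ := Metric.eventually_nhds_iff_ball.1 hev2
    have hsub : Metric.ball (0 : ℂ) (min ε₀ ε₁) ⊆ Metric.ball 0 ε₀ :=
      Metric.ball_subset_ball (min_le_left _ _)
    have hsub1 : Metric.ball (0 : ℂ) (min ε₀ ε₁) ⊆ Metric.ball 0 ε₁ :=
      Metric.ball_subset_ball (min_le_right _ _)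
    refine ⟨min ε₀ ε₁, a, fun μ => (deriv (χ.fn y⁻¹) (a μ))⁻¹, lt_min hε₀ hε₁, ha0, hac.mono hsub,
      ?_, fun μ hμ => ⟨(H1 μ (hsub1 hμ)).1, (hall μ (hsub hμ)).2.2.2⟩, fun h' => absurd h' hr,
      fun _ => ⟨fun μ hμ => ⟨(H1 μ (hsub1 hμ)).2, (hall μ (hsub hμ)).1, rfl⟩, ?_⟩⟩
    · intro μ hμ
      obtain ⟨-, h2, h3, h4⟩ := hall μ (hsub hμ)
      have h5 : ContinuousAt (deriv (χ.fn y⁻¹)) (a μ) := h3.deriv.continuousAt
      have h6 : ContinuousAt (fun μ => deriv (χ.fn y⁻¹) (a μ)) μ :=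
        ContinuousAt.comp (f := a) (g := deriv (χ.fn y⁻¹)) h5 h4.continuousAt
      exact (h6.inv₀ h2).continuousWithinAt
    · intro ε' hε'
      have h7 : ∀ᶠ σ in 𝓝 s, χ.fn y⁻¹ σ ∈ Metric.ball (0 : ℂ) ε' := by
        have := hana.continuousAt.eventually (by rw [hz0]; exact Metric.ball_mem_nhds 0 hε')
        exact this
      filter_upwards [h7, hev] with σ h8 h9
      exact ⟨χ.fn y⁻¹ σ, h8, h9.2⟩

/-- [S27/AJ-AL-c] **Abel's theorem, local form** -/
theorem abel_local (h : IsFF ℂ F) {n : ℕ} (χ : Fin n → Chart F) (s : Fin n → ℂ)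
    (hs : ∀ k, s k ∈ (χ k).B) (hinj : Function.Injective fun k => (χ k).pl (s k))
    (y : F) (hy : y ∈ riemannRochSpace (sumPl fun k => (χ k).pl (s k))) :
    ∃ (ε : ℝ) (a : Fin n → ℂ → ℂ), 0 < ε ∧ (∀ k, a k 0 = s k) ∧
      (∀ k, ContinuousOn (a k) (Metric.ball 0 ε)) ∧
      (∀ k, ∀ μ ∈ Metric.ball (0 : ℂ) ε, a k μ ∈ (χ k).B) ∧
      (∀ μ ∈ Metric.ball (0 : ℂ) ε,
        (sumPl fun k => (χ k).pl (a k μ)) - (sumPl fun k => (χ k).pl (s k)) ∈
          Divisor.principal (K := ℂ) (F := F)) ∧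
      (∀ ω : WD (0 : Divisor ℂ F), ∀ μ ∈ Metric.ball (0 : ℂ) ε,
        ∑ k, ((χ k).prim ω (a k μ) - (χ k).prim ω (s k)) = 0) ∧
      (∀ k, ¬ Reg ((χ k).pl (s k)) y → ∀ ε' : ℝ, 0 < ε' →
        ∀ᶠ σ in 𝓝 (s k), ∃ μ ∈ Metric.ball (0 : ℂ) ε', a k μ = σ) := by
  classical
  set R : Fin n → Place ℂ F := fun k => (χ k).pl (s k) with hR
  have hyL := mem_riemannRochSpace_iff.1 hy
  have hpole : ∀ k, ¬ Reg (R k) y → (R k).ord y = -1 := by
    intro k hk
    have h1 : (R k).ord y < 0 := by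
      by_contra hcon
      exact hk (reg_iff.2 (not_lt.1 hcon))
    have h2 : y ≠ 0 := by
      rintro rfl
      rw [Place.ord_zero] at h1
      exact lt_irrefl _ h1
    have h3 := (hyL (R k)).resolve_left h2
    rw [sumPl_apply_self hinj k] at h3
    omega
  have hex := fun k => abel_aux h (χ k) (hs k) y (hpole k)
  choose ε₀ a d hε₀ ha0 hac hdc hB hreg hnreg using hex
  -- the places stay distinct
  have hca : ∀ k, ContinuousAt (a k) 0 := fun k =>
    (hac k).continuousAt (Metric.ball_mem_nhds 0 (hε₀ k))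
  have E1 : ∀ᶠ μ in 𝓝 (0 : ℂ), ∀ k, μ ∈ Metric.ball (0 : ℂ) (ε₀ k) :=
    Filter.eventually_all.2 fun k => Metric.ball_mem_nhds 0 (hε₀ k)
  have E2 : ∀ᶠ μ in 𝓝 (0 : ℂ), ∀ k k', k ≠ k' → (χ k).pl (a k μ) ≠ (χ k').pl (a k' μ) := by
    refine Filter.eventually_all.2 fun k => Filter.eventually_all.2 fun k' => ?_
    by_cases hkk : k = k'
    · exact Filter.Eventually.of_forall fun μ hne => absurd hkk hne
    · obtain ⟨δ, hδ, H⟩ := Chart.sep h (χ k) (χ k') (hs k) (hs k') (fun he => hkk (hinj he))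
      have h1 : ∀ᶠ μ in 𝓝 (0 : ℂ), ‖a k μ - s k‖ < δ := by
        have := Metric.continuousAt_iff'.1 (hca k) δ hδ
        simpa only [dist_eq_norm, ha0] using this
      have h2 : ∀ᶠ μ in 𝓝 (0 : ℂ), ‖a k' μ - s k'‖ < δ := by
        have := Metric.continuousAt_iff'.1 (hca k') δ hδ
        simpa only [dist_eq_norm, ha0] using this
      filter_upwards [h1, h2] with μ h3 h4 _
      exact H _ _ h3 h4
  obtain ⟨ε, hε, Hε⟩ := Metric.eventually_nhds_iff_ball.1 (E1.and E2)
  have hsub : ∀ k, Metric.ball (0 : ℂ) ε ⊆ Metric.ball 0 (ε₀ k) := fun k μ hμ => (Hε μ hμ).1 k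
  have hPinj : ∀ μ ∈ Metric.ball (0 : ℂ) ε, Function.Injective fun k => (χ k).pl (a k μ) := by
    intro μ hμ k k' he
    by_contra hne
    exact (Hε μ hμ).2 k k' hne he
  -- the hypotheses of `div_one_sub`
  have hval : ∀ μ ∈ Metric.ball (0 : ℂ) ε, μ ≠ 0 → ∀ k, ¬ Reg (R k) y →
      y⁻¹ ≠ 0 ∧ ((χ k).pl (a k μ)).ord y⁻¹ = 0 := by
    intro μ hμ hμ0 k hk
    obtain ⟨h1, h2, -⟩ := (hnreg k hk).1 μ (hsub k hμ)
    exact ord_eq_zero_of_val_ne_zero h h1 (by
      have : val ((χ k).pl (a k μ)) y⁻¹ = μ := h2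
      rw [this]; exact hμ0)
  have hdiv : ∀ μ ∈ Metric.ball (0 : ℂ) ε, μ ≠ 0 → ∀ v : Place ℂ F,
      ((sumPl fun k => (χ k).pl (a k μ)) - sumPl R) v = v.ord (1 - algebraMap ℂ F μ * y) := by
    intro μ hμ hμ0
    refine div_one_sub h R _ hinj (hPinj μ hμ) y hy μ hμ0 ?_ ?_
    · intro k hk
      obtain ⟨h1, h2, -⟩ := (hnreg k hk).1 μ (hsub k hμ)
      obtain ⟨h3, h4⟩ := hval μ hμ hμ0 k hk
      have h5 := val_inv h h4 h3
      rw [inv_inv] at h5
      refine ⟨reg_iff.2 ?_, ?_⟩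
      · have := Place.ord_inv ((χ k).pl (a k μ)) y
        omega
      · rw [h5]
        have : val ((χ k).pl (a k μ)) y⁻¹ = μ := h2
        rw [this]
    · intro k hk
      show (χ k).pl (a k μ) = (χ k).pl (s k)
      rw [((hreg k hk) μ).1]
  refine ⟨ε, a, hε, ha0, fun k => (hac k).mono (hsub k), fun k μ hμ => (hB k μ (hsub k hμ)).1,
    ?_, ?_, fun k hk => (hnreg k hk).2⟩
  · -- principal
    intro μ hμ
    by_cases hμ0 : μ = 0
    · have : (fun k => (χ k).pl (a k μ)) = fun k => (χ k).pl (s k) := by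
        funext k; rw [hμ0, ha0]
      rw [this, sub_self]
      exact zero_mem _
    · have h1 := hdiv μ hμ hμ0
      by_cases hf : 1 - algebraMap ℂ F μ * y = 0
      · refine ⟨1, one_ne_zero, fun v => ?_⟩
        rw [h1 v, hf, Place.ord_zero, Place.ord_one]
      · exact ⟨_, hf, h1⟩
  · -- the integrals
    intro ω
    set H : ℂ → ℂ := fun μ => ∑ k, (χ k).prim ω (a k μ) with hH
    set f : ℂ → ℂ := fun μ => ∑ k, (χ k).den ω (a k μ) * d k μ with hf
    have hHd : ∀ μ ∈ Metric.ball (0 : ℂ) ε, HasDerivAt H (f μ) μ := by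
      intro μ hμ
      refine HasDerivAt.fun_sum fun k _ => ?_
      obtain ⟨h1, h2⟩ := hB k μ (hsub k hμ)
      exact ((χ k).hasDerivAt_prim ω h1).comp μ h2
    have hfc : ContinuousOn f (Metric.ball (0 : ℂ) ε) := by
      refine continuousOn_finsetSum _ fun k _ => ?_
      refine ContinuousOn.mul ?_ ((hdc k).mono (hsub k))
      intro μ hμ
      obtain ⟨h1, h2⟩ := hB k μ (hsub k hμ)
      exact (ContinuousAt.comp (f := a k) (g := (χ k).den ω)
        ((χ k).analyticAt_den ω h1).continuousAt h2.continuousAt).continuousWithinAt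
    set E : Set ℂ := {0} ∪ ⋃ k, (χ k).fn y⁻¹ '' (χ k).exc with hE
    have hEfin : E.Finite :=
      (Set.finite_singleton 0).union (Set.finite_iUnion fun k => ((χ k).exc_fin).image _)
    have hf0 : ∀ μ ∈ Metric.ball (0 : ℂ) ε, μ ∉ E → f μ = 0 := by
      intro μ hμ hμE
      have hμ0 : μ ≠ 0 := fun h0 => hμE (Or.inl h0)
      by_cases hI : ∃ k, ¬ Reg (R k) y
      · obtain ⟨k₀, hk₀⟩ := hI
        have hy0 : y ≠ 0 := by
          rintro rfl
          exact hk₀ (by simpa using reg_algebraMap (R k₀) (0 : ℂ))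
        have hμF : algebraMap ℂ F μ ≠ 0 := by
          rw [Ne, map_eq_zero_iff _ (algebraMap ℂ F).injective]; exact hμ0
        have hf1 : 1 - algebraMap ℂ F μ * y ≠ 0 := by
          intro h0
          apply hk₀
          have h3 : algebraMap ℂ F μ * y = 1 := (sub_eq_zero.1 h0).symm
          have : y = algebraMap ℂ F μ⁻¹ := by
            rw [map_inv₀]
            exact eq_inv_of_mul_eq_one_right h3
          rw [this]
          exact reg_algebraMap _ _
        have hxe : y⁻¹ - algebraMap ℂ F μ = y⁻¹ * (1 - algebraMap ℂ F μ * y) := by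
          field_simp
        have hord : ∀ v : Place ℂ F, v.ord (y⁻¹ - algebraMap ℂ F μ) =
            - v.ord y + ((sumPl fun k => (χ k).pl (a k μ)) v - sumPl R v) := by
          intro v
          rw [hxe, Place.ord_mul _ (inv_ne_zero hy0) hf1, Place.ord_inv, ← hdiv μ hμ hμ0 v]
          rfl
        have key := sum_den_eq_zero h ω χ (fun k => a k μ) (fun k => (hB k μ (hsub k hμ)).1)
          (Finset.univ.filter fun k => ¬ Reg (R k) y) ((hPinj μ hμ).injOn) ?_
          (y⁻¹ - algebraMap ℂ F μ) ?_ ?_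
        · rw [Finset.sum_filter] at key
          rw [← key]
          refine Finset.sum_congr rfl fun k _ => ?_
          by_cases hk : Reg (R k) y
          · rw [if_neg (not_not.2 hk), ((hreg k hk) μ).2, mul_zero]
          · rw [if_pos hk]
            obtain ⟨h1, h2, h3⟩ := (hnreg k hk).1 μ (hsub k hμ)
            have h4 : (χ k).fn (y⁻¹ - algebraMap ℂ F μ) =ᶠ[𝓝 (a k μ)]
                fun σ => (χ k).fn y⁻¹ σ - μ := by
              filter_upwards [(χ k).eventually_reg (hB k μ (hsub k hμ)).1 h1] with σ hσ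
              show val _ _ = val _ _ - μ
              rw [val_sub h hσ (reg_algebraMap _ _), val_algebraMap h]
            rw [h4.deriv_eq, deriv_sub_const, h3, mul_comm]
        · intro k hk hexc
          rw [Finset.mem_filter] at hk
          obtain ⟨h1, h2, h3⟩ := (hnreg k hk.2).1 μ (hsub k hμ)
          exact hμE (Or.inr (Set.mem_iUnion.2 ⟨k, _, hexc, h2⟩))
        · intro k hk
          rw [Finset.mem_filter] at hk
          obtain ⟨h1, h2, h3⟩ := (hnreg k hk.2).1 μ (hsub k hμ)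
          have h4 : Van ((χ k).pl (a k μ)) (y⁻¹ - algebraMap ℂ F μ) := by
            have := van_sub_val h h1
            have h5 : val ((χ k).pl (a k μ)) y⁻¹ = μ := h2
            rwa [h5] at this
          have h5 : y⁻¹ - algebraMap ℂ F μ ≠ 0 := by
            rw [hxe]; exact mul_ne_zero (inv_ne_zero hy0) hf1
          have h6 := h4.resolve_left h5
          have h7 := hord ((χ k).pl (a k μ))
          have h8 := (hval μ hμ hμ0 k hk.2).2
          rw [Place.ord_inv] at h8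
          have h9 := sumPl_le_one (hPinj μ hμ) ((χ k).pl (a k μ))
          have h10 := sumPl_nonneg R ((χ k).pl (a k μ))
          omega
        · intro v hv
          rw [hord v]
          by_cases hvk : ∃ k, (χ k).pl (a k μ) = v
          · obtain ⟨k, rfl⟩ := hvk
            have hk : Reg (R k) y := by
              by_contra hk
              exact hv k (Finset.mem_filter.2 ⟨Finset.mem_univ k, hk⟩) rfl
            have h1 : (χ k).pl (a k μ) = R k := by
              show (χ k).pl (a k μ) = (χ k).pl (s k)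
              rw [((hreg k hk) μ).1]
            have h2 := sumPl_le_one (hPinj μ hμ) ((χ k).pl (a k μ))
            rw [h1] at h2 ⊢
            rw [sumPl_apply_self hinj k]
            have := reg_iff.1 hk
            omega
          · push Not at hvk
            rw [sumPl_apply_of_ne hvk]
            have := (hyL v).resolve_left hy0
            omega
      · push Not at hI
        exact Finset.sum_eq_zero fun k _ => by rw [((hreg k (hI k)) μ).2, mul_zero]
    intro μ hμ
    have h1 := eq_const_of_deriv_eq_zero_off_finite hEfin hHd hfc hf0 μ hμ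
    rw [Finset.sum_sub_distrib, sub_eq_zero]
    have h2 : H 0 = ∑ k, (χ k).prim ω (s k) := by
      simp only [hH, ha0]
    rw [← h2, ← h1]

end Fermat.Agent.S27
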