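import Mathlib

/-!
# S27/AJ : one variable complex analysis      (Mathlib only)
keys `S27/AJ-ANA-a` = `exists_primitive`, `eq_const_of_deriv_eq_zero_off_finite` (~150 lines);
     `S27/AJ-ANA-b` = `exists_local_inverse` (~200 lines);   `S27/AJ-ANA-c` = `exists_roots` (~350 lines)

* `exists_primitive`: Mathlib: holomorphic functions on a disc have primitives (`DifferentiableOn.isExactOn_ball`, file `Mathlib/Analysis/Complex/HasPrimitives.lean`);
  subtract the value at `0`.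
* `eq_const_of_deriv_eq_zero_off_finite`: `f` is continuous on the ball and vanishes off a finite set, so it vanishes (the complement of a finite set is dense in the ball);
  then `G` is constant on the convex ball (`Convex.is_const_of_fderivWithin_eq_zero` / `IsOpen.is_const_of_deriv_eq_zero`, the ball is preconnected).
* `exists_local_inverse`: `HasStrictDerivAt.toOpenPartialHomeomorph` (`AnalyticAt.hasStrictDerivAt`), `a` = the local inverse.  It is differentiable at every point near `ζ σ₀` with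
  derivative `(ζ' (a μ))⁻¹` (`OpenPartialHomeomorph.hasDerivAt_symm` / `HasStrictDerivAt.to_localInverse` at the nearby points, where `ζ' ≠ 0` by continuity).
* `exists_roots`: `ζ σ - c = (σ - σ₀)^e • h σ`, `h` analytic, `h σ₀ ≠ 0` (`AnalyticAt.analyticOrderAt_eq_natCast`).  `k σ = w₀ * exp (log (h σ / h σ₀) / e)` with `w₀^e = h σ₀`
  is analytic near `σ₀` and `k^e = h`.  `θ σ = (σ - σ₀) * k σ`, `θ' σ₀ = k σ₀ ≠ 0`, `θ^e = ζ - c`.  `exists_local_inverse` for `θ`.  For `c' ≠ c` near `c` choose `w` with `w^e = c' - c`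
  (`‖w‖ = ‖c' - c‖^(1/e)` is small), `ξ` a primitive `e`-th root of unity; `σ_j = a (ξ^j w)`, `j < e`, are distinct (apply `θ`).  For `c' = c` the statement asks only for `S` with
  `card = e`?  NO: the statement is for `c' ≠ c`.
-/

set_option autoImplicit false

open Topology

namespace Fermat.Agent.S27

/-- primitives on a disc -/
theorem exists_primitive {f : ℂ → ℂ} {r : ℝ} (hf : DifferentiableOn ℂ f (Metric.ball 0 r)) :
    ∃ G : ℂ → ℂ, G 0 = 0 ∧ ∀ σ ∈ Metric.ball (0 : ℂ) r, HasDerivAt G (f σ) σ :=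
  hf.isExactOn_ball.with_val_at 0 0

theorem eq_const_of_deriv_eq_zero_off_finite {G f : ℂ → ℂ} {c : ℂ} {r : ℝ} {E : Set ℂ}
    (hE : E.Finite) (hG : ∀ σ ∈ Metric.ball c r, HasDerivAt G (f σ) σ)
    (hf : ContinuousOn f (Metric.ball c r)) (h0 : ∀ σ ∈ Metric.ball c r, σ ∉ E → f σ = 0) :
    ∀ σ ∈ Metric.ball c r, G σ = G c := by
  have hz : ∀ σ ∈ Metric.ball c r, f σ = 0 := by
    intro σ hσ
    have hc : ContinuousAt f σ := hf.continuousAt (Metric.isOpen_ball.mem_nhds hσ)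
    have h1 : ∀ᶠ x in 𝓝[≠] σ, f x = 0 := by
      have hE' : ∀ᶠ x in 𝓝[≠] σ, x ∉ E := by
        have : (E \ {σ})ᶜ ∈ 𝓝 σ :=
          ((hE.subset Set.sdiff_subset).isClosed.isOpen_compl).mem_nhds (by simp)
        filter_upwards [nhdsWithin_le_nhds this, self_mem_nhdsWithin] with x hx hx' hxE
        exact hx ⟨hxE, hx'⟩
      have hb : ∀ᶠ x in 𝓝[≠] σ, x ∈ Metric.ball c r :=
        nhdsWithin_le_nhds (Metric.isOpen_ball.mem_nhds hσ)
      filter_upwards [hE', hb] with x h1 h2 using h0 x h2 h1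
    have h2 : Filter.Tendsto f (𝓝[≠] σ) (𝓝 (f σ)) := hc.tendsto.mono_left nhdsWithin_le_nhds
    have h3 : Filter.Tendsto f (𝓝[≠] σ) (𝓝 0) := (Filter.tendsto_congr' h1).2 tendsto_const_nhds
    exact tendsto_nhds_unique h2 h3
  intro σ hσ
  have hr : 0 < r := lt_of_le_of_lt dist_nonneg (Metric.mem_ball.1 hσ)
  refine Metric.isOpen_ball.is_const_of_deriv_eq_zero (convex_ball c r).isPreconnected
    (fun x hx => (hG x hx).differentiableAt.differentiableWithinAt) (fun x hx => ?_) hσ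
    (Metric.mem_ball_self hr)
  rw [(hG x hx).deriv, hz x hx]
  rfl

/-- local inverse of an analytic function with non zero derivative -/
theorem exists_local_inverse {ζ : ℂ → ℂ} {σ₀ : ℂ} (hζ : AnalyticAt ℂ ζ σ₀) (h' : deriv ζ σ₀ ≠ 0) :
    ∃ (ε : ℝ) (a : ℂ → ℂ), 0 < ε ∧ a (ζ σ₀) = σ₀ ∧ ContinuousOn a (Metric.ball (ζ σ₀) ε) ∧
      (∀ μ ∈ Metric.ball (ζ σ₀) ε, ζ (a μ) = μ ∧ deriv ζ (a μ) ≠ 0 ∧ AnalyticAt ℂ ζ (a μ) ∧
        HasDerivAt a (deriv ζ (a μ))⁻¹ μ) ∧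
      (∀ᶠ σ in 𝓝 σ₀, ζ σ ∈ Metric.ball (ζ σ₀) ε ∧ a (ζ σ) = σ) := by
  have hs : HasStrictDerivAt ζ (deriv ζ σ₀) σ₀ := hζ.hasStrictDerivAt
  have hs' := hs.hasStrictFDerivAt_equiv h'
  obtain ⟨e, he⟩ : ∃ e : OpenPartialHomeomorph ℂ ℂ, e = hs'.toOpenPartialHomeomorph ζ := ⟨_, rfl⟩
  have hcoe : (e : ℂ → ℂ) = ζ := by rw [he]; exact hs'.toOpenPartialHomeomorph_coe
  have hsrc : σ₀ ∈ e.source := by rw [he]; exact hs'.mem_toOpenPartialHomeomorph_source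
  have htgt : ζ σ₀ ∈ e.target := by rw [← hcoe]; exact e.map_source hsrc
  have hinv0 : e.symm (ζ σ₀) = σ₀ := by rw [← hcoe]; exact e.left_inv hsrc
  -- the good neighbourhood of `σ₀`
  have hU : ∀ᶠ σ in 𝓝 σ₀, AnalyticAt ℂ ζ σ ∧ deriv ζ σ ≠ 0 := by
    refine hζ.eventually_analyticAt.and ?_
    exact hζ.deriv.continuousAt.eventually_ne h'
  have hcont : ContinuousAt e.symm (ζ σ₀) := e.symm.continuousAt htgt
  have hV : ∀ᶠ μ in 𝓝 (ζ σ₀), μ ∈ e.target ∧ AnalyticAt ℂ ζ (e.symm μ) ∧ deriv ζ (e.symm μ) ≠ 0 := by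
    refine Filter.Eventually.and (e.open_target.mem_nhds htgt) ?_
    have := hcont.tendsto
    rw [hinv0] at this
    exact this.eventually hU
  obtain ⟨ε, hε, hball⟩ := Metric.eventually_nhds_iff_ball.1 hV
  refine ⟨ε, e.symm, hε, hinv0, ?_, ?_, ?_⟩
  · exact e.continuousOn_symm.mono fun μ hμ => (hball μ hμ).1
  · intro μ hμ
    obtain ⟨h1, h2, h3⟩ := hball μ hμ
    refine ⟨?_, h3, h2, ?_⟩
    · rw [← hcoe]; exact e.right_inv h1
    · refine e.hasDerivAt_symm h1 h3 ?_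
      rw [hcoe]
      exact h2.differentiableAt.hasDerivAt
  · have h1 : ∀ᶠ σ in 𝓝 σ₀, ζ σ ∈ Metric.ball (ζ σ₀) ε :=
      hζ.continuousAt.eventually (Metric.ball_mem_nhds _ hε)
    have h2 : ∀ᶠ σ in 𝓝 σ₀, σ ∈ e.source := e.open_source.mem_nhds hsrc
    filter_upwards [h1, h2] with σ h1 h2
    refine ⟨h1, ?_⟩
    rw [← hcoe]
    exact e.left_inv h2

/-- an analytic function with a zero of order `e` takes the nearby values at least `e` times -/
theorem exists_roots {ζ : ℂ → ℂ} {σ₀ c : ℂ} {e : ℕ} (hζ : AnalyticAt ℂ ζ σ₀)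
    (he : analyticOrderAt (fun σ => ζ σ - c) σ₀ = e) (ε : ℝ) (hε : 0 < ε) :
    ∃ δ : ℝ, 0 < δ ∧ ∀ c' : ℂ, c' ≠ c → ‖c' - c‖ < δ →
      ∃ S : Finset ℂ, S.card = e ∧ ∀ σ ∈ S, ‖σ - σ₀‖ < ε ∧ ζ σ = c' := by
  rcases Nat.eq_zero_or_pos e with rfl | he0
  · exact ⟨1, one_pos, fun c' _ _ => ⟨∅, rfl, by simp⟩⟩
  have hζc : AnalyticAt ℂ (fun σ => ζ σ - c) σ₀ := hζ.sub analyticAt_const
  obtain ⟨h, hh, hh0, hev⟩ := (hζc.analyticOrderAt_eq_natCast).1 he
  obtain ⟨w₀, hw₀⟩ := IsAlgClosed.exists_pow_nat_eq (h σ₀) he0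
  have hw₀0 : w₀ ≠ 0 := by
    rintro rfl
    rw [zero_pow he0.ne'] at hw₀
    exact hh0 hw₀.symm
  have heC : (e : ℂ) ≠ 0 := by exact_mod_cast he0.ne'
  -- the `e`-th root of `h`
  obtain ⟨k, hk⟩ : ∃ k : ℂ → ℂ, k = fun σ => w₀ * Complex.exp (Complex.log (h σ / h σ₀) / e) :=
    ⟨_, rfl⟩
  have hkan : AnalyticAt ℂ k σ₀ := by
    rw [hk]
    refine analyticAt_const.mul (AnalyticAt.cexp ?_)
    refine AnalyticAt.div (AnalyticAt.clog (hh.div analyticAt_const hh0) ?_) analyticAt_const heC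
    rw [div_self hh0]
    exact Complex.one_mem_slitPlane
  have hk0 : k σ₀ = w₀ := by
    rw [hk]
    simp [div_self hh0]
  have hkpow : ∀ᶠ σ in 𝓝 σ₀, k σ ^ e = h σ := by
    filter_upwards [hh.continuousAt.eventually_ne hh0] with σ hσ
    rw [hk]
    simp only
    rw [mul_pow, hw₀, ← Complex.exp_nat_mul, mul_div_cancel₀ _ heC,
      Complex.exp_log (div_ne_zero hσ hh0), mul_div_cancel₀ _ hh0]
  obtain ⟨θ, hθ⟩ : ∃ θ : ℂ → ℂ, θ = fun σ => (σ - σ₀) * k σ := ⟨_, rfl⟩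
  have hθan : AnalyticAt ℂ θ σ₀ := by
    rw [hθ]
    exact (analyticAt_id.sub analyticAt_const).mul hkan
  have hθ0 : θ σ₀ = 0 := by rw [hθ]; simp
  have hθ' : deriv θ σ₀ ≠ 0 := by
    have h1 : HasDerivAt θ (1 * k σ₀ + (σ₀ - σ₀) * deriv k σ₀) σ₀ := by
      rw [hθ]
      exact ((hasDerivAt_id σ₀).sub_const σ₀).mul hkan.differentiableAt.hasDerivAt
    rw [h1.deriv, hk0]
    simpa using hw₀0
  have hθpow : ∀ᶠ σ in 𝓝 σ₀, θ σ ^ e = ζ σ - c := by
    filter_upwards [hkpow, hev] with σ h1 h2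
    rw [h2, hθ]
    simp only
    rw [mul_pow, h1, smul_eq_mul]
  obtain ⟨ε₁, a, hε₁, ha0, hacont, ha, -⟩ := exists_local_inverse hθan hθ'
  rw [hθ0] at ha0 hacont ha
  have hacont0 : ContinuousAt a 0 := hacont.continuousAt (Metric.ball_mem_nhds _ hε₁)
  have hN : ∀ᶠ w in 𝓝 (0 : ℂ), w ∈ Metric.ball (0 : ℂ) ε₁ ∧ ‖a w - σ₀‖ < ε ∧ θ (a w) ^ e = ζ (a w) - c := by
    refine Filter.Eventually.and (Metric.ball_mem_nhds _ hε₁) ?_
    have ht := hacont0.tendsto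
    rw [ha0] at ht
    have hP : ∀ᶠ σ in 𝓝 σ₀, ‖σ - σ₀‖ < ε ∧ θ σ ^ e = ζ σ - c := by
      refine Filter.Eventually.and ?_ hθpow
      have := Metric.ball_mem_nhds σ₀ hε
      filter_upwards [this] with σ hσ
      rwa [Metric.mem_ball, dist_eq_norm] at hσ
    exact ht.eventually hP
  obtain ⟨δ₁, hδ₁, hball⟩ := Metric.eventually_nhds_iff_ball.1 hN
  refine ⟨δ₁ ^ e, pow_pos hδ₁ e, fun c' hc' hlt => ?_⟩
  obtain ⟨w, hw⟩ := IsAlgClosed.exists_pow_nat_eq (c' - c) he0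
  have hw0 : w ≠ 0 := by
    rintro rfl
    rw [zero_pow he0.ne'] at hw
    exact hc' (sub_eq_zero.1 hw.symm)
  have hwn : ‖w‖ < δ₁ := by
    rw [← hw, norm_pow] at hlt
    exact lt_of_pow_lt_pow_left₀ e hδ₁.le hlt
  have hξ := Complex.isPrimitiveRoot_exp e he0.ne'
  obtain ⟨ξ, hξdef⟩ : ∃ ξ : ℂ, ξ = Complex.exp (2 * Real.pi * Complex.I / e) := ⟨_, rfl⟩
  rw [← hξdef] at hξ
  have hξn : ∀ j : ℕ, ‖ξ ^ j * w‖ = ‖w‖ := by
    intro j
    rw [norm_mul, norm_pow, hξ.norm'_eq_one he0.ne', one_pow, one_mul]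
  have hmem : ∀ j : ℕ, ξ ^ j * w ∈ Metric.ball (0 : ℂ) δ₁ := by
    intro j
    rw [Metric.mem_ball, dist_zero_right, hξn]
    exact hwn
  refine ⟨(Finset.range e).image fun j => a (ξ ^ j * w), ?_, ?_⟩
  · rw [Finset.card_image_of_injOn, Finset.card_range]
    intro i hi j hj hij
    simp only at hij
    have h1 := (ha _ (hball _ (hmem i)).1).1
    have h2 := (ha _ (hball _ (hmem j)).1).1
    rw [hij, h2] at h1
    have h3 : ξ ^ j = ξ ^ i := mul_right_cancel₀ hw0 h1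
    exact (hξ.pow_inj (Finset.mem_range.1 (Finset.mem_coe.1 hj))
      (Finset.mem_range.1 (Finset.mem_coe.1 hi)) h3).symm
  · intro σ hσ
    obtain ⟨j, -, rfl⟩ := Finset.mem_image.1 hσ
    obtain ⟨h1, h2, h3⟩ := hball _ (hmem j)
    refine ⟨h2, ?_⟩
    rw [(ha _ h1).1, mul_pow, ← pow_mul, mul_comm j e, pow_mul, hξ.pow_eq_one, one_pow, one_mul,
      hw] at h3
    exact (sub_left_inj.1 h3).symm

end Fermat.Agent.S27
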