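import Fermat.Agent.S27.Val
import Fermat.Agent.S27.AJ.Ana

/-!
# S27/AJ0 : calculus in a chart
keys `S27/AJ-CH-a` = section Basic (`val_t` ... `reg_inv_sub`, ~350 lines);  `S27/AJ-CH-b` = section Den (~150 lines);  `S27/AJ-CH-c` = section Sep (~200 lines)

`χ : Chart F`, `χ.B = ball 0 χ.r`, `χ.fn y σ = val (χ.pl σ) y` ("`y` in the chart").  Only `Chart.ord_t`, `Chart.reg`, `Chart.dens` and the `val`-lemmas of `AR/Main.lean` are used.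

## Basic
* `val_t`: `val_eq_of_van` with `ord_t`.   `pl_injOn`: `σ = val (pl σ) t`.
* `fn_mul`, `fn_add` near a point where both are regular (`Chart.reg` gives "eventually regular").
* `exists_factor`: `y ≠ 0`, `e = ord_{pl σ₀} y` (an integer): `w := y * (t - σ₀)^(-e)` has `ord = 0` at `pl σ₀` (`Place.ord_mul`, `ord_zpow`).
* `order_fn`: `y` regular, `e ≥ 0`: near `σ₀`, `fn y σ = (σ - σ₀)^e * fn w σ` (`val_mul`, `val_t`; all factors are regular near `σ₀`), `fn w` analytic, `fn w σ₀ ≠ 0`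
  (`val_eq_zero_iff`); `AnalyticAt.analyticOrderAt_eq_natCast`.
* `deriv_fn_ne_zero`: `e = 1`: `deriv = fn w σ₀`.
* `reg_inv_sub`: `y = (t - σ₀) w`, `c = fn w σ₀ = deriv (fn y) σ₀`; `y⁻¹ - c⁻¹ (t - σ₀)⁻¹ = (c - w) / (c w (t - σ₀))`, and `c - w` vanishes at `pl σ₀`.
## Den
`den ω σ = fn (eta ω) σ` is analytic on `B`; `prim ω` its primitive vanishing at `0` (`exists_primitive`).
## Sep
`exists_sep_fun`: `R ≠ R'`: there is `x ∈ O_R`, `x ∉ O_R'` (two distinct DVRs of `F` are not comparable: if `O_R ≤ O_R'` then they are equal, e.g. because `O_R'` is a localisation of the DVR `O_R`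
different from `F`; or: `ValuationSubring` + `IsDiscreteValuationRing` `⇒` maximal proper subring; or use `ord`: a uniformiser `π` of `R`; every `z` is `π^k * unit`...).
If `ord_R x = 0` take `s = x⁻¹` (value `≠ 0` at `R`, `= 0` at `R'`); otherwise `s = (1 + x)⁻¹` (value `1` at `R`, `0` at `R'`).
`sep`: `fn s` and `fn' s` are continuous at `σ₀`, `σ₀'` with different values.
-/

set_option autoImplicit false

noncomputable section

namespace Fermat.Agent.S27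

open AlgebraicCurve Fermat.Agent.S37 Topology

variable {F : Type*} [Field F] [Algebra ℂ F]

namespace Chart

/-- the domain of the chart -/
abbrev B (χ : Chart F) : Set ℂ := Metric.ball 0 χ.r

/-- `y` read in the chart -/
def fn (χ : Chart F) (y : F) (σ : ℂ) : ℂ := val (χ.pl σ) y

section Basic

variable (χ : Chart F)

theorem zero_mem_B : (0 : ℂ) ∈ χ.B := Metric.mem_ball_self χ.r_pos

theorem val_t (h : IsFF ℂ F) {σ : ℂ} (hσ : σ ∈ χ.B) : val (χ.pl σ) χ.t = σ :=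
  val_eq_of_van h (Or.inr (by rw [χ.ord_t σ hσ]; exact one_pos))

theorem pl_injOn (h : IsFF ℂ F) : Set.InjOn χ.pl χ.B := by
  intro σ hσ τ hτ he
  rw [← χ.val_t h hσ, ← χ.val_t h hτ, he]

theorem analyticAt_fn {σ : ℂ} (hσ : σ ∈ χ.B) {y : F} (hy : Reg (χ.pl σ) y) :
    AnalyticAt ℂ (χ.fn y) σ := (χ.reg σ hσ y hy).2

theorem eventually_reg {σ : ℂ} (hσ : σ ∈ χ.B) {y : F} (hy : Reg (χ.pl σ) y) :
    ∀ᶠ τ in 𝓝 σ, Reg (χ.pl τ) y := (χ.reg σ hσ y hy).1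

theorem reg_t {σ : ℂ} (hσ : σ ∈ χ.B) : Reg (χ.pl σ) χ.t := by
  have h1 : Reg (χ.pl σ) (χ.t - algebraMap ℂ F σ) := reg_iff.2 (by rw [χ.ord_t σ hσ]; exact zero_le_one)
  simpa using h1.add (reg_algebraMap (χ.pl σ) σ)

theorem t_sub_ne_zero {σ : ℂ} (hσ : σ ∈ χ.B) : χ.t - algebraMap ℂ F σ ≠ 0 := by
  intro h0
  have := χ.ord_t σ hσ
  rw [h0, Place.ord_zero] at this
  exact zero_ne_one this

theorem eventually_mem_B {σ : ℂ} (hσ : σ ∈ χ.B) : ∀ᶠ τ in 𝓝 σ, τ ∈ χ.B :=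
  Metric.isOpen_ball.mem_nhds hσ

/-- the normal form `y = (t - σ₀)^e w` -/
theorem exists_factor (h : IsFF ℂ F) {σ₀ : ℂ} (hσ : σ₀ ∈ χ.B) {y : F} (hy : Reg (χ.pl σ₀) y)
    (hy0 : y ≠ 0) : ∃ w : F, w ≠ 0 ∧ (χ.pl σ₀).ord w = 0 ∧
      y = (χ.t - algebraMap ℂ F σ₀) ^ ((χ.pl σ₀).ord y).toNat * w ∧
      ∀ᶠ σ in 𝓝 σ₀, χ.fn y σ = (σ - σ₀) ^ ((χ.pl σ₀).ord y).toNat * χ.fn w σ := by
  set u : F := χ.t - algebraMap ℂ F σ₀ with hu
  have hu0 : u ≠ 0 := χ.t_sub_ne_zero hσ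
  set n : ℕ := ((χ.pl σ₀).ord y).toNat with hn
  have hn' : (n : ℤ) = (χ.pl σ₀).ord y := Int.toNat_of_nonneg (reg_iff.1 hy)
  have hun : u ^ n ≠ 0 := pow_ne_zero n hu0
  have hordun : (χ.pl σ₀).ord (u ^ n) = n := by
    have := (χ.pl σ₀).ord_zpow u n
    rw [zpow_natCast, χ.ord_t σ₀ hσ, mul_one] at this
    exact this
  refine ⟨y * (u ^ n)⁻¹, mul_ne_zero hy0 (inv_ne_zero hun), ?_, ?_, ?_⟩
  · rw [Place.ord_mul _ hy0 (inv_ne_zero hun), Place.ord_inv, hordun, hn']; ring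
  · field_simp
  · have hw : Reg (χ.pl σ₀) (y * (u ^ n)⁻¹) := by
      rw [reg_iff, Place.ord_mul _ hy0 (inv_ne_zero hun), Place.ord_inv, hordun, hn']; simp
    filter_upwards [χ.eventually_reg hσ hw, χ.eventually_mem_B hσ] with σ h1 h2
    have h3 : Reg (χ.pl σ) u := (χ.reg_t h2).sub (reg_algebraMap _ _)
    have h4 : y = u ^ n * (y * (u ^ n)⁻¹) := by field_simp
    have h5 : val (χ.pl σ) u = σ - σ₀ := by
      rw [hu, val_sub h (χ.reg_t h2) (reg_algebraMap _ _), χ.val_t h h2, val_algebraMap h]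
    show val (χ.pl σ) y = _ * val (χ.pl σ) _
    conv_lhs => rw [h4]
    rw [val_mul h (h3.pow n) h1, val_pow h h3, h5]

/-- the analytic order is the algebraic order -/
theorem order_fn (h : IsFF ℂ F) {σ₀ : ℂ} (hσ : σ₀ ∈ χ.B) {y : F} (hy : Reg (χ.pl σ₀) y)
    (hy0 : y ≠ 0) : analyticOrderAt (χ.fn y) σ₀ = ((χ.pl σ₀).ord y).toNat := by
  obtain ⟨w, hw0, hw, -, hev⟩ := χ.exists_factor h hσ hy hy0
  rw [(χ.analyticAt_fn hσ hy).analyticOrderAt_eq_natCast]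
  exact ⟨χ.fn w, χ.analyticAt_fn hσ (reg_iff.2 hw.ge), val_ne_zero_of_ord h hw hw0, by
    simpa only [smul_eq_mul] using hev⟩

theorem deriv_fn_eq {σ₀ : ℂ} (hσ : σ₀ ∈ χ.B) {y w : F}
    (hw : Reg (χ.pl σ₀) w)
    (hev : ∀ᶠ σ in 𝓝 σ₀, χ.fn y σ = (σ - σ₀) * χ.fn w σ) : deriv (χ.fn y) σ₀ = χ.fn w σ₀ := by
  have hev' : χ.fn y =ᶠ[𝓝 σ₀] fun σ => (σ - σ₀) * χ.fn w σ := hev
  rw [hev'.deriv_eq]
  have h1 : HasDerivAt (fun σ : ℂ => σ - σ₀) 1 σ₀ := (hasDerivAt_id σ₀).sub_const σ₀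
  have h2 := h1.mul (χ.analyticAt_fn hσ hw).differentiableAt.hasDerivAt
  have h3 := h2.deriv
  simp only [sub_self, zero_mul, add_zero, one_mul] at h3
  exact h3

theorem exists_factor_one (h : IsFF ℂ F) {σ₀ : ℂ} (hσ : σ₀ ∈ χ.B) {y : F}
    (hy : (χ.pl σ₀).ord y = 1) : ∃ w : F, w ≠ 0 ∧ (χ.pl σ₀).ord w = 0 ∧
      y = (χ.t - algebraMap ℂ F σ₀) * w ∧ deriv (χ.fn y) σ₀ = χ.fn w σ₀ := by
  have hy0 : y ≠ 0 := by
    rintro rfl
    rw [Place.ord_zero] at hy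
    exact zero_ne_one hy
  obtain ⟨w, hw0, hw, h1, hev⟩ := χ.exists_factor h hσ (reg_iff.2 (by rw [hy]; exact zero_le_one)) hy0
  rw [hy] at h1 hev
  simp only [Int.toNat_one, pow_one] at h1 hev
  exact ⟨w, hw0, hw, h1, χ.deriv_fn_eq hσ (reg_iff.2 hw.ge) hev⟩

theorem deriv_fn_ne_zero (h : IsFF ℂ F) {σ₀ : ℂ} (hσ : σ₀ ∈ χ.B) {y : F}
    (hy : (χ.pl σ₀).ord y = 1) : deriv (χ.fn y) σ₀ ≠ 0 := by
  obtain ⟨w, hw0, hw, -, hd⟩ := χ.exists_factor_one h hσ hy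
  rw [hd]
  exact val_ne_zero_of_ord h hw hw0

/-- the polar part of `y⁻¹` at a simple zero of `y` -/
theorem reg_inv_sub (h : IsFF ℂ F) {σ₀ : ℂ} (hσ : σ₀ ∈ χ.B) {y : F}
    (hy : (χ.pl σ₀).ord y = 1) :
    Reg (χ.pl σ₀) (y⁻¹ - algebraMap ℂ F (deriv (χ.fn y) σ₀)⁻¹ * (χ.t - algebraMap ℂ F σ₀)⁻¹) := by
  obtain ⟨w, hw0, hw, hyw, hd⟩ := χ.exists_factor_one h hσ hy
  have hc : χ.fn w σ₀ ≠ 0 := val_ne_zero_of_ord h hw hw0
  rw [hd]
  set c : ℂ := χ.fn w σ₀ with hcdef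
  set u : F := χ.t - algebraMap ℂ F σ₀ with hu
  have hu0 : u ≠ 0 := χ.t_sub_ne_zero hσ
  have hcF : algebraMap ℂ F c ≠ 0 := by
    rw [Ne, map_eq_zero_iff _ (algebraMap ℂ F).injective]; exact hc
  have hordc : (χ.pl σ₀).ord (algebraMap ℂ F c) = 0 := by
    have h1 : 0 ≤ (χ.pl σ₀).ord (algebraMap ℂ F c) := reg_iff.1 (reg_algebraMap _ _)
    have h2 : 0 ≤ (χ.pl σ₀).ord (algebraMap ℂ F c⁻¹) := reg_iff.1 (reg_algebraMap _ _)
    rw [map_inv₀, Place.ord_inv] at h2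
    omega
  have hvan : Van (χ.pl σ₀) (w - algebraMap ℂ F c) := van_sub_val h (reg_iff.2 hw.ge)
  have hE : y⁻¹ - algebraMap ℂ F c⁻¹ * u⁻¹
      = -(w - algebraMap ℂ F c) * (algebraMap ℂ F c * w * u)⁻¹ := by
    rw [hyw, map_inv₀]
    field_simp
    ring
  rw [hE]
  rcases hvan with h0 | hpos
  · rw [h0]; simpa using reg_algebraMap (χ.pl σ₀) (0 : ℂ)
  · have hne : w - algebraMap ℂ F c ≠ 0 := by
      intro h0
      rw [h0, Place.ord_zero] at hpos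
      exact lt_irrefl _ hpos
    have hneg : (χ.pl σ₀).ord (-(w - algebraMap ℂ F c)) = (χ.pl σ₀).ord (w - algebraMap ℂ F c) := by
      have : -(w - algebraMap ℂ F c) = algebraMap ℂ F (-1) * (w - algebraMap ℂ F c) := by simp
      have h1 : (χ.pl σ₀).ord (algebraMap ℂ F (-1)) = 0 := by
        have h1 : 0 ≤ (χ.pl σ₀).ord (algebraMap ℂ F (-1)) := reg_iff.1 (reg_algebraMap _ _)
        have h2 : 0 ≤ (χ.pl σ₀).ord (algebraMap ℂ F (-1)⁻¹) := reg_iff.1 (reg_algebraMap _ _)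
        rw [map_inv₀, Place.ord_inv] at h2
        omega
      rw [this, Place.ord_mul _ (by simp) hne, h1, zero_add]
    rw [reg_iff, Place.ord_mul _ (neg_ne_zero.2 hne) (inv_ne_zero (mul_ne_zero (mul_ne_zero hcF hw0) hu0)),
      Place.ord_inv, Place.ord_mul _ (mul_ne_zero hcF hw0) hu0, Place.ord_mul _ hcF hw0, hordc, hw,
      hneg, hu, χ.ord_t σ₀ hσ]
    omega

/-- consequence for the local components -/
theorem loc_inv (h : IsFF ℂ F) (ω : WD (0 : Divisor ℂ F)) {σ₀ : ℂ} (hσ : σ₀ ∈ χ.B) {y : F}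
    (hy : (χ.pl σ₀).ord y = 1) :
    loc ω (χ.pl σ₀) y⁻¹ =
      (deriv (χ.fn y) σ₀)⁻¹ * loc ω (χ.pl σ₀) (χ.t - algebraMap ℂ F σ₀)⁻¹ := by
  have h1 := χ.reg_inv_sub h hσ hy
  have h2 : loc ω (χ.pl σ₀)
      (y⁻¹ - algebraMap ℂ F (deriv (χ.fn y) σ₀)⁻¹ * (χ.t - algebraMap ℂ F σ₀)⁻¹) = 0 :=
    loc_eq_zero ω (Or.inr (by simpa using reg_iff.1 h1))
  have h3 := loc_add ω (χ.pl σ₀)
    (y⁻¹ - algebraMap ℂ F (deriv (χ.fn y) σ₀)⁻¹ * (χ.t - algebraMap ℂ F σ₀)⁻¹)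
    (algebraMap ℂ F (deriv (χ.fn y) σ₀)⁻¹ * (χ.t - algebraMap ℂ F σ₀)⁻¹)
  rw [sub_add_cancel, h2, zero_add, loc_smul] at h3
  exact h3

end Basic

section Den

variable (χ : Chart F) (ω : WD (0 : Divisor ℂ F))

/-- `ω = eta dt` -/
def eta : F := (χ.dens ω).choose

/-- the density of `ω` in the chart -/
def den (σ : ℂ) : ℂ := χ.fn (χ.eta ω) σ

theorem reg_eta {σ : ℂ} (hσ : σ ∈ χ.B) : Reg (χ.pl σ) (χ.eta ω) := (χ.dens ω).choose_spec.1 σ hσ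

theorem loc_eq_den {σ : ℂ} (hσ : σ ∈ χ.B) (hσ' : σ ∉ χ.exc) :
    loc ω (χ.pl σ) (χ.t - algebraMap ℂ F σ)⁻¹ = χ.den ω σ := (χ.dens ω).choose_spec.2 σ hσ hσ'

theorem analyticAt_den {σ : ℂ} (hσ : σ ∈ χ.B) : AnalyticAt ℂ (χ.den ω) σ :=
  χ.analyticAt_fn hσ (χ.reg_eta ω hσ)

open Classical in
/-- the primitive of the density vanishing at the centre -/
def prim : ℂ → ℂ :=
  if h : ∃ G : ℂ → ℂ, G 0 = 0 ∧ ∀ σ ∈ χ.B, HasDerivAt G (χ.den ω σ) σ then h.choose else 0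

theorem exists_prim : ∃ G : ℂ → ℂ, G 0 = 0 ∧ ∀ σ ∈ χ.B, HasDerivAt G (χ.den ω σ) σ :=
  exists_primitive fun _ hσ => (χ.analyticAt_den ω hσ).differentiableAt.differentiableWithinAt

theorem prim_zero : χ.prim ω 0 = 0 := by
  rw [prim, dif_pos (χ.exists_prim ω)]
  exact (χ.exists_prim ω).choose_spec.1

theorem hasDerivAt_prim {σ : ℂ} (hσ : σ ∈ χ.B) : HasDerivAt (χ.prim ω) (χ.den ω σ) σ := by
  rw [prim, dif_pos (χ.exists_prim ω)]
  exact (χ.exists_prim ω).choose_spec.2 σ hσ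

theorem continuousOn_prim : ContinuousOn (χ.prim ω) χ.B := fun _ hσ =>
  (χ.hasDerivAt_prim ω hσ).continuousAt.continuousWithinAt

end Den

end Chart

section Sep

theorem exists_reg_not_reg {R R' : Place ℂ F} (hne : R ≠ R') : ∃ x : F, Reg R x ∧ ¬ Reg R' x := by
  by_contra hcon
  push Not at hcon
  apply hne
  apply Place.ext
  exact ValuationSubring.eq_of_le_of_ne_top _ (fun x hx => hcon x hx) R'.ne_top'

/-- two distinct places are separated by a function -/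
theorem exists_sep_fun (h : IsFF ℂ F) {R R' : Place ℂ F} (hne : R ≠ R') :
    ∃ x : F, Reg R x ∧ Reg R' x ∧ val R x ≠ val R' x := by
  obtain ⟨x, hx, hx'⟩ := exists_reg_not_reg hne
  obtain ⟨z, hz0, hz, hz'⟩ : ∃ z : F, z ≠ 0 ∧ R.ord z = 0 ∧ ¬ Reg R' z := by
    have hx0 : x ≠ 0 := by
      rintro rfl
      exact hx' (by simpa using reg_algebraMap R' (0 : ℂ))
    rcases (reg_iff.1 hx).eq_or_lt with h0 | hpos
    · exact ⟨x, hx0, h0.symm, hx'⟩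
    · have h1 : Reg R (algebraMap ℂ F 1 + x) := (reg_algebraMap R 1).add hx
      have h2 : val R (algebraMap ℂ F 1 + x) = 1 := by
        rw [val_add h (reg_algebraMap R 1) hx, val_algebraMap h, (val_eq_zero_iff h hx).2 (Or.inr hpos),
          add_zero]
      have h3 : ¬ Van R (algebraMap ℂ F 1 + x) := by
        intro hv
        rw [(val_eq_zero_iff h h1).2 hv] at h2
        exact zero_ne_one h2
      refine ⟨algebraMap ℂ F 1 + x, fun h0 => h3 (Or.inl h0), ?_, ?_⟩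
      · have h4 := reg_iff.1 h1
        have h5 : ¬ 0 < R.ord (algebraMap ℂ F 1 + x) := fun h5 => h3 (Or.inr h5)
        omega
      · intro h4
        apply hx'
        simpa using h4.sub (reg_algebraMap R' 1)
  have hz'' : R'.ord z < 0 := by
    by_contra hcon
    exact hz' (reg_iff.2 (not_lt.1 hcon))
  have h1 : R.ord z⁻¹ = 0 := by rw [Place.ord_inv, hz, neg_zero]
  have h2 : 0 < R'.ord z⁻¹ := by rw [Place.ord_inv]; omega
  refine ⟨z⁻¹, reg_iff.2 h1.ge, reg_iff.2 h2.le, ?_⟩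
  rw [(val_eq_zero_iff h (reg_iff.2 h2.le)).2 (Or.inr h2)]
  exact val_ne_zero_of_ord h h1 (inv_ne_zero hz0)

/-- charts around distinct places have disjoint images after shrinking -/
theorem Chart.sep (h : IsFF ℂ F) (χ χ' : Chart F) {σ₀ σ₀' : ℂ} (hσ : σ₀ ∈ χ.B) (hσ' : σ₀' ∈ χ'.B)
    (hne : χ.pl σ₀ ≠ χ'.pl σ₀') :
    ∃ ε : ℝ, 0 < ε ∧ ∀ σ σ' : ℂ, ‖σ - σ₀‖ < ε → ‖σ' - σ₀'‖ < ε → χ.pl σ ≠ χ'.pl σ' := by
  obtain ⟨x, hx, hx', hv⟩ := exists_sep_fun h hne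
  have hd : 0 < ‖χ.fn x σ₀ - χ'.fn x σ₀'‖ / 2 := half_pos (norm_pos_iff.2 (sub_ne_zero.2 hv))
  have c1 := (χ.analyticAt_fn hσ hx).continuousAt
  have c2 := (χ'.analyticAt_fn hσ' hx').continuousAt
  obtain ⟨ε₁, hε₁, H1⟩ := Metric.continuousAt_iff.1 c1 _ hd
  obtain ⟨ε₂, hε₂, H2⟩ := Metric.continuousAt_iff.1 c2 _ hd
  refine ⟨min ε₁ ε₂, lt_min hε₁ hε₂, fun σ σ' h1 h2 he => ?_⟩
  have h3 := H1 (x := σ) (by rw [dist_eq_norm]; exact h1.trans_le (min_le_left _ _))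
  have h4 := H2 (x := σ') (by rw [dist_eq_norm]; exact h2.trans_le (min_le_right _ _))
  have h5 : χ.fn x σ = χ'.fn x σ' := by
    show val (χ.pl σ) x = val (χ'.pl σ') x
    rw [he]
  rw [dist_eq_norm] at h3 h4
  rw [h5] at h3
  have h6 : ‖χ.fn x σ₀ - χ'.fn x σ₀'‖ ≤ ‖χ'.fn x σ' - χ.fn x σ₀‖ + ‖χ'.fn x σ' - χ'.fn x σ₀'‖ := by
    have : χ.fn x σ₀ - χ'.fn x σ₀' = -(χ'.fn x σ' - χ.fn x σ₀) + (χ'.fn x σ' - χ'.fn x σ₀') := by ring
    rw [this]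
    exact (norm_add_le _ _).trans (by rw [norm_neg])
  linarith

end Sep

end Fermat.Agent.S27
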