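import Fermat.Agent.S27.AJ.Chart
import Fermat.Agent.S27.CH.Main

/-!
# S27/FL : the fibre lemma, connectedness, boundedness
keys `S27/AJ-FL-a` = `card_zeros_le`, `sum_ord_zeros_eq` (~250 lines, algebra);  `S27/AJ-FL-b` = `fibre` (~400 lines);
     `S27/AJ-CONN` = `exists_one_pole`, `const_of_locallyConstant` (~300 lines);  `S27/AJ-BDD` = `bounded_of_continuous` (~300 lines)

`y ∈ F` non constant.  `Z c = {P | Van P (y - c)}` (the fibre over `c`), finite.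
* `sum_ord_zeros_eq`: `∑_{P ∈ Z c} ord_P (y - c)` does not depend on `c` (it is the degree of the polar divisor of `y`: `deg div (y - c) = 0` and `y - c`, `y - c'` have the same
  negative orders; `IsFF.hasPrincipalDivisors`, `IsFF.degree_eq_sum`).  Hence `#(Z c') ≤ ∑_{R ∈ Z c} ord_R (y - c)`.
* `fibre`: for `R ∈ Z c`, `e_R = ord_R (y - c) ≥ 1`, `ζ_R = (χ R).fn y` analytic at `0`, `analyticOrderAt (ζ_R - c) 0 = e_R` (`Chart.order_fn` for `y - c`; `fn (y - c) = fn y - c` near `0`).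
  `exists_roots` gives `δ_R` (with `ε` replaced by `min (ε R) (radius on which y is regular, the charts of distinct R, R' ∈ Z c are disjoint [Chart.sep])`).  `δ = min δ_R`.
  For `c' ≠ c`, `‖c' - c‖ < δ`: the places `(χ R).pl σ`, `σ ∈ S_R`, are `∑ e_R` distinct elements of `Z c'` (`pl_injOn`, `sep`), so they are all of `Z c'`.  `c' = c`: `σ = 0`.
* `exists_one_pole`: `rr` for `D = (g + 1) Q`: `l D ≥ 2`, so `L(D)` contains a non constant element.
* `const_of_locallyConstant`: `T₀ = {c | ∀ P ∈ Z c, κ P = κ Q}` is open and closed in `ℂ` (`fibre`, both parts, `ε R` := radius on which `κ ∘ (χ R).pl` is constant), non empty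
  (`fibre` for `y⁻¹` at `0`: its only zero is `Q`; `Van P (y⁻¹ - c') ↔ Van P (y - c'⁻¹)` for `c' ≠ 0`).  `IsClopen.eq_univ`.  Every `P ≠ Q` lies in `Z (val P y)`.
* `bounded_of_continuous`: the same with "`|u| ≤ M` on the fibres over a neighbourhood of `c`" (`ε R = (χ R).r / 2`, `u ∘ pl` is bounded on the compact closed ball), compactness of
  `closedBall 0 (1/δ_∞)`.
-/

set_option autoImplicit false

noncomputable section

namespace Fermat.Agent.S27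

open AlgebraicCurve Fermat.Agent.S37 Topology

variable {F : Type*} [Field F] [Algebra ℂ F]

/-- the fibre of `y` over `c` -/
def Zr (y : F) (c : ℂ) : Set (Place ℂ F) := {P | Van P (y - algebraMap ℂ F c)}

namespace FibreAux

theorem mem_Zr_iff {y : F} (hy : ∀ c : ℂ, y ≠ algebraMap ℂ F c) {c : ℂ} {P : Place ℂ F} :
    P ∈ Zr y c ↔ 0 < P.ord (y - algebraMap ℂ F c) :=
  ⟨fun h => h.resolve_left (sub_ne_zero.2 (hy c)), fun h => Or.inr h⟩

theorem reg_of_mem_Zr {y : F} {c : ℂ} {P : Place ℂ F} (hP : P ∈ Zr y c) : Reg P y := by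
  have h1 : Reg P (y - algebraMap ℂ F c) := by
    rcases hP with h0 | h0
    · rw [h0]; simpa using reg_algebraMap P (0 : ℂ)
    · exact reg_iff.2 h0.le
  simpa using h1.add (reg_algebraMap P c)

theorem val_of_mem_Zr (h : IsFF ℂ F) {y : F} {c : ℂ} {P : Place ℂ F} (hP : P ∈ Zr y c) :
    val P y = c := val_eq_of_van h hP

theorem mem_Zr_of_val (h : IsFF ℂ F) {y : F} {P : Place ℂ F} (hr : Reg P y) : P ∈ Zr y (val P y) :=
  van_sub_val h hr

/-- at a pole of `y` the order of `y - c` is the order of `y` -/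
theorem ord_sub_const (h : IsFF ℂ F) {P : Place ℂ F} {y : F} (hy : ¬ Reg P y) (c : ℂ) :
    P.ord (y - algebraMap ℂ F c) = P.ord y := by
  have hy0 : y ≠ 0 := by
    rintro rfl
    exact hy (by simpa using reg_algebraMap P (0 : ℂ))
  have hneg : P.ord y < 0 := by
    by_contra hcon
    exact hy (reg_iff.2 (not_lt.1 hcon))
  have hinv : 0 < P.ord y⁻¹ := by rw [Place.ord_inv]; omega
  have hri : Reg P y⁻¹ := reg_iff.2 hinv.le
  have hone : Reg P (1 : F) := by simpa using reg_algebraMap P (1 : ℂ)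
  have hz : Reg P (1 - algebraMap ℂ F c * y⁻¹) := hone.sub ((reg_algebraMap P c).mul hri)
  have hv : val P (1 - algebraMap ℂ F c * y⁻¹) = 1 := by
    have h1 : val P (1 : F) = 1 := by simpa using val_algebraMap h P (1 : ℂ)
    rw [val_sub h hone ((reg_algebraMap P c).mul hri), val_mul h (reg_algebraMap P c) hri,
      (val_eq_zero_iff h hri).2 (Or.inr hinv), mul_zero, sub_zero, h1]
  have hnv : ¬ Van P (1 - algebraMap ℂ F c * y⁻¹) := by
    intro hv'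
    rw [(val_eq_zero_iff h hz).2 hv'] at hv
    exact zero_ne_one hv
  have hz0 : 1 - algebraMap ℂ F c * y⁻¹ ≠ 0 := fun h0 => hnv (Or.inl h0)
  have hord : P.ord (1 - algebraMap ℂ F c * y⁻¹) = 0 := by
    have h2 := reg_iff.1 hz
    have h3 : ¬ 0 < P.ord (1 - algebraMap ℂ F c * y⁻¹) := fun h3 => hnv (Or.inr h3)
    omega
  have e : y - algebraMap ℂ F c = y * (1 - algebraMap ℂ F c * y⁻¹) := by
    field_simp
  rw [e, Place.ord_mul _ hy0 hz0, hord, add_zero]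

end FibreAux

open FibreAux

theorem finite_Zr (h : IsFF ℂ F) {y : F} (hy : ∀ c : ℂ, y ≠ algebraMap ℂ F c) (c : ℂ) :
    (Zr y c).Finite := by
  refine (AR.dv h (y - algebraMap ℂ F c)).support.finite_toSet.subset fun v hv => ?_
  rw [Finset.mem_coe, Finsupp.mem_support_iff, AR.dv_apply h (sub_ne_zero.2 (hy c))]
  exact ((mem_Zr_iff hy).1 hv).ne'

theorem FibreAux.sum_ord_zeros (h : IsFF ℂ F) {y : F} (hy : ∀ c : ℂ, y ≠ algebraMap ℂ F c) (c : ℂ) :
    ∑ P ∈ (finite_Zr h hy c).toFinset, P.ord (y - algebraMap ℂ F c) =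
      - ∑ P ∈ (AR.finite_ord_neg h y).toFinset, P.ord y := by
  classical
  have hf0 : y - algebraMap ℂ F c ≠ 0 := sub_ne_zero.2 (hy c)
  have hdeg := AR.degree_dv h (y - algebraMap ℂ F c)
  rw [h.degree_eq_sum, Finsupp.sum] at hdeg
  rw [← Finset.sum_filter_add_sum_filter_not _
    (fun v : Place ℂ F => 0 < v.ord (y - algebraMap ℂ F c))] at hdeg
  have h1 : (AR.dv h (y - algebraMap ℂ F c)).support.filter
      (fun v : Place ℂ F => 0 < v.ord (y - algebraMap ℂ F c)) = (finite_Zr h hy c).toFinset := by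
    ext v
    rw [Finset.mem_filter, Finsupp.mem_support_iff, AR.dv_apply h hf0, Set.Finite.mem_toFinset,
      mem_Zr_iff hy]
    exact ⟨fun hh => hh.2, fun hh => ⟨hh.ne', hh⟩⟩
  have hiff : ∀ v : Place ℂ F, v.ord (y - algebraMap ℂ F c) < 0 ↔ v.ord y < 0 := by
    intro v
    by_cases hr : Reg v y
    · have h2 := reg_iff.1 hr
      have h3 := reg_iff.1 (hr.sub (reg_algebraMap v c))
      constructor <;> intro <;> omega
    · rw [ord_sub_const h hr c]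
  have h2 : (AR.dv h (y - algebraMap ℂ F c)).support.filter
      (fun v : Place ℂ F => ¬ 0 < v.ord (y - algebraMap ℂ F c)) =
      (AR.finite_ord_neg h y).toFinset := by
    ext v
    rw [Finset.mem_filter, Finsupp.mem_support_iff, AR.dv_apply h hf0, Set.Finite.mem_toFinset,
      Set.mem_ofPred_eq, ← hiff v]
    constructor
    · rintro ⟨h3, h4⟩; omega
    · intro h3; constructor <;> omega
  rw [h1, h2] at hdeg
  have h3 : ∑ v ∈ (finite_Zr h hy c).toFinset, (AR.dv h (y - algebraMap ℂ F c)) v =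
      ∑ P ∈ (finite_Zr h hy c).toFinset, P.ord (y - algebraMap ℂ F c) :=
    Finset.sum_congr rfl fun v _ => AR.dv_apply h hf0 v
  have h4 : ∑ v ∈ (AR.finite_ord_neg h y).toFinset, (AR.dv h (y - algebraMap ℂ F c)) v =
      ∑ P ∈ (AR.finite_ord_neg h y).toFinset, P.ord y := by
    refine Finset.sum_congr rfl fun v hv => ?_
    rw [AR.dv_apply h hf0 v]
    have hv' : v.ord y < 0 := by
      rw [Set.Finite.mem_toFinset] at hv
      exact hv
    exact ord_sub_const h (fun hr => by have := reg_iff.1 hr; omega) c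
  rw [h3, h4] at hdeg
  omega

/-- [S27/AJ-FL-a] the degree of the fibre does not depend on `c` -/
theorem sum_ord_zeros_eq (h : IsFF ℂ F) {y : F} (hy : ∀ c : ℂ, y ≠ algebraMap ℂ F c) (c c' : ℂ) :
    ∑ P ∈ (finite_Zr h hy c).toFinset, P.ord (y - algebraMap ℂ F c) =
      ∑ P ∈ (finite_Zr h hy c').toFinset, P.ord (y - algebraMap ℂ F c') := by
  rw [sum_ord_zeros h hy c, sum_ord_zeros h hy c']

/-- a condition which holds for all small radii, uniformly on a finite set -/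
theorem FibreAux.exists_radius {ι : Type*} (Z : Finset ι) (p : ι → ℝ → Prop)
    (hp : ∀ i ∈ Z, ∃ ρ₀ : ℝ, 0 < ρ₀ ∧ ∀ ρ : ℝ, 0 < ρ → ρ ≤ ρ₀ → p i ρ) :
    ∃ ρ₀ : ℝ, 0 < ρ₀ ∧ ∀ ρ : ℝ, 0 < ρ → ρ ≤ ρ₀ → ∀ i ∈ Z, p i ρ := by
  classical
  induction Z using Finset.induction_on with
  | empty => exact ⟨1, one_pos, fun _ _ _ i hi => absurd hi (Finset.notMem_empty i)⟩
  | insert a Z ha ih =>
    obtain ⟨ρ₁, h1, H1⟩ := ih fun i hi => hp i (Finset.mem_insert_of_mem hi)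
    obtain ⟨ρ₂, h2, H2⟩ := hp a (Finset.mem_insert_self a Z)
    refine ⟨min ρ₁ ρ₂, lt_min h1 h2, fun ρ hρ hle i hi => ?_⟩
    rcases Finset.mem_insert.1 hi with rfl | hi
    · exact H2 ρ hρ (hle.trans (min_le_right _ _))
    · exact H1 ρ hρ (hle.trans (min_le_left _ _)) i hi

theorem FibreAux.order_fn_sub (h : IsFF ℂ F) {y : F} (hy : ∀ c : ℂ, y ≠ algebraMap ℂ F c) {c : ℂ}
    (χ : Chart F) {σ₀ : ℂ} (hσ : σ₀ ∈ χ.B) (hR : χ.pl σ₀ ∈ Zr y c) :
    analyticOrderAt (fun σ => χ.fn y σ - c) σ₀ =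
      (((χ.pl σ₀).ord (y - algebraMap ℂ F c)).toNat : ℕ) := by
  have hr : Reg (χ.pl σ₀) y := reg_of_mem_Zr hR
  have hr' : Reg (χ.pl σ₀) (y - algebraMap ℂ F c) := hr.sub (reg_algebraMap _ _)
  rw [← χ.order_fn h hσ hr' (sub_ne_zero.2 (hy c))]
  refine analyticOrderAt_congr ?_
  filter_upwards [χ.eventually_reg hσ hr] with σ h1
  show val (χ.pl σ) y - c = val (χ.pl σ) (y - algebraMap ℂ F c)
  rw [val_sub h h1 (reg_algebraMap _ _), val_algebraMap h]

/-- [S27/AJ-FL-b] **the fibre lemma** -/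
theorem fibre (h : IsFF ℂ F) {y : F} (hy : ∀ c : ℂ, y ≠ algebraMap ℂ F c) (c : ℂ)
    (χ : Place ℂ F → Chart F) (hχ : ∀ R, (χ R).pl 0 = R) (ε : Place ℂ F → ℝ) (hε : ∀ R, 0 < ε R) :
    ∃ δ : ℝ, 0 < δ ∧ ∀ c' : ℂ, ‖c' - c‖ < δ →
      (∀ P ∈ Zr y c', ∃ R ∈ Zr y c, ∃ σ ∈ (χ R).B, ‖σ‖ < ε R ∧ P = (χ R).pl σ) ∧
      (∀ R ∈ Zr y c, ∃ σ ∈ (χ R).B, ‖σ‖ < ε R ∧ (χ R).pl σ ∈ Zr y c') := by
  classical
  obtain ⟨Z, hZ⟩ : ∃ Z : Finset (Place ℂ F), Z = (finite_Zr h hy c).toFinset := ⟨_, rfl⟩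
  have hmemZ : ∀ R, R ∈ Z ↔ R ∈ Zr y c := by
    intro R; rw [hZ, Set.Finite.mem_toFinset]
  -- a uniform radius
  have hA : ∃ ρ₀ : ℝ, 0 < ρ₀ ∧ ∀ ρ : ℝ, 0 < ρ → ρ ≤ ρ₀ → ∀ R ∈ Z,
      (ρ ≤ ε R ∧ ρ ≤ (χ R).r ∧ ∀ σ : ℂ, ‖σ‖ < ρ → Reg ((χ R).pl σ) y) := by
    refine exists_radius Z _ fun R hR => ?_
    have hr : Reg ((χ R).pl 0) y := by rw [hχ]; exact reg_of_mem_Zr ((hmemZ R).1 hR)
    obtain ⟨ρ₁, h1, H1⟩ := Metric.eventually_nhds_iff_ball.1 ((χ R).eventually_reg (χ R).zero_mem_B hr)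
    refine ⟨min (min (ε R) (χ R).r) ρ₁, lt_min (lt_min (hε R) (χ R).r_pos) h1, fun ρ _ hle => ?_⟩
    refine ⟨hle.trans ((min_le_left _ _).trans (min_le_left _ _)),
      hle.trans ((min_le_left _ _).trans (min_le_right _ _)), fun σ hσ => H1 σ ?_⟩
    rw [Metric.mem_ball, dist_zero_right]
    exact hσ.trans_le (hle.trans (min_le_right _ _))
  have hB : ∃ ρ₀ : ℝ, 0 < ρ₀ ∧ ∀ ρ : ℝ, 0 < ρ → ρ ≤ ρ₀ → ∀ x ∈ Z ×ˢ Z, (x.1 ≠ x.2 →
      ∀ σ σ' : ℂ, ‖σ‖ < ρ → ‖σ'‖ < ρ → (χ x.1).pl σ ≠ (χ x.2).pl σ') := by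
    refine exists_radius (Z ×ˢ Z) _ fun x _ => ?_
    by_cases hne : x.1 = x.2
    · exact ⟨1, one_pos, fun _ _ _ h' => absurd hne h'⟩
    · obtain ⟨ρ₁, h1, H1⟩ := Chart.sep h (χ x.1) (χ x.2) (χ x.1).zero_mem_B (χ x.2).zero_mem_B
        (by rw [hχ, hχ]; exact hne)
      refine ⟨ρ₁, h1, fun ρ _ hle _ σ σ' hσ hσ' => H1 σ σ' ?_ ?_⟩
      · rw [sub_zero]; exact hσ.trans_le hle
      · rw [sub_zero]; exact hσ'.trans_le hle
  obtain ⟨ρa, ha0, HA⟩ := hA
  obtain ⟨ρb, hb0, HB⟩ := hB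
  obtain ⟨ρ, hρ⟩ : ∃ ρ : ℝ, ρ = min ρa ρb := ⟨_, rfl⟩
  have hρ0 : 0 < ρ := by rw [hρ]; exact lt_min ha0 hb0
  have HA' := HA ρ hρ0 (by rw [hρ]; exact min_le_left _ _)
  have HB' := HB ρ hρ0 (by rw [hρ]; exact min_le_right _ _)
  -- the roots
  have hC : ∃ δ₀ : ℝ, 0 < δ₀ ∧ ∀ δ : ℝ, 0 < δ → δ ≤ δ₀ → ∀ R ∈ Z,
      (∀ c' : ℂ, c' ≠ c → ‖c' - c‖ < δ → ∃ S : Finset ℂ,
        S.card = (R.ord (y - algebraMap ℂ F c)).toNat ∧ ∀ σ ∈ S, ‖σ - 0‖ < ρ ∧ (χ R).fn y σ = c') := by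
    refine exists_radius Z _ fun R hR => ?_
    have hR' : (χ R).pl 0 ∈ Zr y c := by rw [hχ]; exact (hmemZ R).1 hR
    have hord := order_fn_sub h hy (χ R) (χ R).zero_mem_B hR'
    rw [hχ] at hord
    obtain ⟨δ₁, h1, H1⟩ := exists_roots ((χ R).analyticAt_fn (χ R).zero_mem_B (reg_of_mem_Zr hR'))
      hord ρ hρ0
    exact ⟨δ₁, h1, fun δ _ hle c' hc' hlt => H1 c' hc' (hlt.trans_le hle)⟩
  obtain ⟨δ, hδ0, HC⟩ := hC
  have HC' := HC δ hδ0 le_rfl
  refine ⟨δ, hδ0, fun c' hc' => ?_⟩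
  by_cases hcc : c' = c
  · subst hcc
    refine ⟨fun P hP => ⟨P, hP, 0, (χ P).zero_mem_B, by simpa using hε P, (hχ P).symm⟩,
      fun R hR => ⟨0, (χ R).zero_mem_B, by simpa using hε R, by rw [hχ]; exact hR⟩⟩
  · have hS : ∀ R, ∃ S : Finset ℂ, R ∈ Z →
        (S.card = (R.ord (y - algebraMap ℂ F c)).toNat ∧
          ∀ σ ∈ S, ‖σ - 0‖ < ρ ∧ (χ R).fn y σ = c') := by
      intro R
      by_cases hR : R ∈ Z
      · obtain ⟨S, hS⟩ := HC' R hR c' hcc hc'
        exact ⟨S, fun _ => hS⟩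
      · exact ⟨∅, fun h' => absurd h' hR⟩
    choose S hS using hS
    have hnorm : ∀ R ∈ Z, ∀ σ ∈ S R, ‖σ‖ < ρ := by
      intro R hR σ hσ
      have := ((hS R hR).2 σ hσ).1
      rwa [sub_zero] at this
    have hBmem : ∀ R ∈ Z, ∀ σ ∈ S R, σ ∈ (χ R).B := by
      intro R hR σ hσ
      rw [Metric.mem_ball, dist_zero_right]
      exact (hnorm R hR σ hσ).trans_le (HA' R hR).2.1
    have hmem : ∀ R ∈ Z, ∀ σ ∈ S R, (χ R).pl σ ∈ Zr y c' := by
      intro R hR σ hσ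
      have h1 : Reg ((χ R).pl σ) y := (HA' R hR).2.2 σ (hnorm R hR σ hσ)
      have h2 : val ((χ R).pl σ) y = c' := ((hS R hR).2 σ hσ).2
      have h3 := mem_Zr_of_val h h1
      rwa [h2] at h3
    obtain ⟨W, hW⟩ : ∃ W : Finset (Place ℂ F), W = Z.biUnion fun R => (S R).image (χ R).pl :=
      ⟨_, rfl⟩
    have hWsub : W ⊆ (finite_Zr h hy c').toFinset := by
      intro P hP
      rw [hW, Finset.mem_biUnion] at hP
      obtain ⟨R, hR, hP⟩ := hP
      obtain ⟨σ, hσ, rfl⟩ := Finset.mem_image.1 hP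
      rw [Set.Finite.mem_toFinset]
      exact hmem R hR σ hσ
    have hWcard : (W.card : ℤ) = ∑ R ∈ Z, R.ord (y - algebraMap ℂ F c) := by
      rw [hW, Finset.card_biUnion]
      · push_cast
        refine Finset.sum_congr rfl fun R hR => ?_
        rw [Finset.card_image_of_injOn, (hS R hR).1]
        · exact Int.toNat_of_nonneg ((mem_Zr_iff hy).1 ((hmemZ R).1 hR)).le
        · intro σ hσ τ hτ he
          exact (χ R).pl_injOn h (hBmem R hR σ hσ) (hBmem R hR τ hτ) he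
      · intro R hR R' hR' hne
        show Disjoint ((S R).image (χ R).pl) ((S R').image (χ R').pl)
        rw [Finset.disjoint_left]
        rw [Finset.mem_coe] at hR hR'
        intro P hP hP'
        obtain ⟨σ, hσ, rfl⟩ := Finset.mem_image.1 hP
        obtain ⟨σ', hσ', he⟩ := Finset.mem_image.1 hP'
        exact HB' (R, R') (Finset.mem_product.2 ⟨hR, hR'⟩) hne σ σ' (hnorm R hR σ hσ)
          (hnorm R' hR' σ' hσ') he.symm
    have hle : ((finite_Zr h hy c').toFinset.card : ℤ) ≤ W.card := by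
      rw [hWcard, hZ, sum_ord_zeros_eq h hy c c']
      have : ((finite_Zr h hy c').toFinset.card : ℤ) = ∑ _P ∈ (finite_Zr h hy c').toFinset, (1 : ℤ) := by
        simp
      rw [this]
      refine Finset.sum_le_sum fun P hP => ?_
      rw [Set.Finite.mem_toFinset] at hP
      have := (mem_Zr_iff hy).1 hP
      omega
    have hWeq : W = (finite_Zr h hy c').toFinset :=
      Finset.eq_of_subset_of_card_le hWsub (by exact_mod_cast hle)
    constructor
    · intro P hP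
      have hP' : P ∈ W := by rw [hWeq, Set.Finite.mem_toFinset]; exact hP
      rw [hW, Finset.mem_biUnion] at hP'
      obtain ⟨R, hR, hP'⟩ := hP'
      obtain ⟨σ, hσ, rfl⟩ := Finset.mem_image.1 hP'
      exact ⟨R, (hmemZ R).1 hR, σ, hBmem R hR σ hσ, (hnorm R hR σ hσ).trans_le (HA' R hR).1, rfl⟩
    · intro R hR
      have hR' := (hmemZ R).2 hR
      have hpos : 0 < (S R).card := by
        rw [(hS R hR').1]
        have := (mem_Zr_iff hy).1 hR
        omega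
      obtain ⟨σ, hσ⟩ := Finset.card_pos.1 hpos
      exact ⟨σ, hBmem R hR' σ hσ, (hnorm R hR' σ hσ).trans_le (HA' R hR').1, hmem R hR' σ hσ⟩

/-- [S27/AJ-CONN] a non constant function with a single pole -/
theorem exists_one_pole (h : IsFF ℂ F) (Q : Place ℂ F) :
    ∃ y : F, (∀ c : ℂ, y ≠ algebraMap ℂ F c) ∧ ∀ P : Place ℂ F, P ≠ Q → Reg P y := by
  classical
  obtain ⟨D, hD⟩ : ∃ D : Divisor ℂ F, D = Finsupp.single Q ((genusFF ℂ F : ℤ) + 1) := ⟨_, rfl⟩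
  have hdeg : Divisor.degree D = (genusFF ℂ F : ℤ) + 1 := by
    rw [hD, Divisor.degree_single, h.deg_eq_one]
    simp
  have hrr := rr h D
  rw [hdeg] at hrr
  have h2 : 2 ≤ Module.finrank ℂ (riemannRochSpace D) := by
    have : (2 : ℤ) ≤ Module.finrank ℂ (riemannRochSpace D) := by
      have h0 : (0 : ℤ) ≤ Module.finrank ℂ (H1 D) := Int.natCast_nonneg _
      linarith
    exact_mod_cast this
  have hex : ∃ y ∈ riemannRochSpace D, ∀ c : ℂ, y ≠ algebraMap ℂ F c := by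
    by_contra hcon
    push Not at hcon
    have hle : riemannRochSpace D ≤ Submodule.span ℂ {(1 : F)} := by
      intro y hy
      obtain ⟨c, hc⟩ := hcon y hy
      rw [Submodule.mem_span_singleton]
      exact ⟨c, by rw [hc, Algebra.smul_def, mul_one]⟩
    have h3 := Submodule.finrank_mono hle
    have h4 : Module.finrank ℂ (Submodule.span ℂ {(1 : F)}) ≤ 1 :=
      (finrank_span_le_card ({(1 : F)} : Set F)).trans (by simp)
    omega
  obtain ⟨y, hy, hyc⟩ := hex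
  refine ⟨y, hyc, fun P hP => ?_⟩
  rw [mem_riemannRochSpace_iff] at hy
  rcases hy P with h0 | h0
  · rw [h0]; simpa using reg_algebraMap P (0 : ℂ)
  · rw [hD, Finsupp.single_apply, if_neg (Ne.symm hP), neg_zero] at h0
    exact reg_iff.2 h0

namespace FibreAux

theorem inv_ne_const {y : F} (hy : ∀ c : ℂ, y ≠ algebraMap ℂ F c) (c : ℂ) :
    y⁻¹ ≠ algebraMap ℂ F c := by
  intro hc
  apply hy c⁻¹
  rw [map_inv₀, ← hc, inv_inv]

/-- a function with poles only at `Q` which is not constant has a pole at `Q` -/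
theorem not_reg_of_one_pole (h : IsFF ℂ F) {y : F} (hy : ∀ c : ℂ, y ≠ algebraMap ℂ F c)
    {Q : Place ℂ F} (hQ : ∀ P : Place ℂ F, P ≠ Q → Reg P y) : ¬ Reg Q y := by
  intro hr
  obtain ⟨c, hc⟩ := exists_eq_algebraMap h (y := y) fun P => by
    by_cases hP : P = Q
    · rw [hP]; exact hr
    · exact hQ P hP
  exact hy c hc

theorem Zr_inv_zero (h : IsFF ℂ F) {y : F} (hy : ∀ c : ℂ, y ≠ algebraMap ℂ F c)
    {Q : Place ℂ F} (hQ : ∀ P : Place ℂ F, P ≠ Q → Reg P y) {P : Place ℂ F} :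
    P ∈ Zr y⁻¹ 0 ↔ P = Q := by
  rw [mem_Zr_iff (inv_ne_const hy), map_zero, sub_zero, Place.ord_inv]
  constructor
  · intro h1
    by_contra hP
    have := reg_iff.1 (hQ P hP)
    omega
  · rintro rfl
    have h1 := not_reg_of_one_pole h hy hQ
    rw [reg_iff] at h1
    omega

theorem mem_Zr_inv (h : IsFF ℂ F) {y : F} {c : ℂ} (hc : c ≠ 0) {P : Place ℂ F} (hP : P ∈ Zr y c) :
    P ∈ Zr y⁻¹ c⁻¹ := by
  have hr := reg_of_mem_Zr hP
  have hv := val_of_mem_Zr h hP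
  have hnv : ¬ Van P y := by
    intro hv'
    rw [(val_eq_zero_iff h hr).2 hv'] at hv
    exact hc hv.symm
  have hy0 : y ≠ 0 := fun h0 => hnv (Or.inl h0)
  have hord : P.ord y = 0 := by
    have h2 := reg_iff.1 hr
    have h3 : ¬ 0 < P.ord y := fun h3 => hnv (Or.inr h3)
    omega
  have hri : Reg P y⁻¹ := reg_iff.2 (by rw [Place.ord_inv, hord]; simp)
  have := mem_Zr_of_val h hri
  rwa [val_inv h hord hy0, hv] at this

end FibreAux

/-- [S27/AJ-CONN] "`Place ℂ F` is connected" -/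
theorem const_of_locallyConstant (h : IsFF ℂ F) {X : Type*} (κ : Place ℂ F → X)
    (hκ : ∀ χ : Chart F, ∀ σ₀ ∈ χ.B, ∀ᶠ σ in 𝓝 σ₀, κ (χ.pl σ) = κ (χ.pl σ₀)) (P Q : Place ℂ F) :
    κ P = κ Q := by
  obtain ⟨y, hy, hQ⟩ := exists_one_pole h Q
  choose χ hχ _ using fun R => exists_chart h R
  have hε : ∀ R, ∃ ε : ℝ, 0 < ε ∧ ∀ σ : ℂ, ‖σ‖ < ε → κ ((χ R).pl σ) = κ R := by
    intro R
    obtain ⟨ε, h1, H1⟩ := Metric.eventually_nhds_iff_ball.1 (hκ (χ R) 0 (χ R).zero_mem_B)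
    refine ⟨ε, h1, fun σ hσ => ?_⟩
    rw [H1 σ (by rwa [Metric.mem_ball, dist_zero_right]), hχ]
  choose ε hε0 hε using hε
  obtain ⟨T₀, hT₀⟩ : ∃ T₀ : Set ℂ, T₀ = {c | ∀ P ∈ Zr y c, κ P = κ Q} := ⟨_, rfl⟩
  have hopen : IsOpen T₀ := by
    rw [Metric.isOpen_iff]
    intro c hc
    rw [hT₀] at hc
    obtain ⟨δ, hδ, H⟩ := fibre h hy c χ hχ ε hε0
    refine ⟨δ, hδ, fun c' hc' => ?_⟩
    rw [Metric.mem_ball, dist_eq_norm] at hc'
    rw [hT₀]
    intro P hP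
    obtain ⟨R, hR, σ, -, hσ, rfl⟩ := (H c' hc').1 P hP
    rw [hε R σ hσ]
    exact hc R hR
  have hclosed : IsClosed T₀ := by
    rw [← isOpen_compl_iff, Metric.isOpen_iff]
    intro c hc
    have hc' : ∃ R ∈ Zr y c, κ R ≠ κ Q := by
      by_contra hcon
      push Not at hcon
      apply hc
      rw [hT₀]
      exact hcon
    obtain ⟨R, hR, hne⟩ := hc'
    obtain ⟨δ, hδ, H⟩ := fibre h hy c χ hχ ε hε0
    refine ⟨δ, hδ, fun c' hc' => ?_⟩
    rw [Metric.mem_ball, dist_eq_norm] at hc'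
    obtain ⟨σ, -, hσ, hmem⟩ := (H c' hc').2 R hR
    intro hcon
    rw [hT₀] at hcon
    apply hne
    rw [← hε R σ hσ]
    exact hcon _ hmem
  have hne : T₀.Nonempty := by
    obtain ⟨δ, hδ, H⟩ := fibre h (inv_ne_const hy) 0 χ hχ ε hε0
    have hd : ((δ / 2 : ℝ) : ℂ) ≠ 0 := by
      exact_mod_cast (half_pos hδ).ne'
    refine ⟨((δ / 2 : ℝ) : ℂ)⁻¹, ?_⟩
    rw [hT₀]
    intro P hP
    have hP' := mem_Zr_inv h (inv_ne_zero hd) hP
    rw [inv_inv] at hP'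
    have hn : ‖((δ / 2 : ℝ) : ℂ) - 0‖ < δ := by
      rw [sub_zero, Complex.norm_real, Real.norm_of_nonneg (half_pos hδ).le]
      exact half_lt_self hδ
    obtain ⟨R, hR, σ, -, hσ, rfl⟩ := (H _ hn).1 P hP'
    rw [hε R σ hσ, (Zr_inv_zero h hy hQ).1 hR]
  have huniv : T₀ = Set.univ := IsClopen.eq_univ ⟨hclosed, hopen⟩ hne
  by_cases hP : P = Q
  · rw [hP]
  · have h1 : val P y ∈ T₀ := by rw [huniv]; exact Set.mem_univ _
    rw [hT₀] at h1
    exact h1 P (mem_Zr_of_val h (hQ P hP))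

/-- local boundedness on the fibres -/
theorem FibreAux.bounded_near (h : IsFF ℂ F) (u : Place ℂ F → ℝ)
    (hu : ∀ χ : Chart F, ContinuousOn (fun σ => u (χ.pl σ)) χ.B)
    {y : F} (hy : ∀ c : ℂ, y ≠ algebraMap ℂ F c) (c : ℂ) :
    ∃ δ : ℝ, 0 < δ ∧ ∃ M : ℝ, ∀ c' : ℂ, ‖c' - c‖ < δ → ∀ P ∈ Zr y c', |u P| ≤ M := by
  classical
  choose χ hχ _ using fun R => exists_chart h R
  have hM : ∀ R, ∃ M : ℝ, ∀ σ : ℂ, ‖σ‖ < (χ R).r / 2 → |u ((χ R).pl σ)| ≤ M := by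
    intro R
    have hsub : Metric.closedBall (0 : ℂ) ((χ R).r / 2) ⊆ (χ R).B :=
      Metric.closedBall_subset_ball (half_lt_self (χ R).r_pos)
    obtain ⟨C, hC⟩ := (isCompact_closedBall (0 : ℂ) ((χ R).r / 2)).exists_bound_of_continuousOn
      ((hu (χ R)).mono hsub)
    refine ⟨C, fun σ hσ => ?_⟩
    have := hC σ (by rw [Metric.mem_closedBall, dist_zero_right]; exact hσ.le)
    rwa [Real.norm_eq_abs] at this
  choose M hM using hM
  obtain ⟨δ, hδ, H⟩ := fibre h hy c χ hχ (fun R => (χ R).r / 2) fun R => half_pos (χ R).r_pos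
  refine ⟨δ, hδ, ∑ R ∈ (finite_Zr h hy c).toFinset, |M R|, fun c' hc' P hP => ?_⟩
  obtain ⟨R, hR, σ, -, hσ, rfl⟩ := (H c' hc').1 P hP
  refine ((hM R σ hσ).trans (le_abs_self _)).trans ?_
  exact Finset.single_le_sum (f := fun R => |M R|) (fun _ _ => abs_nonneg _)
    ((Set.Finite.mem_toFinset _).2 hR)

/-- [S27/AJ-BDD] "`Place ℂ F` is compact" -/
theorem bounded_of_continuous (h : IsFF ℂ F) (u : Place ℂ F → ℝ)
    (hu : ∀ χ : Chart F, ContinuousOn (fun σ => u (χ.pl σ)) χ.B) : ∃ M : ℝ, ∀ P, |u P| ≤ M := by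
  classical
  have := infinite_place h
  obtain ⟨Q⟩ : Nonempty (Place ℂ F) := inferInstance
  obtain ⟨y, hy, hQ⟩ := exists_one_pole h Q
  obtain ⟨δi, hδi, Mi, Hi⟩ := bounded_near h u hu (inv_ne_const hy) 0
  choose δ hδ M H using fun c => bounded_near h u hu hy c
  obtain ⟨t, -, ht⟩ := (isCompact_closedBall (0 : ℂ) (δi⁻¹)).elim_nhds_subcover
    (fun c => Metric.ball c (δ c)) fun c _ => Metric.ball_mem_nhds c (hδ c)
  refine ⟨|Mi| + ∑ c ∈ t, |M c|, fun P => ?_⟩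
  have hsum : 0 ≤ ∑ c ∈ t, |M c| := Finset.sum_nonneg fun _ _ => abs_nonneg _
  by_cases hP : P = Q
  · have h1 : P ∈ Zr y⁻¹ 0 := (Zr_inv_zero h hy hQ).2 hP
    have h2 := Hi 0 (by simpa using hδi) P h1
    have := le_abs_self Mi
    linarith
  · have hr := hQ P hP
    have hmem := mem_Zr_of_val h hr
    by_cases hc : ‖val P y‖ ≤ δi⁻¹
    · have h1 : val P y ∈ ⋃ c ∈ t, Metric.ball c (δ c) :=
        ht (by rw [Metric.mem_closedBall, dist_zero_right]; exact hc)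
      simp only [Set.mem_iUnion] at h1
      obtain ⟨c, hct, hcb⟩ := h1
      rw [Metric.mem_ball, dist_eq_norm] at hcb
      have h2 := H c _ hcb P hmem
      have h3 : |M c| ≤ ∑ c ∈ t, |M c| :=
        Finset.single_le_sum (f := fun c => |M c|) (fun _ _ => abs_nonneg _) hct
      have := le_abs_self (M c)
      have := abs_nonneg Mi
      linarith
    · rw [not_le] at hc
      have hpos : 0 < ‖val P y‖ := (inv_pos.2 hδi).trans hc
      have hc0 : val P y ≠ 0 := norm_pos_iff.1 hpos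
      have h1 := mem_Zr_inv h hc0 hmem
      have h2 : ‖(val P y)⁻¹ - 0‖ < δi := by
        rw [sub_zero, norm_inv]
        exact inv_lt_of_inv_lt₀ hδi hc
      have h3 := Hi _ h2 P h1
      have := le_abs_self Mi
      linarith

end Fermat.Agent.S27
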