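import Mathlib

/-!
# S27/AJ : a local homomorphism on a ball extends to a homomorphism      (key `S27/AJ-LH`, Mathlib only, ~200 lines)

`exists_hom_of_local`: for `z : V` and `n : ℕ` with `‖z‖ < n ρ` put `Φ z = n • φ (z / n)`.
(1) `φ (k • w) = k • φ w` if `‖k • w‖ < ρ`... precisely: by induction on `k`, if `(k : ℝ) * ‖w‖ < ρ` then `φ ((k : ℝ) • w) = k • φ w` (`φ 0 = 0` from `hadd 0 0`).
(2) independence of `n`: `n • φ (z/n) = n • (m • φ (z/(nm))) = m • φ (z/m)`.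
(3) additivity: take a common `n` for `z`, `z'`, `z + z'`.
`hom_ext_of_local`: `z = n • (z / n)`.
-/

set_option autoImplicit false
set_option linter.unusedSectionVars false

namespace Fermat.Agent.S27

variable {V J : Type*} [NormedAddCommGroup V] [NormedSpace ℝ V] [AddCommGroup J]

namespace LocHomAux

theorem exists_nat (ρ : ℝ) (hρ : 0 < ρ) (z : V) : ∃ n : ℕ, 0 < n ∧ ‖z‖ < n * ρ := by
  obtain ⟨n, hn⟩ := exists_nat_gt (‖z‖ / ρ)
  refine ⟨n + 1, Nat.succ_pos n, ?_⟩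
  rw [div_lt_iff₀ hρ] at hn
  push_cast
  nlinarith

theorem norm_inv_smul_lt {ρ : ℝ} {n : ℕ} (hn : 0 < n) {z : V} (h : ‖z‖ < n * ρ) :
    ‖((n : ℝ)⁻¹) • z‖ < ρ := by
  have hn' : (0 : ℝ) < n := by exact_mod_cast hn
  rw [norm_smul, norm_inv, Real.norm_of_nonneg hn'.le, inv_mul_lt_iff₀ hn']
  exact h

variable (φ : V → J) (ρ : ℝ)
  (hadd : ∀ z z' : V, ‖z‖ < ρ → ‖z'‖ < ρ → φ (z + z') = φ z + φ z')

include hadd in
theorem map_zero (hρ : 0 < ρ) : φ 0 = 0 := by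
  have h := hadd 0 0 (by simpa using hρ) (by simpa using hρ)
  rw [add_zero] at h
  exact (add_eq_left.1 h.symm)

include hadd in
theorem map_nsmul (hρ : 0 < ρ) (w : V) (k : ℕ) (hk : (k : ℝ) * ‖w‖ < ρ) :
    φ ((k : ℝ) • w) = k • φ w := by
  induction k with
  | zero => simp [map_zero φ ρ hadd hρ]
  | succ k ih =>
    have h0 : 0 ≤ ‖w‖ := norm_nonneg w
    have hk' : ((k : ℝ) + 1) * ‖w‖ < ρ := by exact_mod_cast hk
    have h1 : (k : ℝ) * ‖w‖ < ρ := by nlinarith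
    have h2 : ‖w‖ < ρ := by
      have : (0 : ℝ) ≤ k := Nat.cast_nonneg k
      nlinarith
    have h3 : ‖(k : ℝ) • w‖ < ρ := by
      rw [norm_smul, Real.norm_of_nonneg (Nat.cast_nonneg k)]
      exact h1
    have e : ((k + 1 : ℕ) : ℝ) • w = (k : ℝ) • w + w := by
      push_cast
      rw [add_smul, one_smul]
    rw [e, hadd _ _ h3 h2, ih h1, succ_nsmul]

/-- the candidate -/
noncomputable def Psi (n : ℕ) (z : V) : J := n • φ (((n : ℝ)⁻¹) • z)

include hadd in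
theorem Psi_mul (hρ : 0 < ρ) {n : ℕ} (hn : 0 < n) (m : ℕ) (hm : 0 < m) {z : V} (h : ‖z‖ < n * ρ) :
    Psi φ (n * m) z = Psi φ n z := by
  have hn' : (0 : ℝ) < n := by exact_mod_cast hn
  have hm' : (0 : ℝ) < m := by exact_mod_cast hm
  unfold Psi
  have e : ((n : ℝ)⁻¹) • z = (m : ℝ) • ((((n * m : ℕ) : ℝ)⁻¹) • z) := by
    rw [smul_smul]
    congr 1
    push_cast
    field_simp
  have h1 : (m : ℝ) * ‖(((n * m : ℕ) : ℝ)⁻¹) • z‖ < ρ := by
    have := norm_inv_smul_lt hn h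
    rw [e, norm_smul, Real.norm_of_nonneg hm'.le] at this
    exact this
  rw [e, map_nsmul φ ρ hadd hρ _ m h1, mul_nsmul']

include hadd in
theorem Psi_eq (hρ : 0 < ρ) {n m : ℕ} (hn : 0 < n) (hm : 0 < m) {z : V} (h : ‖z‖ < n * ρ)
    (h' : ‖z‖ < m * ρ) : Psi φ n z = Psi φ m z := by
  rw [← Psi_mul φ ρ hadd hρ hn m hm h, ← Psi_mul φ ρ hadd hρ hm n hn h', mul_comm]

include hadd in
theorem Psi_add {n : ℕ} (hn : 0 < n) {z z' : V} (h : ‖z‖ < n * ρ)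
    (h' : ‖z'‖ < n * ρ) : Psi φ n (z + z') = Psi φ n z + Psi φ n z' := by
  unfold Psi
  rw [smul_add, hadd _ _ (norm_inv_smul_lt hn h) (norm_inv_smul_lt hn h'), nsmul_add]

end LocHomAux

open LocHomAux

theorem exists_hom_of_local (φ : V → J) (ρ : ℝ) (hρ : 0 < ρ)
    (hadd : ∀ z z' : V, ‖z‖ < ρ → ‖z'‖ < ρ → φ (z + z') = φ z + φ z') :
    ∃ Φ : V →+ J, ∀ z, ‖z‖ < ρ → Φ z = φ z := by
  choose N hN0 hN using exists_nat (V := V) ρ hρ
  have key : ∀ (z : V) (n : ℕ), 0 < n → ‖z‖ < n * ρ → Psi φ (N z) z = Psi φ n z :=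
    fun z n hn h => Psi_eq φ ρ hadd hρ (hN0 z) hn (hN z) h
  refine ⟨AddMonoidHom.mk' (fun z => Psi φ (N z) z) fun z z' => ?_, fun z hz => ?_⟩
  · have hle : ∀ (w : V) (n : ℕ), N w ≤ n → ‖w‖ < n * ρ := by
      intro w n hn
      refine (hN w).trans_le ?_
      have : (N w : ℝ) ≤ n := by exact_mod_cast hn
      nlinarith
    have hpos : 0 < N z + N z' + N (z + z') := by have := hN0 z; omega
    rw [key z _ hpos (hle _ _ (by omega)), key z' _ hpos (hle _ _ (by omega)),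
      key (z + z') _ hpos (hle _ _ (by omega))]
    exact Psi_add φ ρ hadd hpos (hle _ _ (by omega)) (hle _ _ (by omega))
  · show Psi φ (N z) z = φ z
    rw [key z 1 one_pos (by simpa using hz)]
    simp [Psi]

theorem hom_ext_of_local (Φ Φ' : V →+ J) (ρ : ℝ) (hρ : 0 < ρ)
    (h : ∀ z, ‖z‖ < ρ → Φ z = Φ' z) : Φ = Φ' := by
  ext z
  obtain ⟨n, hn, hz⟩ := exists_nat ρ hρ z
  have hn' : (n : ℝ) ≠ 0 := by exact_mod_cast hn.ne'
  have e : z = n • (((n : ℝ)⁻¹) • z) := by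
    rw [← Nat.cast_smul_eq_nsmul ℝ, smul_smul, mul_inv_cancel₀ hn', one_smul]
  rw [e, _root_.map_nsmul, _root_.map_nsmul, h _ (norm_inv_smul_lt hn hz)]

end Fermat.Agent.S27
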