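import Fermat.Agent.S27.AJ.Sys
import Fermat.Agent.S27.AJ.LocHom

/-!
# S27/KL : the key lemma, additivity, the Abel-Jacobi homomorphism
keys `S27/AJ-KL-a` = `kl_local` (~400 lines);  `S27/AJ-KL-b` = `kl` (~250 lines);  `S27/AJ-ADD` = `add_of_disj` (~400 lines);
     `S27/AJ-PHI-a` = `exists_isAJ`, `IsAJ.unique` (~250 lines);  `S27/AJ-PHI-b` = `exists_Phi` (~350 lines)

`𝔞 : Sys b`, `A s = ∑ pl_i (s_i)`, `II s = ∑ vv_i (s_i)`; `χ` a chart, `vv σ` its vector of primitives.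

* `kl_local`: `n = g + 1`, charts `Fin.cons χ 𝔞.χ`, parameters `Fin.cons σ₀ s`; the places are distinct (`𝔞.disj`, `hdis`).  `D = pl σ₀ + A s`.  `rr` + `finrank_H1_mono` + `𝔞.nonsp`: `l(D) = 2`, `l(A s) = 1`.
  So there is `y ∈ L(D)`, `y ∉ L(A s)`; `y` is not regular at `pl σ₀`.  `abel_local` gives `ε`, `a`.  Shrink `ε' ≤ ε` so that `‖a (i+1) μ‖ < 𝔞.ρ` (continuity at `0`).  For `σ` near `σ₀` take `μ` with
  `a 0 μ = σ`, `s' i = a (i+1) μ`.  (`Fin.sum_univ_succ`; `sumPl (Fin.cons ..) = single + sumPl`; `cls_eq_zero_iff`, `cls_add`.)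
* `kl`: for `σ ∈ ball σ₀ ε` let `S σ` be THE solution of `II (S σ) = z - (vv σ - vv σ₀)` in the polydisc (`hz`, `𝔞.inj`).  `ψ σ = cls (A (S σ) - A (S σ₀)) + cls (pl σ - pl σ₀)` is locally constant:
  at `σ₁`, `kl_local` with `s = S σ₁` gives `s'` with `II s' = II (S σ₁) - (vv σ - vv σ₁) = z - (vv σ - vv σ₀)`, so `s' = S σ`, and
  `cls (A (S σ) - A (S σ₁)) = - cls (pl σ - pl σ₁)`.  The ball is preconnected (`IsLocallyConstant`/`IsPreconnected.constant_of_...`: e.g. `{σ | ψ σ = ψ σ₀}` is clopen in the ball), `ψ σ₀ = 0`.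
* `add_of_disj`: see the blueprint (ADD): apply `kl` (with `σ₀ = 0`) to the charts `𝔞.χ i`, `i = 1..g`, one after the other (`Finset.induction_on`), for the system `𝔟`.
* `exists_isAJ`: `φ z := cls (𝔟.A s - 𝔟.A 0)` for the solution `s` of `II s = z`.  `add_of_disj` with `z = 0`: `φ_𝔟 (-z') = - φ_𝔞 z'`; so `φ_𝔟 (z - z') = φ_𝔟 z + φ_𝔟 (-z')`; `exists_hom_of_local`.
* `IsAJ.unique`: `𝔞.opn` + `hom_ext_of_local`.
* `exists_Phi`: `𝔞₀ = exists_sys ∅`.  For any system `𝔠` choose `𝔡` whose centres avoid the centres of `𝔞₀` and `𝔠`; shrink (`Sys.exists_disj` for all charts of the other system) to make them disjoint;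
  `exists_isAJ` twice + `unique` twice: ONE `Φ` is `IsAJ` for all systems.  (P1): `𝔠` avoiding `χ.pl σ₀`, shrunk by `Sys.exists_disj`; `kl` with `z = 0`.  (P2): `Sys.eq_of_cls_eq`.
-/

set_option autoImplicit false

noncomputable section

namespace Fermat.Agent.S27

open AlgebraicCurve Fermat.Agent.S37 Topology

variable {F : Type*} [Field F] [Algebra ℂ F] {g : ℕ}
  {b : Module.Basis (Fin g) ℂ (WD (0 : Divisor ℂ F))}

theorem Sys.mem_B (𝔞 : Sys b) {i : Fin g} {σ : ℂ} (hσ : ‖σ‖ < 𝔞.ρ) : σ ∈ (𝔞.χ i).B := by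
  rw [Metric.mem_ball, dist_zero_right]
  exact hσ.trans_le (𝔞.ρ_le i)

theorem Sys.A_sub_mem (h : IsFF ℂ F) (𝔞 : Sys b) (s s' : Fin g → ℂ) :
    𝔞.A s - 𝔞.A s' ∈ Divisor.degZero (K := ℂ) (F := F) := sumPl_sub_mem_degZero h _ _

/-- `l (A s) = 1` -/
theorem Sys.finrank_L (h : IsFF ℂ F) (hg : g = genusFF ℂ F) (𝔞 : Sys b) {s : Fin g → ℂ}
    (hs : ∀ i, ‖s i‖ < 𝔞.ρ) : Module.finrank ℂ (riemannRochSpace (𝔞.A s)) = 1 := by
  have h1 := rr h (𝔞.A s)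
  have h2 : Module.finrank ℂ (H1 (𝔞.A s)) = 0 := 𝔞.nonsp s hs
  rw [h2, Sys.A, degree_sumPl h, ← hg] at h1
  have : (Module.finrank ℂ (riemannRochSpace (𝔞.A s)) : ℤ) = 1 := by
    rw [Sys.A]; push_cast at h1 ⊢; linarith
  exact_mod_cast this

/-- `l (P + A s) = 2` -/
theorem Sys.finrank_L_add (h : IsFF ℂ F) (hg : g = genusFF ℂ F) (𝔞 : Sys b) {s : Fin g → ℂ}
    (hs : ∀ i, ‖s i‖ < 𝔞.ρ) (P : Place ℂ F) :
    Module.finrank ℂ (riemannRochSpace (Finsupp.single P 1 + 𝔞.A s)) = 2 := by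
  have h1 := rr h (Finsupp.single P 1 + 𝔞.A s)
  have h2 : Module.finrank ℂ (H1 (𝔞.A s)) = 0 := 𝔞.nonsp s hs
  have h3 : Module.finrank ℂ (H1 (Finsupp.single P 1 + 𝔞.A s)) ≤ Module.finrank ℂ (H1 (𝔞.A s)) := by
    refine finrank_H1_mono h ?_
    intro v
    classical
    rw [Finsupp.add_apply, Finsupp.single_apply]
    split_ifs <;> simp
  have h4 : Module.finrank ℂ (H1 (Finsupp.single P 1 + 𝔞.A s)) = 0 := by omega
  rw [h4, map_add, Sys.A, degree_sumPl h, ← hg, Divisor.degree_single, h.deg_eq_one] at h1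
  have : (Module.finrank ℂ (riemannRochSpace (Finsupp.single P 1 + 𝔞.A s)) : ℤ) = 2 := by
    rw [Sys.A]; push_cast at h1 ⊢; linarith
  exact_mod_cast this

/-- a function with a simple pole at `P`, otherwise in `L (A s)` -/
theorem Sys.exists_pole (h : IsFF ℂ F) (hg : g = genusFF ℂ F) (𝔞 : Sys b) {s : Fin g → ℂ}
    (hs : ∀ i, ‖s i‖ < 𝔞.ρ) (P : Place ℂ F) :
    ∃ y ∈ riemannRochSpace (Finsupp.single P 1 + 𝔞.A s), ¬ Reg P y := by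
  by_contra hcon
  push Not at hcon
  have hle : riemannRochSpace (Finsupp.single P 1 + 𝔞.A s) ≤ riemannRochSpace (𝔞.A s) := by
    intro y hy
    have hr := hcon y hy
    rw [mem_riemannRochSpace_iff] at hy ⊢
    intro v
    rcases hy v with h0 | h1
    · exact Or.inl h0
    · right
      by_cases hv : v = P
      · subst hv
        have h2 := reg_iff.1 hr
        have h3 : 0 ≤ 𝔞.A s v := sumPl_nonneg _ v
        omega
      · rw [Finsupp.add_apply, Finsupp.single_eq_of_ne hv, zero_add] at h1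
        exact h1
  have := finite_L h (𝔞.A s)
  have h1 := Submodule.finrank_mono hle
  rw [𝔞.finrank_L h hg hs, 𝔞.finrank_L_add h hg hs] at h1
  omega

/-- [S27/AJ-KL-a] -/
theorem kl_local (h : IsFF ℂ F) (hg : g = genusFF ℂ F) (𝔞 : Sys b) (χ : Chart F) {σ₀ : ℂ}
    (hσ : σ₀ ∈ χ.B) (s : Fin g → ℂ) (hs : ∀ i, ‖s i‖ < 𝔞.ρ)
    (hdis : ∀ i, χ.pl σ₀ ≠ (𝔞.χ i).pl (s i)) :
    ∀ᶠ σ in 𝓝 σ₀, ∃ s' : Fin g → ℂ, (∀ i, ‖s' i‖ < 𝔞.ρ) ∧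
      II b 𝔞.χ s' = II b 𝔞.χ s - (χ.vv b σ - χ.vv b σ₀) ∧
      cls (𝔞.A s' - 𝔞.A s) = - cls (dPl (χ.pl σ) (χ.pl σ₀)) := by
  set X : Fin (g + 1) → Chart F := Fin.cons χ 𝔞.χ with hX
  set S : Fin (g + 1) → ℂ := Fin.cons σ₀ s with hS
  have hpl : ∀ T : Fin (g + 1) → ℂ, (fun k => (X k).pl (T k)) =
      Fin.cons (χ.pl (T 0)) fun i => (𝔞.χ i).pl (T i.succ) := by
    intro T
    funext k
    refine Fin.cases ?_ (fun i => ?_) k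
    · simp [hX]
    · simp [hX]
  have hsum : ∀ T : Fin (g + 1) → ℂ, (sumPl fun k => (X k).pl (T k)) =
      Finsupp.single (χ.pl (T 0)) 1 + 𝔞.A fun i => T i.succ := by
    intro T
    rw [hpl T, sumPl_cons]
    rfl
  have hSB : ∀ k, S k ∈ (X k).B := by
    intro k
    refine Fin.cases ?_ (fun i => ?_) k
    · simpa [hX, hS] using hσ
    · simpa [hX, hS] using 𝔞.mem_B (i := i) (hs i)
  have hinj : Function.Injective fun k => (X k).pl (S k) := by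
    rw [hpl S]
    intro k k'
    refine Fin.cases ?_ (fun i => ?_) k <;> refine Fin.cases ?_ (fun i' => ?_) k'
    · intro _; rfl
    · intro he
      simp only [Fin.cons_zero, Fin.cons_succ, hS] at he
      exact absurd he (hdis i')
    · intro he
      simp only [Fin.cons_zero, Fin.cons_succ, hS] at he
      exact absurd he.symm (hdis i)
    · intro he
      simp only [Fin.cons_succ, hS] at he
      by_contra hne
      exact 𝔞.disj i i' (fun hii => hne (by rw [hii])) _ _ (hs i) (hs i') he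
  obtain ⟨y, hy, hyr⟩ := 𝔞.exists_pole h hg hs (χ.pl σ₀)
  have hy' : y ∈ riemannRochSpace (sumPl fun k => (X k).pl (S k)) := by
    rw [hsum S]
    simpa [hS] using hy
  obtain ⟨ε, a, hε, ha0, hac, haB, hprin, hint, hsurj⟩ := abel_local h X S hSB hinj y hy'
  have hev : ∀ᶠ μ in 𝓝 (0 : ℂ), ∀ i : Fin g, ‖a i.succ μ‖ < 𝔞.ρ := by
    refine Filter.eventually_all.2 fun i => ?_
    have hc : ContinuousAt (a i.succ) 0 := (hac i.succ).continuousAt (Metric.ball_mem_nhds 0 hε)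
    have h1 : ∀ᶠ τ in 𝓝 (a i.succ 0), ‖τ‖ < 𝔞.ρ := by
      rw [ha0]
      have : S i.succ = s i := by simp [hS]
      rw [this]
      exact (continuous_norm.continuousAt (x := s i)).eventually (gt_mem_nhds (hs i))
    exact hc.eventually h1
  obtain ⟨ε', hε', H'⟩ := Metric.eventually_nhds_iff_ball.1 hev
  have h0 := hsurj 0 (by simpa [hX, hS] using hyr) (min ε ε') (lt_min hε hε')
  have hS0 : S 0 = σ₀ := by simp [hS]
  rw [hS0] at h0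
  filter_upwards [h0] with σ hσ'
  obtain ⟨μ, hμ, haμ⟩ := hσ'
  have hμ1 : μ ∈ Metric.ball (0 : ℂ) ε := Metric.ball_subset_ball (min_le_left _ _) hμ
  have hμ2 : μ ∈ Metric.ball (0 : ℂ) ε' := Metric.ball_subset_ball (min_le_right _ _) hμ
  refine ⟨fun i => a i.succ μ, H' μ hμ2, ?_, ?_⟩
  · funext j
    have h1 := hint (b j) μ hμ1
    rw [Fin.sum_univ_succ] at h1
    simp only [hX, hS, Fin.cons_zero, Fin.cons_succ] at h1
    rw [Finset.sum_sub_distrib] at h1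
    simp only [Pi.sub_apply, II_apply, Chart.vv]
    rw [← haμ]
    linear_combination h1
  · have h1 := hprin μ hμ1
    rw [hsum, hsum S] at h1
    have h2 : Finsupp.single (χ.pl (a 0 μ)) 1 + (𝔞.A fun i => a i.succ μ) -
        (Finsupp.single (χ.pl (S 0)) 1 + 𝔞.A fun i => S i.succ) =
        dPl (χ.pl σ) (χ.pl σ₀) + ((𝔞.A fun i => a i.succ μ) - 𝔞.A s) := by
      have : (fun i : Fin g => S i.succ) = s := by funext i; simp [hS]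
      rw [this, hS0, haμ, dPl]
      abel
    rw [h2] at h1
    have h3 : (𝔞.A fun i => a i.succ μ) - 𝔞.A s ∈ Divisor.degZero (K := ℂ) (F := F) :=
      sumPl_sub_mem_degZero h _ _
    have h4 := dPl_mem_degZero h (χ.pl σ) (χ.pl σ₀)
    rw [← cls_eq_zero_iff (add_mem h4 h3), cls_add h4 h3] at h1
    exact eq_neg_of_add_eq_zero_right h1


/-- a locally constant function on a preconnected set is constant -/
theorem const_of_eventually_const {β : Type*} {U : Set ℂ} (hU : IsPreconnected U) (ψ : ℂ → β)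
    (hψ : ∀ τ₁ ∈ U, ∀ᶠ τ in 𝓝 τ₁, ψ τ = ψ τ₁) {x y : ℂ} (hx : x ∈ U) (hy : y ∈ U) : ψ x = ψ y := by
  let _ : TopologicalSpace β := ⊥
  have : DiscreteTopology β := ⟨rfl⟩
  refine hU.constant (f := ψ) (fun τ₁ hτ₁ => ContinuousAt.continuousWithinAt ?_) hx hy
  exact (continuousAt_const (y := ψ τ₁)).congr (Filter.Eventually.mono (hψ τ₁ hτ₁) fun τ hτ => hτ.symm)

theorem dPl_self (P : Place ℂ F) : dPl P P = 0 := sub_self _

theorem dPl_add_dPl (P Q R : Place ℂ F) : dPl P Q + dPl Q R = dPl P R := by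
  simp only [dPl]; abel

/-- [S27/AJ-KL-b] **the key lemma** -/
theorem kl (h : IsFF ℂ F) (hg : g = genusFF ℂ F) (𝔞 : Sys b) (χ : Chart F) (σ₀ : ℂ) (ε : ℝ)
    (hε : Metric.ball σ₀ ε ⊆ χ.B)
    (hdis : ∀ σ ∈ Metric.ball σ₀ ε, ∀ i, ∀ τ : ℂ, ‖τ‖ < 𝔞.ρ → χ.pl σ ≠ (𝔞.χ i).pl τ)
    (z : Fin g → ℂ)
    (hz : ∀ σ ∈ Metric.ball σ₀ ε, ∃ s : Fin g → ℂ, (∀ i, ‖s i‖ < 𝔞.ρ) ∧
      II b 𝔞.χ s = z - (χ.vv b σ - χ.vv b σ₀))
    {σ : ℂ} (hσ : σ ∈ Metric.ball σ₀ ε) {s s' : Fin g → ℂ} (hs : ∀ i, ‖s i‖ < 𝔞.ρ)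
    (hs' : ∀ i, ‖s' i‖ < 𝔞.ρ) (hz0 : II b 𝔞.χ s = z)
    (hz1 : II b 𝔞.χ s' = z - (χ.vv b σ - χ.vv b σ₀)) :
    cls (𝔞.A s' - 𝔞.A s) = - cls (dPl (χ.pl σ) (χ.pl σ₀)) := by
  classical
  have hε0 : 0 < ε := lt_of_le_of_lt dist_nonneg (Metric.mem_ball.1 hσ)
  have hσ₀ : σ₀ ∈ Metric.ball σ₀ ε := Metric.mem_ball_self hε0
  set S : ℂ → Fin g → ℂ := fun τ => if hτ : τ ∈ Metric.ball σ₀ ε then (hz τ hτ).choose else 0 with hS
  have hS1 : ∀ τ ∈ Metric.ball σ₀ ε, (∀ i, ‖S τ i‖ < 𝔞.ρ) ∧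
      II b 𝔞.χ (S τ) = z - (χ.vv b τ - χ.vv b σ₀) := by
    intro τ hτ
    simp only [hS, dif_pos hτ]
    exact (hz τ hτ).choose_spec
  have hS2 : ∀ τ ∈ Metric.ball σ₀ ε, ∀ t : Fin g → ℂ, (∀ i, ‖t i‖ < 𝔞.ρ) →
      II b 𝔞.χ t = z - (χ.vv b τ - χ.vv b σ₀) → t = S τ := by
    intro τ hτ t ht hte
    exact 𝔞.inj t (S τ) ht (hS1 τ hτ).1 (hte.trans (hS1 τ hτ).2.symm)
  set ψ : ℂ → Pic0 ℂ F := fun τ => cls (𝔞.A (S τ) - 𝔞.A s) + cls (dPl (χ.pl τ) (χ.pl σ₀)) with hψ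
  have hloc : ∀ τ₁ ∈ Metric.ball σ₀ ε, ∀ᶠ τ in 𝓝 τ₁, ψ τ = ψ τ₁ := by
    intro τ₁ hτ₁
    have h1 := kl_local h hg 𝔞 χ (hε hτ₁) (S τ₁) (hS1 τ₁ hτ₁).1
      (fun i => hdis τ₁ hτ₁ i _ ((hS1 τ₁ hτ₁).1 i))
    filter_upwards [h1, Metric.isOpen_ball.mem_nhds hτ₁] with τ hτ hτb
    obtain ⟨t, ht, hte, htc⟩ := hτ
    have h2 : t = S τ := by
      refine hS2 τ hτb t ht ?_
      rw [hte, (hS1 τ₁ hτ₁).2]
      abel
    rw [h2] at htc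
    have e1 : 𝔞.A (S τ) - 𝔞.A s = (𝔞.A (S τ) - 𝔞.A (S τ₁)) + (𝔞.A (S τ₁) - 𝔞.A s) := by abel
    simp only [hψ]
    rw [e1, cls_add (𝔞.A_sub_mem h _ _) (𝔞.A_sub_mem h _ _), htc,
      ← dPl_add_dPl (χ.pl τ) (χ.pl τ₁) (χ.pl σ₀),
      cls_add (dPl_mem_degZero h _ _) (dPl_mem_degZero h _ _)]
    abel
  have h3 := const_of_eventually_const (convex_ball σ₀ ε).isPreconnected ψ hloc hσ hσ₀
  have h4 : S σ = s' := (hS2 σ hσ s' hs' hz1).symm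
  have h5 : S σ₀ = s := (hS2 σ₀ hσ₀ s hs (by rw [hz0]; simp)).symm
  simp only [hψ, h4, h5, sub_self, dPl_self, cls_zero, add_zero] at h3
  exact eq_neg_of_add_eq_zero_left h3

/-- two systems with disjoint images -/
def Sys.Disj (𝔞 𝔟 : Sys b) : Prop :=
  ∀ i j, ∀ σ τ : ℂ, ‖σ‖ < 𝔞.ρ → ‖τ‖ < 𝔟.ρ → (𝔞.χ i).pl σ ≠ (𝔟.χ j).pl τ

theorem sum_update_eq {M : Type*} [AddCommGroup M] (G : Fin g → ℂ → M) (u : Fin g → ℂ) (i : Fin g)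
    (σ : ℂ) : ∑ k, G k (Function.update u i σ k) = ∑ k, G k (u k) + (G i σ - G i (u i)) := by
  rw [← Finset.add_sum_erase _ _ (Finset.mem_univ i),
    ← Finset.add_sum_erase Finset.univ (fun k => G k (u k)) (Finset.mem_univ i)]
  have : ∑ k ∈ Finset.univ.erase i, G k (Function.update u i σ k)
      = ∑ k ∈ Finset.univ.erase i, G k (u k) :=
    Finset.sum_congr rfl fun k hk => by rw [Function.update_of_ne (Finset.ne_of_mem_erase hk)]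
  rw [this, Function.update_self]
  abel

theorem II_update (χ : Fin g → Chart F) (u : Fin g → ℂ) (i : Fin g) (σ : ℂ) :
    II b χ (Function.update u i σ) = II b χ u + ((χ i).vv b σ - (χ i).vv b (u i)) :=
  sum_update_eq (fun k τ => (χ k).vv b τ) u i σ

theorem Sys.A_update (𝔞 : Sys b) (u : Fin g → ℂ) (i : Fin g) (σ : ℂ) :
    𝔞.A (Function.update u i σ) = 𝔞.A u + dPl ((𝔞.χ i).pl σ) ((𝔞.χ i).pl (u i)) :=
  sum_update_eq (fun k τ => Finsupp.single ((𝔞.χ k).pl τ) (1 : ℤ)) u i σ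

theorem exists_II_small (χ : Fin g → Chart F) {η : ℝ} (hη : 0 < η) :
    ∃ δ : ℝ, 0 < δ ∧ ∀ u : Fin g → ℂ, (∀ i, ‖u i‖ < δ) → ‖II b χ u‖ < η := by
  obtain ⟨δ, hδ, H⟩ := Metric.continuousAt_iff.1 (continuousAt_II (b := b) χ) η hη
  refine ⟨δ, hδ, fun u hu => ?_⟩
  have := H (x := u) (by rw [dist_zero_right]; exact (pi_norm_lt_iff hδ).2 hu)
  rwa [II_zero, dist_zero_right] at this

/-- [S27/AJ-ADD] -/
theorem add_of_disj (h : IsFF ℂ F) (hg : g = genusFF ℂ F) (𝔞 𝔟 : Sys b) (hd : 𝔞.Disj 𝔟) :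
    ∃ ε : ℝ, 0 < ε ∧ ε ≤ 𝔞.ρ ∧ ε ≤ 𝔟.ρ ∧ ∀ s s' t : Fin g → ℂ, (∀ i, ‖s i‖ < ε) → (∀ i, ‖t i‖ < ε) →
      (∀ i, ‖s' i‖ < 𝔟.ρ) → II b 𝔟.χ s' = II b 𝔟.χ s - II b 𝔞.χ t →
      cls (𝔟.A s' - 𝔟.A 0) = cls (𝔟.A s - 𝔟.A 0) - cls (𝔞.A t - 𝔞.A 0) := by
  classical
  obtain ⟨ρ', hρ', Hopn⟩ := 𝔟.opn 𝔟.ρ 𝔟.ρ_pos
  obtain ⟨δ₁, hδ₁, H1⟩ := exists_II_small (b := b) 𝔟.χ (half_pos hρ')
  obtain ⟨δ₂, hδ₂, H2⟩ := exists_II_small (b := b) 𝔞.χ (half_pos hρ')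
  refine ⟨min (min δ₁ δ₂) (min 𝔞.ρ 𝔟.ρ), lt_min (lt_min hδ₁ hδ₂) (lt_min 𝔞.ρ_pos 𝔟.ρ_pos),
    (min_le_right _ _).trans (min_le_left _ _), (min_le_right _ _).trans (min_le_right _ _), ?_⟩
  set ε := min (min δ₁ δ₂) (min 𝔞.ρ 𝔟.ρ) with hε
  have hε1 : ε ≤ δ₁ := (min_le_left _ _).trans (min_le_left _ _)
  have hε2 : ε ≤ δ₂ := (min_le_left _ _).trans (min_le_right _ _)
  have hεa : ε ≤ 𝔞.ρ := (min_le_right _ _).trans (min_le_left _ _)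
  have hεb : ε ≤ 𝔟.ρ := (min_le_right _ _).trans (min_le_right _ _)
  have hε0 : 0 < ε := lt_min (lt_min hδ₁ hδ₂) (lt_min 𝔞.ρ_pos 𝔟.ρ_pos)
  intro s s' t hs ht hs' hII
  -- solutions exist
  have hsol : ∀ u : Fin g → ℂ, (∀ i, ‖u i‖ < ε) → ∃ s'' : Fin g → ℂ, (∀ i, ‖s'' i‖ < 𝔟.ρ) ∧
      II b 𝔟.χ s'' = II b 𝔟.χ s - II b 𝔞.χ u := by
    intro u hu
    refine Hopn _ ?_
    have h1 := H1 s fun i => (hs i).trans_le hε1
    have h2 := H2 u fun i => (hu i).trans_le hε2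
    calc ‖II b 𝔟.χ s - II b 𝔞.χ u‖ ≤ ‖II b 𝔟.χ s‖ + ‖II b 𝔞.χ u‖ := norm_sub_le _ _
      _ < ρ' / 2 + ρ' / 2 := add_lt_add h1 h2
      _ = ρ' := add_halves ρ'
  have key : ∀ T : Finset (Fin g), ∀ s'' : Fin g → ℂ, (∀ i, ‖s'' i‖ < 𝔟.ρ) →
      II b 𝔟.χ s'' = II b 𝔟.χ s - II b 𝔞.χ (fun i => if i ∈ T then t i else 0) →
      cls (𝔟.A s'' - 𝔟.A s) = - cls (𝔞.A (fun i => if i ∈ T then t i else 0) - 𝔞.A 0) := by
    intro T
    induction T using Finset.induction_on with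
    | empty =>
      intro s'' hs'' he
      have h0 : (fun i : Fin g => if i ∈ (∅ : Finset (Fin g)) then t i else 0) = 0 := by
        funext i; simp
      rw [h0, II_zero, sub_zero] at he
      rw [h0, 𝔟.inj s'' s hs'' (fun i => (hs i).trans_le hεb) he, sub_self, sub_self, cls_zero,
        neg_zero]
    | insert i T hi ih =>
      intro s'' hs'' he
      set u : Fin g → ℂ := fun k => if k ∈ T then t k else 0 with hu
      have hui : u i = 0 := by simp [hu, hi]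
      have hub : ∀ k, ‖u k‖ < ε := by
        intro k
        simp only [hu]
        split_ifs
        · exact ht k
        · simpa using hε0
      have hupd : (fun k => if k ∈ insert i T then t k else 0) = Function.update u i (t i) := by
        funext k
        by_cases hk : k = i
        · subst hk; simp
        · rw [Function.update_of_ne hk]
          simp [hu, Finset.mem_insert, hk]
      rw [hupd] at he ⊢
      obtain ⟨s₁, hs₁, he₁⟩ := hsol u hub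
      have ih1 := ih s₁ hs₁ he₁
      have hkl := kl h hg 𝔟 (𝔞.χ i) 0 ε
        (fun σ hσ => 𝔞.mem_B (by
          rw [Metric.mem_ball, dist_zero_right] at hσ
          exact hσ.trans_le hεa))
        (fun σ hσ j τ hτ => hd i j σ τ (by
          rw [Metric.mem_ball, dist_zero_right] at hσ
          exact hσ.trans_le hεa) hτ)
        (II b 𝔟.χ s - II b 𝔞.χ u)
        (fun σ hσ => by
          rw [Metric.mem_ball, dist_zero_right] at hσ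
          obtain ⟨s₂, hs₂, he₂⟩ := hsol (Function.update u i σ) (by
            intro k
            by_cases hk : k = i
            · subst hk; simpa using hσ
            · rw [Function.update_of_ne hk]; exact hub k)
          refine ⟨s₂, hs₂, ?_⟩
          rw [he₂, II_update, hui]
          abel)
        (σ := t i) (by rw [Metric.mem_ball, dist_zero_right]; exact ht i) hs₁ hs'' he₁ (by
          rw [he, II_update, hui]
          abel)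
      have e1 : 𝔟.A s'' - 𝔟.A s = (𝔟.A s'' - 𝔟.A s₁) + (𝔟.A s₁ - 𝔟.A s) := by abel
      have e2 : 𝔞.A (Function.update u i (t i)) - 𝔞.A 0 =
          (𝔞.A u - 𝔞.A 0) + dPl ((𝔞.χ i).pl (t i)) ((𝔞.χ i).pl 0) := by
        rw [Sys.A_update, hui]; abel
      rw [e1, cls_add (𝔟.A_sub_mem h _ _) (𝔟.A_sub_mem h _ _), hkl, ih1, e2,
        cls_add (𝔞.A_sub_mem h _ _) (dPl_mem_degZero h _ _)]
      abel
  have hfin := key Finset.univ s' hs' (by simpa using hII)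
  simp only [Finset.mem_univ, if_true] at hfin
  have e3 : 𝔟.A s' - 𝔟.A 0 = (𝔟.A s' - 𝔟.A s) + (𝔟.A s - 𝔟.A 0) := by abel
  rw [e3, cls_add (𝔟.A_sub_mem h _ _) (𝔟.A_sub_mem h _ _), hfin]
  abel

/-- `Φ` is the Abel-Jacobi homomorphism of the system `𝔞` -/
def IsAJ (𝔞 : Sys b) (Φ : (Fin g → ℂ) →+ Pic0 ℂ F) : Prop :=
  ∃ ε : ℝ, 0 < ε ∧ ∀ s : Fin g → ℂ, (∀ i, ‖s i‖ < ε) → Φ (II b 𝔞.χ s) = cls (𝔞.A s - 𝔞.A 0)

/-- [S27/AJ-PHI-a] -/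
theorem exists_isAJ (h : IsFF ℂ F) (hg : g = genusFF ℂ F) (𝔞 𝔟 : Sys b) (hd : 𝔞.Disj 𝔟) :
    ∃ Φ : (Fin g → ℂ) →+ Pic0 ℂ F, IsAJ 𝔞 Φ ∧ IsAJ 𝔟 Φ := by
  classical
  obtain ⟨ε, hε, hεa, hεb, Hadd⟩ := add_of_disj h hg 𝔞 𝔟 hd
  set φ : (Fin g → ℂ) → Pic0 ℂ F := fun z =>
    if hz : ∃ s : Fin g → ℂ, (∀ i, ‖s i‖ < 𝔟.ρ) ∧ II b 𝔟.χ s = z then
      cls (𝔟.A hz.choose - 𝔟.A 0) else 0 with hφ
  have hφ1 : ∀ s : Fin g → ℂ, (∀ i, ‖s i‖ < 𝔟.ρ) → φ (II b 𝔟.χ s) = cls (𝔟.A s - 𝔟.A 0) := by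
    intro s hs
    have hz : ∃ s' : Fin g → ℂ, (∀ i, ‖s' i‖ < 𝔟.ρ) ∧ II b 𝔟.χ s' = II b 𝔟.χ s := ⟨s, hs, rfl⟩
    simp only [hφ, dif_pos hz]
    rw [𝔟.inj _ s hz.choose_spec.1 hs hz.choose_spec.2]
  obtain ⟨ρ₁, hρ₁, Hb⟩ := 𝔟.opn ε hε
  obtain ⟨ρ₂, hρ₂, Ha⟩ := 𝔞.opn ε hε
  set ρ₀ : ℝ := min ρ₁ ρ₂ / 2 with hρ₀
  have hρ₀pos : 0 < ρ₀ := half_pos (lt_min hρ₁ hρ₂)
  have hρ₀1 : ρ₀ + ρ₀ ≤ ρ₁ := by rw [hρ₀, add_halves]; exact min_le_left _ _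
  have hρ₀2 : ρ₀ ≤ ρ₂ := by
    have : min ρ₁ ρ₂ ≤ ρ₂ := min_le_right _ _
    have h2 : 0 < min ρ₁ ρ₂ := lt_min hρ₁ hρ₂
    rw [hρ₀]; linarith
  have h0 : ∀ i : Fin g, ‖(0 : Fin g → ℂ) i‖ < ε := fun i => by simpa using hε
  -- `φ (- II_𝔞 t) = - cls_𝔞 t`
  have hneg : ∀ t : Fin g → ℂ, (∀ i, ‖t i‖ < ε) → ‖II b 𝔞.χ t‖ < ρ₁ →
      φ (- II b 𝔞.χ t) = - cls (𝔞.A t - 𝔞.A 0) := by
    intro t ht hn
    obtain ⟨s', hs', he'⟩ := Hb (- II b 𝔞.χ t) (by rwa [norm_neg])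
    have h1 := Hadd 0 s' t h0 ht (fun i => (hs' i).trans_le hεb) (by rw [he', II_zero, zero_sub])
    rw [← he', hφ1 s' fun i => (hs' i).trans_le hεb, h1, sub_self, cls_zero, zero_sub]
  have hadd : ∀ z z' : Fin g → ℂ, ‖z‖ < ρ₀ → ‖z'‖ < ρ₀ → φ (z + z') = φ z + φ z' := by
    intro z z' hz hz'
    obtain ⟨s, hs, he⟩ := Hb z (by linarith)
    obtain ⟨t, ht, het⟩ := Ha (-z') (by rw [norm_neg]; linarith)
    obtain ⟨s', hs', he'⟩ := Hb (z + z') (by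
      have := norm_add_le z z'
      linarith)
    have h1 := Hadd s s' t hs ht (fun i => (hs' i).trans_le hεb) (by rw [he', he, het]; abel)
    have h2 := hneg t ht (by rw [het, norm_neg]; linarith)
    rw [het, neg_neg] at h2
    rw [← he', hφ1 s' fun i => (hs' i).trans_le hεb, h1, h2, ← he,
      hφ1 s fun i => (hs i).trans_le hεb]
    abel
  obtain ⟨Φ, hΦ⟩ := exists_hom_of_local φ ρ₀ hρ₀pos hadd
  refine ⟨Φ, ?_, ?_⟩
  · obtain ⟨δ, hδ, Hδ⟩ := exists_II_small (b := b) 𝔞.χ hρ₀pos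
    refine ⟨min δ ε, lt_min hδ hε, fun t ht => ?_⟩
    have h1 := Hδ t fun i => (ht i).trans_le (min_le_left _ _)
    have h2 := hneg t (fun i => (ht i).trans_le (min_le_right _ _)) (by linarith)
    have h3 := hΦ (- II b 𝔞.χ t) (by rwa [norm_neg])
    rw [map_neg, h2] at h3
    exact neg_injective h3
  · obtain ⟨δ, hδ, Hδ⟩ := exists_II_small (b := b) 𝔟.χ hρ₀pos
    refine ⟨min δ 𝔟.ρ, lt_min hδ 𝔟.ρ_pos, fun s hs => ?_⟩
    rw [hΦ _ (Hδ s fun i => (hs i).trans_le (min_le_left _ _)),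
      hφ1 s fun i => (hs i).trans_le (min_le_right _ _)]

/-- [S27/AJ-PHI-a] -/
theorem IsAJ.unique {𝔞 : Sys b} {Φ Φ' : (Fin g → ℂ) →+ Pic0 ℂ F} (h1 : IsAJ 𝔞 Φ)
    (h2 : IsAJ 𝔞 Φ') : Φ = Φ' := by
  obtain ⟨ε, hε, H⟩ := h1
  obtain ⟨ε', hε', H'⟩ := h2
  obtain ⟨ρ', hρ', Ho⟩ := 𝔞.opn (min ε ε') (lt_min hε hε')
  refine hom_ext_of_local Φ Φ' ρ' hρ' fun z hz => ?_
  obtain ⟨s, hs, rfl⟩ := Ho z hz
  rw [H s fun i => (hs i).trans_le (min_le_left _ _), H' s fun i => (hs i).trans_le (min_le_right _ _)]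

theorem exists_pos_le_of_finite {ι : Type*} [Finite ι] (f : ι → ℝ) (hf : ∀ i, 0 < f i) :
    ∃ ε : ℝ, 0 < ε ∧ ∀ i, ε ≤ f i := by
  rcases isEmpty_or_nonempty ι with hι | hι
  · exact ⟨1, one_pos, fun i => (hι.false i).elim⟩
  · obtain ⟨i₀, hi₀⟩ := Finite.exists_min f
    exact ⟨f i₀, hf i₀, hi₀⟩

theorem isAJ_shrink {𝔞 : Sys b} {Φ : (Fin g → ℂ) →+ Pic0 ℂ F} {ρ' : ℝ} {h0 : 0 < ρ'}
    {hle : ρ' ≤ 𝔞.ρ} : IsAJ (𝔞.shrink ρ' h0 hle) Φ ↔ IsAJ 𝔞 Φ := Iff.rfl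

/-- systems with distinct centres have the same Abel-Jacobi homomorphism -/
theorem exists_isAJ_of_centres (h : IsFF ℂ F) (hg : g = genusFF ℂ F) (𝔞 𝔡 : Sys b)
    (hne : ∀ i j, (𝔡.χ j).pl 0 ≠ (𝔞.χ i).pl 0) :
    ∃ Φ : (Fin g → ℂ) →+ Pic0 ℂ F, IsAJ 𝔞 Φ ∧ IsAJ 𝔡 Φ := by
  have h1 := fun j => 𝔞.exists_disj h (𝔡.χ j) (𝔡.χ j).zero_mem_B (fun i => hne i j)
  choose ε hε hεa _ hdis using h1
  obtain ⟨ε₀, hε₀, Hε₀⟩ := exists_pos_le_of_finite ε hε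
  have hm : 0 < min ε₀ (min 𝔞.ρ 𝔡.ρ) := lt_min hε₀ (lt_min 𝔞.ρ_pos 𝔡.ρ_pos)
  have hd : (𝔞.shrink (min ε₀ (min 𝔞.ρ 𝔡.ρ)) hm ((min_le_right _ _).trans (min_le_left _ _))).Disj
      (𝔡.shrink (min ε₀ (min 𝔞.ρ 𝔡.ρ)) hm ((min_le_right _ _).trans (min_le_right _ _))) := by
    intro i j σ τ hσ hτ he
    have hσ' : ‖σ‖ < ε j := hσ.trans_le ((min_le_left _ _).trans (Hε₀ j))
    have hτ' : ‖τ‖ < ε j := hτ.trans_le ((min_le_left _ _).trans (Hε₀ j))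
    exact hdis j τ (by rwa [Metric.mem_ball, dist_zero_right]) i σ hσ' he.symm
  obtain ⟨Φ, h2, h3⟩ := exists_isAJ h hg _ _ hd
  exact ⟨Φ, h2, h3⟩

/-- [S27/AJ-PHI-b] **the Abel-Jacobi homomorphism** -/
theorem exists_Phi (h : IsFF ℂ F) (hg : g = genusFF ℂ F)
    (b : Module.Basis (Fin g) ℂ (WD (0 : Divisor ℂ F))) :
    ∃ Φ : (Fin g → ℂ) →+ Pic0 ℂ F,
      (∀ χ : Chart F, ∀ σ₀ ∈ χ.B, ∀ᶠ σ in 𝓝 σ₀,
        cls (dPl (χ.pl σ) (χ.pl σ₀)) = Φ (χ.vv b σ - χ.vv b σ₀)) ∧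
      (∃ ρ : ℝ, 0 < ρ ∧ ∀ z, ‖z‖ < ρ → Φ z = 0 → z = 0) := by
  obtain ⟨𝔞₀, -⟩ := exists_sys (b := b) h hg ∅ Set.finite_empty
  -- a first `Φ`
  obtain ⟨𝔡₀, hd₀⟩ := exists_sys (b := b) h hg (Set.range fun i => (𝔞₀.χ i).pl 0)
    (Set.finite_range _)
  obtain ⟨Φ, hΦ, -⟩ := exists_isAJ_of_centres h hg 𝔞₀ 𝔡₀
    (fun i j he => hd₀ j ⟨i, he.symm⟩)
  have hall : ∀ 𝔠 : Sys b, IsAJ 𝔠 Φ := by
    intro 𝔠
    obtain ⟨𝔡, hd⟩ := exists_sys (b := b) h hg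
      ((Set.range fun i => (𝔞₀.χ i).pl 0) ∪ Set.range fun i => (𝔠.χ i).pl 0)
      ((Set.finite_range _).union (Set.finite_range _))
    obtain ⟨Φ₁, h1a, h1d⟩ := exists_isAJ_of_centres h hg 𝔞₀ 𝔡
      (fun i j he => hd j (Or.inl ⟨i, he.symm⟩))
    obtain ⟨Φ₂, h2c, h2d⟩ := exists_isAJ_of_centres h hg 𝔠 𝔡
      (fun i j he => hd j (Or.inr ⟨i, he.symm⟩))
    have e1 : Φ₁ = Φ := h1a.unique hΦ
    have e2 : Φ₂ = Φ₁ := h2d.unique h1d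
    rw [← e1, ← e2]
    exact h2c
  refine ⟨Φ, ?_, ?_⟩
  · intro χ σ₀ hσ₀
    obtain ⟨𝔠, hc⟩ := exists_sys (b := b) h hg {χ.pl σ₀} (Set.finite_singleton _)
    obtain ⟨ε₁, hε₁, hε₁c, hε₁B, hdis⟩ := 𝔠.exists_disj h χ hσ₀ (fun i he => hc i he.symm)
    obtain ⟨ε₂, hε₂, HΦ⟩ := hall 𝔠
    have hm : 0 < min ε₁ ε₂ := lt_min hε₁ hε₂
    set 𝔠' : Sys b := 𝔠.shrink (min ε₁ ε₂) hm ((min_le_left _ _).trans hε₁c) with h𝔠'
    obtain ⟨ρ', hρ', Hopn⟩ := 𝔠.opn (min ε₁ ε₂) hm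
    obtain ⟨ε₃, hε₃, H3⟩ := Metric.continuousAt_iff.1 (χ.continuousAt_vv (b := b) hσ₀) ρ' hρ'
    have hm3 : 0 < min ε₁ ε₃ := lt_min hε₁ hε₃
    have hsol : ∀ σ ∈ Metric.ball σ₀ (min ε₁ ε₃), ∃ s : Fin g → ℂ, (∀ i, ‖s i‖ < 𝔠'.ρ) ∧
        II b 𝔠'.χ s = 0 - (χ.vv b σ - χ.vv b σ₀) := by
      intro σ hσ
      refine Hopn _ ?_
      have := H3 (x := σ) (lt_of_lt_of_le (Metric.mem_ball.1 hσ) (min_le_right _ _))
      rwa [zero_sub, norm_neg, ← dist_eq_norm]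
    filter_upwards [Metric.ball_mem_nhds σ₀ hm3] with σ hσ
    obtain ⟨s', hs', he'⟩ := hsol σ hσ
    have hkl := kl h hg 𝔠' χ σ₀ (min ε₁ ε₃)
      ((Metric.ball_subset_ball (min_le_left _ _)).trans hε₁B)
      (fun σ hσ i τ hτ => hdis σ (Metric.ball_subset_ball (min_le_left _ _) hσ) i τ
        (lt_of_lt_of_le hτ (min_le_left _ _)))
      0 hsol hσ (s := 0) (s' := s') (fun i => by simpa using 𝔠'.ρ_pos) hs' (II_zero _) he'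
    have h5 := HΦ s' fun i => lt_of_lt_of_le (hs' i) (min_le_right _ _)
    have h6 : II b 𝔠.χ s' = - (χ.vv b σ - χ.vv b σ₀) := by
      rw [← zero_sub]; exact he'
    have h7 : cls (𝔠.A s' - 𝔠.A 0) = - cls (dPl (χ.pl σ) (χ.pl σ₀)) := hkl
    rw [h6, map_neg, h7] at h5
    exact (neg_injective h5).symm
  · obtain ⟨ε, hε, HΦ⟩ := hΦ
    obtain ⟨ρ', hρ', Hopn⟩ := 𝔞₀.opn (min ε 𝔞₀.ρ) (lt_min hε 𝔞₀.ρ_pos)
    refine ⟨ρ', hρ', fun z hz hz0 => ?_⟩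
    obtain ⟨s, hs, rfl⟩ := Hopn z hz
    rw [HΦ s fun i => (hs i).trans_le (min_le_left _ _)] at hz0
    rw [𝔞₀.eq_of_cls_eq h hg (fun i => (hs i).trans_le (min_le_right _ _))
      (fun i => by simpa using 𝔞₀.ρ_pos) hz0, II_zero]

end Fermat.Agent.S27
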