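import Fermat.Agent.S27.AJ.KL
import Fermat.Agent.S27.AJ.Fibre

/-!
# S27/AJ : surjectivity of `Φ`, the kernel spans
keys `S27/AJ-RIG` = `rigid_real` (~150 lines: copy of `S37.IsFF.rigid` with `ℝ` instead of `ℤ`);  `S27/AJ-SURJ` = `surj_Phi` (~150 lines);  `S27/AJ-SPAN` = `span_Phi` (~300 lines)

`hP1 : ∀ χ σ₀, ∀ᶠ σ near σ₀, cls (pl σ - pl σ₀) = Φ (vv σ - vv σ₀)`.
* `surj_Phi`: `Q` a place (`infinite_place`), `κ P = QuotientAddGroup.mk (cls (dPl P Q)) : Pic0 ⧸ Φ.range`.  `dPl P Q = dPl P P' + dPl P' Q`, `cls_add`: `κ (pl σ) = κ (pl σ₀)` near `σ₀`.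
  `const_of_locallyConstant`: `κ P = κ Q = 0`, so `cls (dPl P Q) ∈ Φ.range`; `closure_cls_dPl`.
* `span_Phi`: `ℓ` kills `ker Φ` and `Φ` is onto: there is `ℓ' : Pic0 →+ ℝ` with `ℓ' (Φ z) = ℓ z` (`QuotientAddGroup.lift` + `QuotientAddGroup.quotientKerEquivOfSurjective`, or choose preimages).
  `u P = ℓ' (cls (dPl P Q))`; near `σ₀`: `u (pl σ) = u (pl σ₀) + ℓ (vv σ - vv σ₀)`, continuous at `σ₀` (`continuousOn_prim`, `ℓ` is continuous: finite dimension, `LinearMap.continuous_of_finiteDimensional`).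
  `bounded_of_continuous`: `|u| ≤ M`.  `a D := ℓ' (cls (D - (deg D) • single Q 1))` is additive, `a (single P 1) = u P`, kills principal divisors; `rigid_real`: `a = 0` on `degZero`, so `ℓ' = 0`
  (`Pic0.mk_surjective`), `ℓ = 0`.
-/

set_option autoImplicit false

noncomputable section

namespace Fermat.Agent.S27

open AlgebraicCurve Fermat.Agent.S37 Topology

theorem map_eq_sum_real {K F : Type*} [Field K] [Field F] [Algebra K F]
    (a : Divisor K F →+ ℝ) (D : Divisor K F) :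
    a D = D.sum fun v m => (m : ℝ) * a (Finsupp.single v 1) := by
  conv_lhs => rw [← Finsupp.sum_single D]
  rw [map_finsuppSum]
  apply Finsupp.sum_congr
  intro v _
  have : Finsupp.single v (D v) = (D v) • (Finsupp.single v (1 : ℤ) : Divisor K F) := by
    rw [Finsupp.smul_single, smul_eq_mul, mul_one]
  rw [this, map_zsmul, zsmul_eq_mul]

open RiemannAux in
/-- [S27/AJ-RIG] -/
theorem rigid_real {K F : Type*} [Field K] [Field F] [Algebra K F] [IsAlgClosed K] [CharZero K]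
    (h : IsFF K F) (a : Divisor K F →+ ℝ) (c : ℝ)
    (hc : ∀ v : Place K F, |a (Finsupp.single v 1)| ≤ c)
    (hprin : ∀ D ∈ Divisor.principal (K := K) (F := F), a D = 0) :
    ∀ D ∈ Divisor.degZero (K := K) (F := F), a D = 0 := by
  classical
  obtain ⟨γ₀, hγ₀⟩ := h.riemann
  set γ : ℤ := max γ₀ 0 with hγ
  have hγ0 : 0 ≤ γ := le_max_right _ _
  have hγ0' : (0 : ℝ) ≤ (γ : ℝ) := by exact_mod_cast hγ0
  -- bound on effective divisors
  have hbound : ∀ R : Divisor K F, (∀ v, 0 ≤ R v) → |a R| ≤ c * (Divisor.degree R : ℝ) := by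
    intro R hR
    rw [map_eq_sum_real a R, h.degree_eq_sum, Finsupp.sum, Finsupp.sum]
    push_cast
    rw [Finset.mul_sum]
    refine (Finset.abs_sum_le_sum_abs _ _).trans (Finset.sum_le_sum fun v _ => ?_)
    have hRv : (0 : ℝ) ≤ (R v : ℝ) := by exact_mod_cast hR v
    rw [abs_mul, abs_of_nonneg hRv, mul_comm]
    exact mul_le_mul_of_nonneg_right (hc v) hRv
  have hconst : ∀ v₀ v₁ : Place K F, a (Finsupp.single v₀ 1) = a (Finsupp.single v₁ 1) := by
    intro v₀ v₁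
    by_contra hne
    set δ : ℝ := a (Finsupp.single v₀ 1) - a (Finsupp.single v₁ 1) with hδ
    have hδ0 : 0 < |δ| := abs_pos.2 (sub_ne_zero.2 hne)
    have key : ∀ n : ℕ, (n : ℝ) * |δ| ≤ 2 * (c * γ) := by
      intro n
      set D : Divisor K F := (n : ℤ) • (Finsupp.single v₀ 1 - Finsupp.single v₁ 1) +
        γ • Finsupp.single v₁ 1 with hD
      have hdeg : Divisor.degree D = γ := by
        rw [hD, map_add, map_zsmul, map_zsmul, map_sub, degree_single_one h, degree_single_one h]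
        simp
      obtain ⟨g, hg0, hg⟩ := hγ₀ D (by rw [hdeg]; exact le_max_left _ _)
      obtain ⟨Dg, hDg, hDg0⟩ := h.hasPrincipalDivisors.exists_divisor g hg0
      have h1 := hbound (D + Dg) (fun v => by rw [Finsupp.add_apply, hDg]; exact hg v)
      have h2 : a Dg = 0 := hprin Dg ⟨g, hg0, hDg⟩
      rw [map_add a D Dg, map_add Divisor.degree D Dg, h2, hDg0, add_zero, add_zero, hdeg] at h1
      have h3 : a D = n * δ + γ * a (Finsupp.single v₁ 1) := by
        rw [hD, map_add, map_zsmul, map_zsmul, map_sub, zsmul_eq_mul, zsmul_eq_mul]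
        push_cast
        ring
      have h4 : |(γ : ℝ) * a (Finsupp.single v₁ 1)| ≤ c * γ := by
        rw [abs_mul, abs_of_nonneg hγ0', mul_comm]
        exact mul_le_mul_of_nonneg_right (hc v₁) hγ0'
      have h5 : |(n : ℝ) * δ| ≤ |a D| + |(γ : ℝ) * a (Finsupp.single v₁ 1)| := by
        have : (n : ℝ) * δ = a D - γ * a (Finsupp.single v₁ 1) := by rw [h3]; ring
        rw [this]; exact abs_sub _ _
      rw [abs_mul, Nat.abs_cast] at h5
      linarith
    obtain ⟨n, hn⟩ := exists_nat_gt (2 * (c * γ) / |δ|)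
    have := key n
    rw [div_lt_iff₀ hδ0] at hn
    linarith
  intro D hD
  by_cases hD0 : D = 0
  · rw [hD0, map_zero]
  obtain ⟨v₀, -⟩ := Finsupp.support_nonempty_iff.2 hD0
  rw [Divisor.mem_degZero, h.degree_eq_sum, Finsupp.sum] at hD
  rw [map_eq_sum_real a D, Finsupp.sum]
  have : ∀ v ∈ D.support, (D v : ℝ) * a (Finsupp.single v 1) = D v * a (Finsupp.single v₀ 1) :=
    fun v _ => by rw [hconst v v₀]
  rw [Finset.sum_congr rfl this, ← Finset.sum_mul]
  have h0 : (∑ v ∈ D.support, (D v : ℝ)) = 0 := by exact_mod_cast hD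
  rw [h0, zero_mul]

variable {F : Type*} [Field F] [Algebra ℂ F] {g : ℕ}
  {b : Module.Basis (Fin g) ℂ (WD (0 : Divisor ℂ F))}

/-- [S27/AJ-SURJ] -/
theorem surj_Phi (h : IsFF ℂ F) (Φ : (Fin g → ℂ) →+ Pic0 ℂ F)
    (hP1 : ∀ χ : Chart F, ∀ σ₀ ∈ χ.B, ∀ᶠ σ in 𝓝 σ₀,
      cls (dPl (χ.pl σ) (χ.pl σ₀)) = Φ (χ.vv b σ - χ.vv b σ₀)) : Function.Surjective Φ := by
  have := infinite_place h
  obtain ⟨Q⟩ : Nonempty (Place ℂ F) := inferInstance
  set κ : Place ℂ F → Pic0 ℂ F ⧸ Φ.range := fun P => QuotientAddGroup.mk (cls (dPl P Q)) with hκ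
  have hloc : ∀ χ : Chart F, ∀ σ₀ ∈ χ.B, ∀ᶠ σ in 𝓝 σ₀, κ (χ.pl σ) = κ (χ.pl σ₀) := by
    intro χ σ₀ hσ₀
    filter_upwards [hP1 χ σ₀ hσ₀] with σ hσ
    simp only [hκ]
    rw [← dPl_add_dPl (χ.pl σ) (χ.pl σ₀) Q, cls_add (dPl_mem_degZero h _ _) (dPl_mem_degZero h _ _),
      hσ, QuotientAddGroup.eq]
    refine ⟨-(χ.vv b σ - χ.vv b σ₀), ?_⟩
    rw [map_neg]
    abel
  have hmem : ∀ P : Place ℂ F, cls (dPl P Q) ∈ Φ.range := by
    intro P
    have h1 := const_of_locallyConstant h κ hloc P Q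
    simp only [hκ, dPl_self, cls_zero] at h1
    exact (QuotientAddGroup.eq_zero_iff _).1 h1
  rw [← AddMonoidHom.range_eq_top, eq_top_iff, ← closure_cls_dPl h Q, AddSubgroup.closure_le]
  rintro _ ⟨P, rfl⟩
  exact hmem P

theorem degree_of_principal (h : IsFF ℂ F) {D : Divisor ℂ F}
    (hD : D ∈ Divisor.principal (K := ℂ) (F := F)) : Divisor.degree D = 0 := by
  obtain ⟨f, hf, hDf⟩ := hD
  obtain ⟨D', hD', hdeg⟩ := h.hasPrincipalDivisors.exists_divisor f hf
  have : D = D' := by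
    ext v
    rw [hDf, hD']
  rw [this, hdeg]

theorem sub_degree_smul_mem (h : IsFF ℂ F) (Q : Place ℂ F) (D : Divisor ℂ F) :
    D - Divisor.degree D • Finsupp.single Q 1 ∈ Divisor.degZero (K := ℂ) (F := F) := by
  rw [Divisor.mem_degZero, map_sub, map_zsmul, Divisor.degree_single, h.deg_eq_one]
  simp

/-- [S27/AJ-SPAN] -/
theorem span_Phi (h : IsFF ℂ F) (Φ : (Fin g → ℂ) →+ Pic0 ℂ F)
    (hP1 : ∀ χ : Chart F, ∀ σ₀ ∈ χ.B, ∀ᶠ σ in 𝓝 σ₀,
      cls (dPl (χ.pl σ) (χ.pl σ₀)) = Φ (χ.vv b σ - χ.vv b σ₀))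
    (hsurj : Function.Surjective Φ) (ℓ : (Fin g → ℂ) →ₗ[ℝ] ℝ) (hℓ : ∀ z, Φ z = 0 → ℓ z = 0) :
    ℓ = 0 := by
  have := infinite_place h
  obtain ⟨Q⟩ : Nonempty (Place ℂ F) := inferInstance
  -- `ℓ` descends to `Pic0`
  have hℓ2 : ∀ z z', Φ z = Φ z' → ℓ z = ℓ z' := by
    intro z z' he
    have := hℓ (z - z') (by rw [map_sub, he, sub_self])
    rw [map_sub] at this
    exact sub_eq_zero.1 this
  choose ψ hψ using hsurj
  let ℓ' : Pic0 ℂ F →+ ℝ := AddMonoidHom.mk' (fun x => ℓ (ψ x)) (by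
    intro x y
    rw [← map_add]
    exact hℓ2 _ _ (by rw [map_add, hψ, hψ, hψ]))
  have hℓ' : ∀ z, ℓ' (Φ z) = ℓ z := fun z => hℓ2 _ _ (hψ _)
  set u : Place ℂ F → ℝ := fun P => ℓ' (cls (dPl P Q)) with hu
  have hℓc : Continuous ℓ := LinearMap.continuous_of_finiteDimensional ℓ
  have hcont : ∀ χ : Chart F, ContinuousOn (fun σ => u (χ.pl σ)) χ.B := by
    intro χ σ₀ hσ₀
    refine ContinuousAt.continuousWithinAt ?_
    have h1 : ContinuousAt (fun σ => ℓ (χ.vv b σ - χ.vv b σ₀) + u (χ.pl σ₀)) σ₀ := by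
      refine ContinuousAt.add ?_ continuousAt_const
      exact hℓc.continuousAt.comp ((χ.continuousAt_vv hσ₀).sub continuousAt_const)
    refine h1.congr ?_
    filter_upwards [hP1 χ σ₀ hσ₀] with σ hσ
    simp only [hu]
    rw [← dPl_add_dPl (χ.pl σ) (χ.pl σ₀) Q, cls_add (dPl_mem_degZero h _ _) (dPl_mem_degZero h _ _),
      hσ, map_add, hℓ']
  obtain ⟨M, hM⟩ := bounded_of_continuous h u hcont
  let a : Divisor ℂ F →+ ℝ := AddMonoidHom.mk'
    (fun D => ℓ' (cls (D - Divisor.degree D • Finsupp.single Q 1))) (by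
    intro D E
    rw [← map_add, ← cls_add (sub_degree_smul_mem h Q D) (sub_degree_smul_mem h Q E)]
    congr 2
    rw [map_add, add_smul]
    abel)
  have ha : ∀ D ∈ Divisor.degZero (K := ℂ) (F := F), a D = ℓ' (cls D) := by
    intro D hD
    show ℓ' (cls (D - Divisor.degree D • Finsupp.single Q 1)) = _
    rw [Divisor.mem_degZero.1 hD, zero_smul, sub_zero]
  have hrig := rigid_real h a M (fun v => by
      have : a (Finsupp.single v 1) = u v := by
        show ℓ' (cls (Finsupp.single v 1 - Divisor.degree (Finsupp.single v 1) • Finsupp.single Q 1)) = _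
        rw [Divisor.degree_single, h.deg_eq_one]
        simp only [Nat.cast_one, mul_one, one_smul, hu, dPl]
      rw [this]
      exact hM v)
    (fun D hD => by
      have hD0 : D ∈ Divisor.degZero (K := ℂ) (F := F) := degree_of_principal h hD
      rw [ha D hD0, (cls_eq_zero_iff hD0).2 hD, map_zero])
  refine LinearMap.ext fun z => ?_
  rw [← hℓ', LinearMap.zero_apply]
  obtain ⟨⟨D, hD⟩, hDe⟩ := Pic0.mk_surjective (Φ z)
  rw [← hDe, ← cls_of_mem hD, ← ha D hD]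
  exact hrig D hD

end Fermat.Agent.S27
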