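import Fermat.Agent.S27.AJ.Abel
import Fermat.Agent.S27.CH.Main
import Fermat.Agent.S27.AJ.Fibre

/-!
# S27/SYS : non special chart systems
keys `S27/AJ-CLS` = section Cls (~200 lines);  `S27/AJ-SYS-a` = `hasStrictFDerivAt_II`, `det_ne_zero` (~300 lines);  `S27/AJ-SYS-b` = `exists_sys` (~400 lines);
     `S27/AJ-SYS-c` = `Sys.shrink`, `Sys.eq_of_cls_eq`, `Sys.exists_disj` (~250 lines)

`b : Basis (Fin g) ℂ (WD 0)`.  `χ.vv b σ = (prim (b j) σ)_j ∈ V = Fin g → ℂ`.  `II χ b s = ∑ i, (χ i).vv b (s i)`.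

## Cls
`cls D = Pic0.mk ⟨D, _⟩` for `D` of degree `0`.  `cls_add`, `cls_neg`, `cls_eq_zero_iff` (`QuotientAddGroup.eq_zero_iff`, `AddSubgroup.mem_addSubgroupOf`),
`degree_sumPl` (`IsFF.deg_eq_one`), `sumPl` of `Fin.cons`.
## exists_sys
`T' = T ∪ T_bad` (`exists_good_chart`), `P` from `exists_nonspecial h T'`, `χ i` good charts centred at `P i`.
`M i j = (χ i).den (b j) 0 = loc (b j) (P i) ((χ i).t)⁻¹` (`loc_eq_den`, `exc = ∅`, `map_zero`, `sub_zero`).  `det M ≠ 0`: if `∑_j λ_j M i j = 0` for all `i`, then `ω = ∑ λ_j b j` has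
`loc ω (P i) (t i)⁻¹ = 0`, so `ω = 0` (`H1_sumPl_eq_zero_iff`), `λ = 0`.  `II` has the strict derivative `s ↦ (∑_i s i * M i j)_j` at `0` (each `prim` is analytic, so strictly differentiable),
an invertible linear map: `HasStrictFDerivAt.toOpenPartialHomeomorph` gives `inj` and `opn` on a small polydisc.
`nonsp`: `s ↦ det ((χ i).den (b j) (s i))` is continuous, so `≠ 0` near `0`; `H1_sumPl_eq_zero_iff` (⟸) with `π i = (χ i).t - s i` and the places `(χ i).pl (s i)`, distinct by `disj`.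
`disj`: `Chart.sep` for the pairs `i ≠ j`.
## eq_of_cls_eq
`cls (A s - A s') = 0`: `A s - A s' = div f`, `f ∈ L(A s')`; `rr` + `nonsp`: `l (A s') = 1`, so `f` is constant (`1 ∈ L(A s')`), `A s = A s'`; evaluate at `(χ i).pl (s i)`: by `disj` it must be
`(χ i).pl (s' i)`; `pl_injOn`.
-/

set_option autoImplicit false

noncomputable section

namespace Fermat.Agent.S27

open AlgebraicCurve Fermat.Agent.S37 Topology

variable {F : Type*} [Field F] [Algebra ℂ F]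

/- section Cls : moved to `AJ/Cls.lean` (sorry-free) -/

variable {g : ℕ} (b : Module.Basis (Fin g) ℂ (WD (0 : Divisor ℂ F)))

/-- the vector of the primitives of the basis differentials -/
def Chart.vv (χ : Chart F) (σ : ℂ) : Fin g → ℂ := fun j => χ.prim (b j) σ

/-- the Abel-Jacobi integral of a family of charts -/
def II (χ : Fin g → Chart F) (s : Fin g → ℂ) : Fin g → ℂ := ∑ i, (χ i).vv b (s i)

/-- a non special chart system -/
structure Sys where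
  χ : Fin g → Chart F
  ρ : ℝ
  ρ_pos : 0 < ρ
  ρ_le : ∀ i, ρ ≤ (χ i).r
  disj : ∀ i j, i ≠ j → ∀ σ σ' : ℂ, ‖σ‖ < ρ → ‖σ'‖ < ρ → (χ i).pl σ ≠ (χ j).pl σ'
  nonsp : ∀ s : Fin g → ℂ, (∀ i, ‖s i‖ < ρ) →
    Module.finrank ℂ (H1 (sumPl fun i => (χ i).pl (s i))) = 0
  inj : ∀ s s' : Fin g → ℂ, (∀ i, ‖s i‖ < ρ) → (∀ i, ‖s' i‖ < ρ) → II b χ s = II b χ s' → s = s'
  opn : ∀ ε : ℝ, 0 < ε → ∃ ρ' : ℝ, 0 < ρ' ∧ ∀ z : Fin g → ℂ, ‖z‖ < ρ' →
    ∃ s : Fin g → ℂ, (∀ i, ‖s i‖ < ε) ∧ II b χ s = z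

variable {b}

/-- the divisor `∑ i, pl i (s i)` -/
def Sys.A (𝔞 : Sys b) (s : Fin g → ℂ) : Divisor ℂ F := sumPl fun i => (𝔞.χ i).pl (s i)

theorem Chart.vv_zero (χ : Chart F) : χ.vv b 0 = 0 := by
  funext j
  exact χ.prim_zero (b j)

theorem II_zero (χ : Fin g → Chart F) : II b χ 0 = 0 := by
  simp only [II, Pi.zero_apply, Chart.vv_zero, Finset.sum_const_zero]

theorem Chart.continuousAt_vv (χ : Chart F) {σ : ℂ} (hσ : σ ∈ χ.B) : ContinuousAt (χ.vv b) σ :=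
  continuousAt_pi.2 fun j => (χ.hasDerivAt_prim (b j) hσ).continuousAt

theorem continuousAt_II_of_mem (χ : Fin g → Chart F) {s : Fin g → ℂ} (hs : ∀ i, s i ∈ (χ i).B) :
    ContinuousAt (II b χ) s := by
  have : II b χ = fun s => ∑ i, (χ i).vv b (s i) := by funext s; rfl
  rw [this]
  refine tendsto_finsetSum _ fun i _ => ?_
  exact ContinuousAt.comp (f := fun s : Fin g → ℂ => s i) (g := (χ i).vv b)
    ((χ i).continuousAt_vv (hs i)) (continuous_apply i).continuousAt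

theorem continuousAt_II (χ : Fin g → Chart F) : ContinuousAt (II b χ) 0 :=
  continuousAt_II_of_mem χ fun i => (χ i).zero_mem_B

theorem II_apply (χ : Fin g → Chart F) (s : Fin g → ℂ) (j : Fin g) :
    II b χ s j = ∑ i, (χ i).prim (b j) (s i) := by
  simp only [II, Finset.sum_apply, Chart.vv]

namespace SysAux

/-- the matrix of the densities -/
def Mx (b : Module.Basis (Fin g) ℂ (WD (0 : Divisor ℂ F))) (χ : Fin g → Chart F) (s : Fin g → ℂ) :
    Matrix (Fin g) (Fin g) ℂ := Matrix.of fun i j => (χ i).den (b j) (s i)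

theorem loc_sum (v : Fin g → ℂ) (P : Place ℂ F) (y : F) :
    loc (∑ j, v j • b j) P y = ∑ j, v j * loc (b j) P y := by
  unfold loc
  simp [LinearMap.sum_apply, LinearMap.smul_apply]

theorem loc_eq_mulVec (χ : Fin g → Chart F) (hexc : ∀ i, (χ i).exc = ∅) (s : Fin g → ℂ)
    (hs : ∀ i, s i ∈ (χ i).B) (v : Fin g → ℂ) (i : Fin g) :
    loc (∑ j, v j • b j) ((χ i).pl (s i)) ((χ i).t - algebraMap ℂ F (s i))⁻¹ =
      (Mx b χ s).mulVec v i := by
  rw [loc_sum, Matrix.mulVec, dotProduct]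
  refine Finset.sum_congr rfl fun j _ => ?_
  rw [(χ i).loc_eq_den (b j) (hs i) (by rw [hexc i]; exact Set.notMem_empty _), mul_comm]
  rfl

/-- the non speciality criterion -/
theorem nonsp_iff (h : IsFF ℂ F) (χ : Fin g → Chart F) (hexc : ∀ i, (χ i).exc = ∅) (s : Fin g → ℂ)
    (hs : ∀ i, s i ∈ (χ i).B) (hinj : Function.Injective fun i => (χ i).pl (s i)) :
    Module.finrank ℂ (H1 (sumPl fun i => (χ i).pl (s i))) = 0 ↔ (Mx b χ s).det ≠ 0 := by
  rw [H1_sumPl_eq_zero_iff h (fun i => (χ i).pl (s i)) hinj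
    (fun i => (χ i).t - algebraMap ℂ F (s i)) fun i => (χ i).ord_t (s i) (hs i)]
  constructor
  · intro H hdet
    obtain ⟨v, hv0, hv⟩ := Matrix.exists_mulVec_eq_zero_iff.2 hdet
    have h1 := H (∑ j, v j • b j) fun i => by
      rw [loc_eq_mulVec χ hexc s hs v i, hv]; rfl
    apply hv0
    have h2 := congrArg b.repr h1
    funext j
    have h3 := congrArg (fun f => f j) h2
    simpa [Finsupp.single_apply] using h3
  · intro hdet ω hω
    have h1 : ω = ∑ j, (b.repr ω j) • b j := (b.sum_repr ω).symm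
    have h2 : (Mx b χ s).mulVec (fun j => b.repr ω j) = 0 := by
      funext i
      rw [← loc_eq_mulVec χ hexc s hs _ i, ← h1]
      exact hω i
    have h3 := Matrix.eq_zero_of_mulVec_eq_zero hdet h2
    rw [h1]
    refine Finset.sum_eq_zero fun j _ => ?_
    rw [congrFun h3 j]
    simp

theorem continuousAt_det (χ : Fin g → Chart F) :
    ContinuousAt (fun s : Fin g → ℂ => (Mx b χ s).det) 0 := by
  have h1 : ContinuousAt (fun s : Fin g → ℂ => Mx b χ s) 0 := by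
    refine continuousAt_pi.2 fun i => continuousAt_pi.2 fun j => ?_
    show ContinuousAt (fun s : Fin g → ℂ => (χ i).den (b j) (s i)) 0
    have h2 : ContinuousAt ((χ i).den (b j)) ((0 : Fin g → ℂ) i) :=
      ((χ i).analyticAt_den (b j) (χ i).zero_mem_B).continuousAt
    exact ContinuousAt.comp (f := fun s : Fin g → ℂ => s i) h2 (continuous_apply i).continuousAt
  exact (Continuous.matrix_det continuous_id).continuousAt.comp h1

theorem hasStrictDerivAt_prim (χ : Chart F) (ω : WD (0 : Divisor ℂ F)) :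
    HasStrictDerivAt (χ.prim ω) (χ.den ω 0) 0 := by
  have h1 : DifferentiableOn ℂ (χ.prim ω) χ.B := fun σ hσ =>
    (χ.hasDerivAt_prim ω hσ).differentiableAt.differentiableWithinAt
  have h2 : AnalyticAt ℂ (χ.prim ω) 0 :=
    h1.analyticAt (Metric.isOpen_ball.mem_nhds χ.zero_mem_B)
  have h3 := h2.hasStrictDerivAt
  rwa [(χ.hasDerivAt_prim ω χ.zero_mem_B).deriv] at h3

/-- the derivative of `II` at `0` -/
def LL (b : Module.Basis (Fin g) ℂ (WD (0 : Divisor ℂ F))) (χ : Fin g → Chart F) :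
    (Fin g → ℂ) →L[ℂ] (Fin g → ℂ) :=
  ContinuousLinearMap.pi fun j => ∑ i, ((χ i).den (b j) 0) • ContinuousLinearMap.proj (R := ℂ) (φ := fun _ : Fin g => ℂ) i

theorem LL_apply (χ : Fin g → Chart F) (s : Fin g → ℂ) :
    LL b χ s = Matrix.vecMul s (Mx b χ 0) := by
  funext j
  simp only [LL, ContinuousLinearMap.coe_pi', FunLike.coe_sum, Finset.sum_apply,
    FunLike.coe_smul, Pi.smul_apply, ContinuousLinearMap.proj_apply, smul_eq_mul,
    Matrix.vecMul, dotProduct, Mx, Matrix.of_apply, Pi.zero_apply]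
  exact Finset.sum_congr rfl fun i _ => mul_comm _ _

theorem hasStrictFDerivAt_II (χ : Fin g → Chart F) : HasStrictFDerivAt (II b χ) (LL b χ) 0 := by
  rw [hasStrictFDerivAt_pi']
  intro j
  have e : (fun s : Fin g → ℂ => II b χ s j) = fun s => ∑ i, (χ i).prim (b j) (s i) := by
    funext s; exact II_apply χ s j
  rw [e]
  have e2 : (ContinuousLinearMap.proj (R := ℂ) (φ := fun _ : Fin g => ℂ) j).comp (LL b χ) =
      ∑ i, ((χ i).den (b j) 0) • ContinuousLinearMap.proj (R := ℂ) (φ := fun _ : Fin g => ℂ) i := by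
    ext s
    simp [LL]
  rw [e2]
  refine HasStrictFDerivAt.fun_sum fun i _ => ?_
  have h1 : HasStrictDerivAt ((χ i).prim (b j)) ((χ i).den (b j) 0) ((0 : Fin g → ℂ) i) :=
    hasStrictDerivAt_prim (χ i) (b j)
  have h2 : HasStrictFDerivAt (fun s : Fin g → ℂ => s i)
      (ContinuousLinearMap.proj (R := ℂ) (φ := fun _ : Fin g => ℂ) i) 0 :=
    (ContinuousLinearMap.proj (R := ℂ) (φ := fun _ : Fin g => ℂ) i).hasStrictFDerivAt
  exact HasStrictDerivAt.comp_hasStrictFDerivAt (f := fun s : Fin g → ℂ => s i) (0 : Fin g → ℂ) h1 h2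

end SysAux

open SysAux

/-- [S27/AJ-SYS-b] -/
theorem exists_sys (h : IsFF ℂ F) (hg : g = genusFF ℂ F) (T : Set (Place ℂ F)) (hT : T.Finite) :
    ∃ 𝔞 : Sys b, ∀ i, (𝔞.χ i).pl 0 ∉ T := by
  subst hg
  obtain ⟨P, hPinj, hPT, hPns⟩ := exists_nonspecial h T hT
  choose χ hχ0 hexc using fun i => exists_chart' h (P i)
  have hpl0 : (fun i => (χ i).pl ((0 : Fin (genusFF ℂ F) → ℂ) i)) = P := funext hχ0
  -- the determinant at `0`
  have hdet0 : (Mx b χ 0).det ≠ 0 := by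
    refine (nonsp_iff h χ hexc 0 (fun i => (χ i).zero_mem_B) ?_).1 ?_
    · rw [hpl0]; exact hPinj
    · rw [hpl0]; exact hPns
  -- the local inverse
  have hLinj : Function.Injective (LL b χ) := by
    rw [injective_iff_map_eq_zero]
    intro s hs
    rw [LL_apply] at hs
    exact Matrix.eq_zero_of_vecMul_eq_zero hdet0 hs
  obtain ⟨E, hE⟩ : ∃ E : (Fin (genusFF ℂ F) → ℂ) ≃L[ℂ] (Fin (genusFF ℂ F) → ℂ),
      (E : (Fin (genusFF ℂ F) → ℂ) →L[ℂ] (Fin (genusFF ℂ F) → ℂ)) = LL b χ := by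
    refine ⟨(LinearEquiv.ofInjectiveEndo (LL b χ : (Fin (genusFF ℂ F) → ℂ) →ₗ[ℂ] _)
      hLinj).toContinuousLinearEquiv, ?_⟩
    ext s : 1
    rfl
  have hs' : HasStrictFDerivAt (II b χ)
      (E : (Fin (genusFF ℂ F) → ℂ) →L[ℂ] (Fin (genusFF ℂ F) → ℂ)) 0 := by
    rw [hE]; exact hasStrictFDerivAt_II χ
  obtain ⟨e, he⟩ : ∃ e : OpenPartialHomeomorph (Fin (genusFF ℂ F) → ℂ) (Fin (genusFF ℂ F) → ℂ),
      e = hs'.toOpenPartialHomeomorph (II b χ) := ⟨_, rfl⟩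
  have hcoe : (e : (Fin (genusFF ℂ F) → ℂ) → (Fin (genusFF ℂ F) → ℂ)) = II b χ := by
    rw [he]; exact hs'.toOpenPartialHomeomorph_coe
  have hsrc : (0 : Fin (genusFF ℂ F) → ℂ) ∈ e.source := by
    rw [he]; exact hs'.mem_toOpenPartialHomeomorph_source
  have htgt : (0 : Fin (genusFF ℂ F) → ℂ) ∈ e.target := by
    have := e.map_source hsrc
    rwa [hcoe, II_zero] at this
  have hinv0 : e.symm 0 = 0 := by
    have := e.left_inv hsrc
    rwa [hcoe, II_zero] at this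
  -- radii
  obtain ⟨ρ₁, h1, H1⟩ := Metric.eventually_nhds_iff_ball.1 (e.open_source.mem_nhds hsrc)
  obtain ⟨ρ₂, h2, H2⟩ := Metric.eventually_nhds_iff_ball.1
    ((continuousAt_det (b := b) χ).eventually_ne hdet0)
  obtain ⟨ρ₃, h3, H3⟩ := FibreAux.exists_radius (Finset.univ : Finset (Fin (genusFF ℂ F)))
    (fun i ρ => ρ ≤ (χ i).r) fun i _ => ⟨(χ i).r, (χ i).r_pos, fun ρ _ hle => hle⟩
  obtain ⟨ρ₄, h4, H4⟩ := FibreAux.exists_radius
    (Finset.univ : Finset (Fin (genusFF ℂ F) × Fin (genusFF ℂ F)))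
    (fun x ρ => x.1 ≠ x.2 → ∀ σ σ' : ℂ, ‖σ‖ < ρ → ‖σ'‖ < ρ → (χ x.1).pl σ ≠ (χ x.2).pl σ')
    fun x _ => by
      by_cases hne : x.1 = x.2
      · exact ⟨1, one_pos, fun _ _ _ h' => absurd hne h'⟩
      · obtain ⟨ρ', h1', H1'⟩ := Chart.sep h (χ x.1) (χ x.2) (χ x.1).zero_mem_B (χ x.2).zero_mem_B
          (by rw [hχ0, hχ0]; exact fun h' => hne (hPinj h'))
        refine ⟨ρ', h1', fun ρ _ hle _ σ σ' hσ hσ' => H1' σ σ' ?_ ?_⟩
        · rw [sub_zero]; exact hσ.trans_le hle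
        · rw [sub_zero]; exact hσ'.trans_le hle
  obtain ⟨ρ, hρ⟩ : ∃ ρ : ℝ, ρ = min (min ρ₁ ρ₂) (min ρ₃ ρ₄) := ⟨_, rfl⟩
  have hρ0 : 0 < ρ := by rw [hρ]; exact lt_min (lt_min h1 h2) (lt_min h3 h4)
  have hle1 : ρ ≤ ρ₁ := by rw [hρ]; exact (min_le_left _ _).trans (min_le_left _ _)
  have hle2 : ρ ≤ ρ₂ := by rw [hρ]; exact (min_le_left _ _).trans (min_le_right _ _)
  have hle3 : ρ ≤ ρ₃ := by rw [hρ]; exact (min_le_right _ _).trans (min_le_left _ _)
  have hle4 : ρ ≤ ρ₄ := by rw [hρ]; exact (min_le_right _ _).trans (min_le_right _ _)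
  have hball : ∀ (s : Fin (genusFF ℂ F) → ℂ) (r : ℝ), ρ ≤ r → (∀ i, ‖s i‖ < ρ) →
      s ∈ Metric.ball (0 : Fin (genusFF ℂ F) → ℂ) r := by
    intro s r hr hs
    rw [Metric.mem_ball, dist_zero_right]
    exact ((pi_norm_lt_iff hρ0).2 hs).trans_le hr
  have hdisj : ∀ i j, i ≠ j → ∀ σ σ' : ℂ, ‖σ‖ < ρ → ‖σ'‖ < ρ → (χ i).pl σ ≠ (χ j).pl σ' :=
    fun i j hij => H4 ρ hρ0 hle4 (i, j) (Finset.mem_univ _) hij
  have hρr : ∀ i, ρ ≤ (χ i).r := fun i => H3 ρ hρ0 hle3 i (Finset.mem_univ _)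
  refine ⟨{ χ := χ
            ρ := ρ
            ρ_pos := hρ0
            ρ_le := hρr
            disj := hdisj
            nonsp := fun s hs => ?_
            inj := fun s s' hs hs' hII => ?_
            opn := fun ε hε => ?_ }, fun i => by rw [hχ0]; exact hPT i⟩
  · refine (nonsp_iff h χ hexc s (fun i => ?_) ?_).2 (H2 s (hball s ρ₂ hle2 hs))
    · rw [Metric.mem_ball, dist_zero_right]
      exact (hs i).trans_le (hρr i)
    · intro i j hij
      by_contra hne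
      exact hdisj i j hne _ _ (hs i) (hs j) hij
  · refine e.injOn (H1 s (hball s ρ₁ hle1 hs)) (H1 s' (hball s' ρ₁ hle1 hs')) ?_
    rw [hcoe]; exact hII
  · have hc : ContinuousAt e.symm 0 := e.symm.continuousAt htgt
    have hV : ∀ᶠ z in 𝓝 (0 : Fin (genusFF ℂ F) → ℂ), z ∈ e.target ∧ ‖e.symm z‖ < ε := by
      refine Filter.Eventually.and (e.open_target.mem_nhds htgt) ?_
      have ht := hc.tendsto
      rw [hinv0] at ht
      have hP : ∀ᶠ s in 𝓝 (0 : Fin (genusFF ℂ F) → ℂ), ‖s‖ < ε := by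
        filter_upwards [Metric.ball_mem_nhds (0 : Fin (genusFF ℂ F) → ℂ) hε] with s hs
        rwa [Metric.mem_ball, dist_zero_right] at hs
      exact ht.eventually hP
    obtain ⟨ρ', hρ', H⟩ := Metric.eventually_nhds_iff_ball.1 hV
    refine ⟨ρ', hρ', fun z hz => ?_⟩
    obtain ⟨hz1, hz2⟩ := H z (by rwa [Metric.mem_ball, dist_zero_right])
    refine ⟨e.symm z, (pi_norm_lt_iff hε).1 hz2, ?_⟩
    rw [← hcoe]
    exact e.right_inv hz1

/-- shrinking -/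
def Sys.shrink (𝔞 : Sys b) (ρ' : ℝ) (h0 : 0 < ρ') (hle : ρ' ≤ 𝔞.ρ) : Sys b where
  χ := 𝔞.χ
  ρ := ρ'
  ρ_pos := h0
  ρ_le := fun i => hle.trans (𝔞.ρ_le i)
  disj := fun i j hij σ σ' hσ hσ' => 𝔞.disj i j hij σ σ' (hσ.trans_le hle) (hσ'.trans_le hle)
  nonsp := fun s hs => 𝔞.nonsp s fun i => (hs i).trans_le hle
  inj := fun s s' hs hs' => 𝔞.inj s s' (fun i => (hs i).trans_le hle) fun i => (hs' i).trans_le hle
  opn := 𝔞.opn

/-- [S27/AJ-SYS-c] linearly equivalent divisors of the system are equal -/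
theorem Sys.eq_of_cls_eq (h : IsFF ℂ F) (hg : g = genusFF ℂ F) (𝔞 : Sys b) {s s' : Fin g → ℂ}
    (hs : ∀ i, ‖s i‖ < 𝔞.ρ) (hs' : ∀ i, ‖s' i‖ < 𝔞.ρ) (hc : cls (𝔞.A s - 𝔞.A s') = 0) : s = s' := by
  rw [Sys.A, Sys.A, cls_eq_zero_iff (sumPl_sub_mem_degZero h _ _)] at hc
  obtain ⟨f, hf0, hf⟩ := hc
  -- `L(A s')` is one dimensional
  have hrr := rr h (sumPl fun i => (𝔞.χ i).pl (s' i))
  rw [𝔞.nonsp s' hs', degree_sumPl h, ← hg] at hrr
  have hfin : Module.finrank ℂ (riemannRochSpace (sumPl fun i => (𝔞.χ i).pl (s' i))) = 1 := by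
    have : (Module.finrank ℂ (riemannRochSpace (sumPl fun i => (𝔞.χ i).pl (s' i))) : ℤ) = 1 := by
      push_cast at hrr
      linarith
    exact_mod_cast this
  have h1L : (1 : F) ∈ riemannRochSpace (sumPl fun i => (𝔞.χ i).pl (s' i)) := by
    rw [mem_riemannRochSpace_iff]
    intro v
    right
    rw [Place.ord_one]
    have := sumPl_nonneg (fun i => (𝔞.χ i).pl (s' i)) v
    omega
  have hfL : f ∈ riemannRochSpace (sumPl fun i => (𝔞.χ i).pl (s' i)) := by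
    rw [mem_riemannRochSpace_iff]
    intro v
    right
    rw [← hf v, Finsupp.sub_apply]
    have := sumPl_nonneg (fun i => (𝔞.χ i).pl (s i)) v
    omega
  obtain ⟨c, hc⟩ := (finrank_eq_one_iff_of_nonzero'
    (⟨1, h1L⟩ : riemannRochSpace (sumPl fun i => (𝔞.χ i).pl (s' i)))
    (fun h0 => one_ne_zero (congrArg Subtype.val h0))).1 hfin ⟨f, hfL⟩
  have hfc : f = algebraMap ℂ F c := by
    have := congrArg Subtype.val hc
    simp only [Submodule.coe_smul] at this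
    rw [← this, Algebra.smul_def, mul_one]
  have hord : ∀ v : Place ℂ F, v.ord f = 0 := fun v => by rw [hfc]; exact AR.ord_algebraMap v c
  funext i
  have h2 := hf ((𝔞.χ i).pl (s i))
  rw [hord, Finsupp.sub_apply] at h2
  have h3 := one_le_sumPl_apply (fun i => (𝔞.χ i).pl (s i)) i
  have h4 : ∃ k, (𝔞.χ k).pl (s' k) = (𝔞.χ i).pl (s i) := by
    by_contra hcon
    push Not at hcon
    have := sumPl_apply_of_ne (P := fun i => (𝔞.χ i).pl (s' i)) hcon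
    omega
  obtain ⟨k, hk⟩ := h4
  have hki : k = i := by
    by_contra hne
    exact 𝔞.disj k i hne _ _ (hs' k) (hs i) hk
  subst hki
  have hB : ∀ t : Fin g → ℂ, (∀ i, ‖t i‖ < 𝔞.ρ) → t k ∈ (𝔞.χ k).B := by
    intro t ht
    rw [Metric.mem_ball, dist_zero_right]
    exact (ht k).trans_le (𝔞.ρ_le k)
  exact ((𝔞.χ k).pl_injOn h (hB s' hs') (hB s hs) hk).symm

/-- [S27/AJ-SYS-c] a chart point which is not a centre is disjoint from the shrunk system -/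
theorem Sys.exists_disj (h : IsFF ℂ F) (𝔞 : Sys b) (χ : Chart F) {σ₀ : ℂ} (hσ : σ₀ ∈ χ.B)
    (hne : ∀ i, χ.pl σ₀ ≠ (𝔞.χ i).pl 0) :
    ∃ ε : ℝ, 0 < ε ∧ ε ≤ 𝔞.ρ ∧ Metric.ball σ₀ ε ⊆ χ.B ∧
      ∀ σ ∈ Metric.ball σ₀ ε, ∀ i, ∀ τ : ℂ, ‖τ‖ < ε → χ.pl σ ≠ (𝔞.χ i).pl τ := by
  obtain ⟨ρ₁, h1, H1⟩ := FibreAux.exists_radius (Finset.univ : Finset (Fin g))
    (fun i ρ => ∀ σ τ : ℂ, ‖σ - σ₀‖ < ρ → ‖τ‖ < ρ → χ.pl σ ≠ (𝔞.χ i).pl τ) fun i _ => by
      obtain ⟨ρ', h1', H1'⟩ := Chart.sep h χ (𝔞.χ i) hσ (𝔞.χ i).zero_mem_B (hne i)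
      refine ⟨ρ', h1', fun ρ _ hle σ τ hσ' hτ => H1' σ τ (hσ'.trans_le hle) ?_⟩
      rw [sub_zero]; exact hτ.trans_le hle
  obtain ⟨ρ₂, h2, H2⟩ := Metric.isOpen_iff.1 Metric.isOpen_ball σ₀ hσ
  refine ⟨min (min ρ₁ ρ₂) 𝔞.ρ, lt_min (lt_min h1 h2) 𝔞.ρ_pos, min_le_right _ _,
    (Metric.ball_subset_ball ((min_le_left _ _).trans (min_le_right _ _))).trans H2,
    fun σ hσ' i τ hτ => ?_⟩
  refine H1 _ (lt_min (lt_min h1 h2) 𝔞.ρ_pos) ((min_le_left _ _).trans (min_le_left _ _)) i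
    (Finset.mem_univ _) σ τ ?_ hτ
  rwa [Metric.mem_ball, dist_eq_norm] at hσ'

end Fermat.Agent.S27
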